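/-
S55lib / Places / Basic (lead).
Dictionary between the primes of the ring of integers of a number field `M` above a rational
prime `q` and the embeddings `ι : M →ₐ[ℚ] PadicAlgCl q`.
(P1): the prime `primeOf ι = {x ∈ 𝓞 M | ‖ι x‖ < 1}`; it only depends on the `G_q`-orbit of `ι`.
-/
import Mathlib

set_option autoImplicit false

noncomputable section

namespace Fermat.Agent.S55lib.Places

open NumberField IsDedekindDomain

variable (q : ℕ) [Fact q.Prime]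

/-- elements of `PadicAlgCl q` which are integral over `ℤ` have norm at most one -/
theorem norm_le_one_of_isIntegral {x : PadicAlgCl q} (hx : IsIntegral ℤ x) : ‖x‖ ≤ 1 := by
  have h1 : IsIntegral (Valued.v : Valuation (PadicAlgCl q) NNReal).integer x :=
    hx.tower_top
  have h2 :=
    (Valuation.integer.integers (Valued.v : Valuation (PadicAlgCl q) NNReal)).mem_of_integral h1
  have h3 : (Valued.v x : NNReal) ≤ 1 := h2
  have h4 : ((Valued.v x : NNReal) : ℝ) ≤ 1 := by exact_mod_cast h3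
  rwa [PadicAlgCl.valuation_coe] at h4

theorem norm_natCast_self : ‖((q : ℕ) : PadicAlgCl q)‖ = (q : ℝ)⁻¹ := by
  have h : ((q : ℕ) : PadicAlgCl q) = ((q : ℚ_[q]) : PadicAlgCl q) := by
    exact (map_natCast (algebraMap ℚ_[q] (PadicAlgCl q)) q).symm
  rw [h, PadicAlgCl.norm_extends, Padic.norm_p]

theorem norm_natCast_self_lt_one : ‖((q : ℕ) : PadicAlgCl q)‖ < 1 := by
  rw [norm_natCast_self]
  have : (1 : ℝ) < q := by exact_mod_cast (Fact.out : q.Prime).one_lt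
  exact inv_lt_one_of_one_lt₀ this

variable {q} {M : Type*} [Field M] [NumberField M]

/-- the ring homomorphism `𝓞 M → PadicAlgCl q` attached to an embedding -/
def intHom (ι : M →ₐ[ℚ] PadicAlgCl q) : 𝓞 M →+* PadicAlgCl q :=
  ι.toRingHom.comp (algebraMap (𝓞 M) M)

@[simp] theorem intHom_apply (ι : M →ₐ[ℚ] PadicAlgCl q) (x : 𝓞 M) : intHom ι x = ι (x : M) := rfl

theorem norm_intHom_le_one (ι : M →ₐ[ℚ] PadicAlgCl q) (x : 𝓞 M) : ‖intHom ι x‖ ≤ 1 := by
  apply norm_le_one_of_isIntegral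
  have hx : IsIntegral ℤ (x : M) := RingOfIntegers.isIntegral_coe x
  exact hx.map (ι.toRingHom.toIntAlgHom)

theorem norm_le_one_of_mem_integers (ι : M →ₐ[ℚ] PadicAlgCl q) (x : 𝓞 M) :
    ‖ι (x : M)‖ ≤ 1 := norm_intHom_le_one ι x

/-- the ideal of `𝓞 M` cut out by an embedding into `PadicAlgCl q` -/
def idealOf (ι : M →ₐ[ℚ] PadicAlgCl q) : Ideal (𝓞 M) where
  carrier := {x | ‖intHom ι x‖ < 1}
  add_mem' {a b} ha hb := by
    have ha' : ‖intHom ι a‖ < 1 := ha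
    have hb' : ‖intHom ι b‖ < 1 := hb
    change ‖intHom ι (a + b)‖ < 1
    rw [map_add]
    exact lt_of_le_of_lt (IsUltrametricDist.norm_add_le_max _ _) (max_lt ha' hb')
  zero_mem' := by
    change ‖intHom ι 0‖ < 1
    rw [map_zero, norm_zero]
    exact one_pos
  smul_mem' c x hx := by
    have hx' : ‖intHom ι x‖ < 1 := hx
    change ‖intHom ι (c * x)‖ < 1
    rw [map_mul, norm_mul]
    calc ‖intHom ι c‖ * ‖intHom ι x‖ ≤ 1 * ‖intHom ι x‖ :=
          mul_le_mul_of_nonneg_right (norm_intHom_le_one ι c) (norm_nonneg _)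
      _ < 1 := by rwa [one_mul]

theorem mem_idealOf {ι : M →ₐ[ℚ] PadicAlgCl q} {x : 𝓞 M} :
    x ∈ idealOf ι ↔ ‖ι (x : M)‖ < 1 := Iff.rfl

theorem notMem_idealOf_iff {ι : M →ₐ[ℚ] PadicAlgCl q} {x : 𝓞 M} :
    x ∉ idealOf ι ↔ ‖ι (x : M)‖ = 1 := by
  rw [mem_idealOf, not_lt]
  exact ⟨fun h => le_antisymm (norm_le_one_of_mem_integers ι x) h, fun h => h.ge⟩

theorem natCast_mem_idealOf (ι : M →ₐ[ℚ] PadicAlgCl q) : ((q : ℕ) : 𝓞 M) ∈ idealOf ι := by
  change ‖intHom ι ((q : ℕ) : 𝓞 M)‖ < 1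
  rw [map_natCast]
  exact norm_natCast_self_lt_one q

instance isPrime_idealOf (ι : M →ₐ[ℚ] PadicAlgCl q) : (idealOf ι).IsPrime where
  ne_top' := by
    rw [Ideal.ne_top_iff_one]
    change ¬ ‖intHom ι 1‖ < 1
    rw [map_one, norm_one]
    exact lt_irrefl _
  mem_or_mem' {a b} hab := by
    by_contra hcon
    rw [not_or, notMem_idealOf_iff, notMem_idealOf_iff] at hcon
    have hab' : ‖intHom ι (a * b)‖ < 1 := hab
    rw [map_mul, norm_mul, intHom_apply, intHom_apply, hcon.1, hcon.2, one_mul] at hab'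
    exact lt_irrefl _ hab'

theorem idealOf_ne_bot (ι : M →ₐ[ℚ] PadicAlgCl q) : idealOf ι ≠ ⊥ := by
  intro h
  have h1 := natCast_mem_idealOf ι
  rw [h, Ideal.mem_bot] at h1
  have : ((q : ℕ) : 𝓞 M) ≠ 0 := Nat.cast_ne_zero.mpr (Fact.out : q.Prime).ne_zero
  exact this h1

/-- (P1) the prime of `𝓞 M` attached to an embedding `M →ₐ[ℚ] PadicAlgCl q` -/
def primeOf (ι : M →ₐ[ℚ] PadicAlgCl q) : HeightOneSpectrum (𝓞 M) where
  asIdeal := idealOf ι
  isPrime := isPrime_idealOf ι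
  ne_bot := idealOf_ne_bot ι

@[simp] theorem primeOf_asIdeal (ι : M →ₐ[ℚ] PadicAlgCl q) :
    (primeOf ι).asIdeal = idealOf ι := rfl

theorem mem_primeOf {ι : M →ₐ[ℚ] PadicAlgCl q} {x : 𝓞 M} :
    x ∈ (primeOf ι).asIdeal ↔ ‖ι (x : M)‖ < 1 := Iff.rfl

/-- post-composition of an embedding with an element of `G_q` -/
def postComp (d : PadicAlgCl q ≃ₐ[ℚ_[q]] PadicAlgCl q) (ι : M →ₐ[ℚ] PadicAlgCl q) :
    M →ₐ[ℚ] PadicAlgCl q :=
  ((d.restrictScalars ℚ : PadicAlgCl q ≃ₐ[ℚ] PadicAlgCl q) : PadicAlgCl q →ₐ[ℚ] PadicAlgCl q).comp ι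

@[simp] theorem postComp_apply (d : PadicAlgCl q ≃ₐ[ℚ_[q]] PadicAlgCl q)
    (ι : M →ₐ[ℚ] PadicAlgCl q) (x : M) : postComp d ι x = d (ι x) := rfl

theorem norm_algEquiv (d : PadicAlgCl q ≃ₐ[ℚ_[q]] PadicAlgCl q) (y : PadicAlgCl q) :
    ‖d y‖ = ‖y‖ := (spectralNorm_eq_of_equiv d y).symm

/-- `primeOf` is constant on `G_q`-orbits -/
theorem primeOf_postComp (d : PadicAlgCl q ≃ₐ[ℚ_[q]] PadicAlgCl q) (ι : M →ₐ[ℚ] PadicAlgCl q) :
    primeOf (postComp d ι) = primeOf ι := by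
  apply HeightOneSpectrum.ext
  ext x
  rw [primeOf_asIdeal, primeOf_asIdeal, mem_idealOf, mem_idealOf, postComp_apply, norm_algEquiv]

/-- the prime `primeOf ι` lies over `q` -/
theorem natCast_mem_primeOf (ι : M →ₐ[ℚ] PadicAlgCl q) :
    ((q : ℕ) : 𝓞 M) ∈ (primeOf ι).asIdeal := natCast_mem_idealOf ι

end Fermat.Agent.S55lib.Places
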