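/-
S55lib / Places / Surj (lead).
(P3): every prime of `𝓞 M` above `q` is `primeOf ι` for some embedding `ι : M →ₐ[ℚ] PadicAlgCl q`.
-/
import Mathlib
import Fermat.Agent.S55lib.Places.Basic

set_option autoImplicit false

noncomputable section

namespace Fermat.Agent.S55lib.Places

open NumberField IsDedekindDomain

variable {q : ℕ} [Fact q.Prime] {M : Type*} [Field M] [NumberField M]

/-- the `q`-adic norm of the field norm is the product of the norms of the conjugates -/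
theorem norm_algebraNorm_eq_prod (x : M) :
    ‖(algebraMap ℚ (PadicAlgCl q) (Algebra.norm ℚ x))‖ = ∏ ι : M →ₐ[ℚ] PadicAlgCl q, ‖ι x‖ := by
  rw [Algebra.norm_eq_prod_embeddings ℚ (PadicAlgCl q) x, norm_prod]

theorem norm_ratCast (r : ℚ) : ‖(algebraMap ℚ (PadicAlgCl q) r)‖ = ‖(r : ℚ_[q])‖ := by
  have h : algebraMap ℚ (PadicAlgCl q) r = ((r : ℚ_[q]) : PadicAlgCl q) :=
    (eq_ratCast (algebraMap ℚ (PadicAlgCl q)) r).trans
      (map_ratCast (algebraMap ℚ_[q] (PadicAlgCl q)) r).symm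
  rw [h, PadicAlgCl.norm_extends]

/-- (P3) every prime of `𝓞 M` containing `q` comes from an embedding into `PadicAlgCl q` -/
theorem exists_primeOf_eq (P : HeightOneSpectrum (𝓞 M)) (hP : ((q : ℕ) : 𝓞 M) ∈ P.asIdeal) :
    ∃ ι : M →ₐ[ℚ] PadicAlgCl q, primeOf ι = P := by
  classical
  by_contra hcon
  have hne : ∀ ι : M →ₐ[ℚ] PadicAlgCl q, primeOf ι ≠ P := fun ι h => hcon ⟨ι, h⟩
  have ι₀ : M →ₐ[ℚ] PadicAlgCl q := IsAlgClosed.lift
  -- prime avoidance
  have hnot : ¬ ((P.asIdeal : Set (𝓞 M)) ⊆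
      ⋃ ι ∈ ((Finset.univ : Finset (M →ₐ[ℚ] PadicAlgCl q)) : Set (M →ₐ[ℚ] PadicAlgCl q)),
        (idealOf ι : Set (𝓞 M))) := by
    intro hsub
    rw [Ideal.subset_union_prime (R := 𝓞 M) (f := fun ι : M →ₐ[ℚ] PadicAlgCl q => idealOf ι)
      (s := Finset.univ) ι₀ ι₀
      (fun ι _ _ _ => isPrime_idealOf ι)] at hsub
    obtain ⟨ι, -, hle⟩ := hsub
    have hmax : P.asIdeal.IsMaximal := P.isMaximal
    have : P.asIdeal = idealOf ι := hmax.eq_of_le (isPrime_idealOf ι).ne_top hle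
    exact hne ι (HeightOneSpectrum.ext this.symm)
  rw [Set.not_subset] at hnot
  obtain ⟨x, hxP, hx⟩ := hnot
  have hx1 : ∀ ι : M →ₐ[ℚ] PadicAlgCl q, ‖ι (x : M)‖ = 1 := by
    intro ι
    rw [← notMem_idealOf_iff]
    intro hmem
    exact hx (Set.mem_biUnion (Finset.mem_coe.mpr (Finset.mem_univ ι)) hmem)
  -- the norm of x is a q-adic unit
  have hnorm1 : ‖(algebraMap ℚ (PadicAlgCl q) (Algebra.norm ℚ (x : M)))‖ = 1 := by
    rw [norm_algebraNorm_eq_prod]
    exact Finset.prod_eq_one fun ι _ => hx1 ι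
  -- but q divides the norm of x
  have hdvd : (q : ℤ) ∣ Algebra.norm ℤ x := by
    have h1 : (Ideal.absNorm P.asIdeal : ℤ) ∣ Algebra.norm ℤ x :=
      Ideal.absNorm_dvd_norm_of_mem hxP
    have h2 : (q : ℤ) ∣ (Ideal.absNorm P.asIdeal : ℤ) := by
      by_contra hnd
      have hcop : IsCoprime (q : ℤ) (Ideal.absNorm P.asIdeal : ℤ) := by
        rw [Int.isCoprime_iff_gcd_eq_one, Int.gcd_natCast_natCast]
        exact (Nat.Prime.coprime_iff_not_dvd (Fact.out : q.Prime)).mpr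
          (fun h => hnd (Int.natCast_dvd_natCast.mpr h))
      obtain ⟨a, b, hab⟩ := hcop
      have hN : ((Ideal.absNorm P.asIdeal : ℕ) : 𝓞 M) ∈ P.asIdeal := Ideal.absNorm_mem _
      have h1mem : (1 : 𝓞 M) ∈ P.asIdeal := by
        have hcast : ((a * (q : ℤ) + b * (Ideal.absNorm P.asIdeal : ℤ) : ℤ) : 𝓞 M) = 1 := by
          rw [hab, Int.cast_one]
        rw [← hcast]
        push_cast
        exact Ideal.add_mem _ (Ideal.mul_mem_left _ _ hP) (Ideal.mul_mem_left _ _ hN)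
      exact P.isPrime.ne_top ((Ideal.eq_top_iff_one _).mpr h1mem)
    exact h2.trans h1
  have hnorm2 : ‖(algebraMap ℚ (PadicAlgCl q) (Algebra.norm ℚ (x : M)))‖ < 1 := by
    rw [← Algebra.coe_norm_int x, norm_ratCast]
    have : ((((Algebra.norm ℤ) x : ℤ) : ℚ) : ℚ_[q]) = ((Algebra.norm ℤ x : ℤ) : ℚ_[q]) := by
      norm_cast
    rw [this, Padic.norm_intCast_lt_one_iff]
    exact hdvd
  rw [hnorm1] at hnorm2
  exact lt_irrefl _ hnorm2

end Fermat.Agent.S55lib.Places
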