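/-
S55lib / Places / Choice (lead).
For a finite place `v` of a number field `F`: the rational prime `qOf v` below `v` and a chosen
embedding `embOf v : F →ₐ[ℚ] PadicAlgCl (qOf v)` with `primeOf (embOf v) = v`.
-/
import Mathlib
import Fermat.Agent.S55lib.Places.Surj

set_option autoImplicit false

noncomputable section

namespace Fermat.Agent.S55lib.Places

open NumberField IsDedekindDomain

section Choice

variable {F : Type*} [Field F] [NumberField F]

/-- every finite place of a number field lies over a rational prime -/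
theorem exists_prime_natCast_mem (v : HeightOneSpectrum (𝓞 F)) :
    ∃ q : ℕ, q.Prime ∧ ((q : ℕ) : 𝓞 F) ∈ v.asIdeal := by
  have key : ∀ n : ℕ, n ≠ 0 → ((n : ℕ) : 𝓞 F) ∈ v.asIdeal →
      ∃ q : ℕ, q.Prime ∧ ((q : ℕ) : 𝓞 F) ∈ v.asIdeal := by
    intro n
    induction n using Nat.recOnMul with
    | zero => intro h; exact absurd rfl h
    | one =>
      intro _ h1
      rw [Nat.cast_one] at h1
      exact absurd ((Ideal.eq_top_iff_one _).mpr h1) v.isPrime.ne_top
    | prime p hp => intro _ hmem; exact ⟨p, hp, hmem⟩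
    | mul a b iha ihb =>
      intro hab hmem
      rw [Nat.cast_mul] at hmem
      rcases v.isPrime.mem_or_mem hmem with h | h
      · exact iha (left_ne_zero_of_mul hab) h
      · exact ihb (right_ne_zero_of_mul hab) h
  refine key (Ideal.absNorm v.asIdeal) ?_ (Ideal.absNorm_mem _)
  rw [Ne, Ideal.absNorm_eq_zero_iff]
  exact v.ne_bot

/-- the residue characteristic of a finite place -/
def qOf (v : HeightOneSpectrum (𝓞 F)) : ℕ := (exists_prime_natCast_mem v).choose

instance fact_qOf (v : HeightOneSpectrum (𝓞 F)) : Fact (qOf v).Prime :=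
  ⟨(exists_prime_natCast_mem v).choose_spec.1⟩

theorem qOf_mem (v : HeightOneSpectrum (𝓞 F)) : ((qOf v : ℕ) : 𝓞 F) ∈ v.asIdeal :=
  (exists_prime_natCast_mem v).choose_spec.2

/-- a chosen embedding `F → ℚ̄_{q_v}` inducing the place `v` -/
def embOf (v : HeightOneSpectrum (𝓞 F)) : F →ₐ[ℚ] PadicAlgCl (qOf v) :=
  (exists_primeOf_eq v (qOf_mem v)).choose

theorem primeOf_embOf (v : HeightOneSpectrum (𝓞 F)) : primeOf (embOf v) = v :=
  (exists_primeOf_eq v (qOf_mem v)).choose_spec

end Choice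

section Unique

variable {F : Type*} [Field F] [NumberField F]

/-- a finite place contains only one rational prime -/
theorem eq_of_natCast_mem (v : HeightOneSpectrum (𝓞 F)) {q q' : ℕ} (hq : q.Prime) (hq' : q'.Prime)
    (h : ((q : ℕ) : 𝓞 F) ∈ v.asIdeal) (h' : ((q' : ℕ) : 𝓞 F) ∈ v.asIdeal) : q = q' := by
  by_contra hne
  have hcop : Nat.Coprime q q' := (Nat.coprime_primes hq hq').mpr hne
  obtain ⟨a, b, hab⟩ := Nat.Coprime.isCoprime hcop
  have h2 : ((a : ℤ) : 𝓞 F) * ((q : ℕ) : 𝓞 F) + ((b : ℤ) : 𝓞 F) * ((q' : ℕ) : 𝓞 F) = 1 := by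
    have := congrArg (fun z : ℤ => (z : 𝓞 F)) hab
    push_cast at this
    exact this
  have hone : (1 : 𝓞 F) ∈ v.asIdeal := by
    rw [← h2]
    exact v.asIdeal.add_mem (v.asIdeal.mul_mem_left _ h) (v.asIdeal.mul_mem_left _ h')
  exact v.isPrime.ne_top ((Ideal.eq_top_iff_one _).mpr hone)

theorem qOf_eq_of_natCast_mem (v : HeightOneSpectrum (𝓞 F)) {q : ℕ} (hq : q.Prime)
    (h : ((q : ℕ) : 𝓞 F) ∈ v.asIdeal) : qOf v = q :=
  eq_of_natCast_mem v (fact_qOf v).out hq (qOf_mem v) h

theorem qOf_primeOf {q : ℕ} [Fact q.Prime] (ι : F →ₐ[ℚ] PadicAlgCl q) : qOf (primeOf ι) = q :=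
  qOf_eq_of_natCast_mem _ Fact.out (natCast_mem_primeOf ι)

end Unique

end Fermat.Agent.S55lib.Places
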