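/-
S55lib / Places / Dense (lead).
(P6a): for an embedding `ι : M →ₐ[ℚ] PadicAlgCl q` of a field `M` algebraic over `ℚ`, the image
`ι M` is dense in the local field `localField q M ι = ℚ_q(ι M)`.
-/
import Mathlib
import Fermat.Agent.S55lib.Iface.Layers

set_option autoImplicit false

noncomputable section

namespace Fermat.Agent.S55lib.Places

open Fermat.Agent.S55lib

variable {q : ℕ} [Fact q.Prime] {M : Type*} [Field M] [Algebra ℚ M]

/-- rational numbers are dense in `ℚ_q`, norm form -/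
theorem exists_rat_norm_sub_lt (c : ℚ_[q]) {ε : ℝ} (hε : 0 < ε) : ∃ r : ℚ, ‖c - (r : ℚ_[q])‖ < ε := by
  obtain ⟨δ, hδ0, hδ⟩ := exists_rat_btwn hε
  obtain ⟨r, hr⟩ := Padic.rat_dense' c (by exact_mod_cast hδ0 : (0 : ℚ) < δ)
  refine ⟨r, lt_trans ?_ hδ⟩
  have : ‖c - (r : ℚ_[q])‖ = ((padicNormE (c - (r : ℚ_[q])) : ℚ) : ℝ) := rfl
  rw [this]
  exact_mod_cast hr

/-- the property of being approximable by elements of `ι M` -/
def IsApprox (ι : Emb q M) (y : PadicAlgCl q) : Prop :=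
  ∀ ε : ℝ, 0 < ε → ∃ x : M, ‖y - ι x‖ < ε

theorem isApprox_map (ι : Emb q M) (m : M) : IsApprox ι (ι m) :=
  fun ε hε => ⟨m, by simpa using hε⟩

theorem isApprox_zero (ι : Emb q M) : IsApprox ι 0 :=
  fun ε hε => ⟨0, by simpa using hε⟩

theorem IsApprox.add {ι : Emb q M} {y₁ y₂ : PadicAlgCl q} (h₁ : IsApprox ι y₁)
    (h₂ : IsApprox ι y₂) : IsApprox ι (y₁ + y₂) := by
  intro ε hε
  obtain ⟨x₁, hx₁⟩ := h₁ ε hε
  obtain ⟨x₂, hx₂⟩ := h₂ ε hε
  refine ⟨x₁ + x₂, ?_⟩
  have : y₁ + y₂ - ι (x₁ + x₂) = (y₁ - ι x₁) + (y₂ - ι x₂) := by rw [map_add]; ring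
  rw [this]
  exact lt_of_le_of_lt (IsUltrametricDist.norm_add_le_max _ _) (max_lt hx₁ hx₂)

theorem IsApprox.smul {ι : Emb q M} {y : PadicAlgCl q} (h : IsApprox ι y) (c : ℚ_[q]) :
    IsApprox ι (c • y) := by
  intro ε hε
  obtain ⟨x, hx⟩ := h (ε / (‖c‖ + 1)) (div_pos hε (by positivity))
  obtain ⟨r, hr⟩ := exists_rat_norm_sub_lt c (div_pos hε (by positivity : 0 < ‖ι x‖ + 1))
  refine ⟨r • x, ?_⟩
  have hrx : ι (r • x) = ((r : ℚ_[q]) : PadicAlgCl q) * ι x := by
    rw [map_smul, Algebra.smul_def,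
      (eq_ratCast (algebraMap ℚ (PadicAlgCl q)) r).trans
        (map_ratCast (algebraMap ℚ_[q] (PadicAlgCl q)) r).symm]
  have hdecomp : c • y - ι (r • x) = c • (y - ι x) + ((c - (r : ℚ_[q])) • ι x) := by
    rw [hrx, Algebra.smul_def, Algebra.smul_def, Algebra.smul_def, map_sub]
    ring
  rw [hdecomp]
  refine lt_of_le_of_lt (IsUltrametricDist.norm_add_le_max _ _) (max_lt ?_ ?_)
  · rw [norm_smul]
    calc ‖c‖ * ‖y - ι x‖ ≤ ‖c‖ * (ε / (‖c‖ + 1)) :=
          mul_le_mul_of_nonneg_left hx.le (norm_nonneg _)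
      _ < (‖c‖ + 1) * (ε / (‖c‖ + 1)) :=
          mul_lt_mul_of_pos_right (lt_add_one _) (div_pos hε (by positivity))
      _ = ε := by field_simp
  · rw [norm_smul]
    calc ‖c - (r : ℚ_[q])‖ * ‖ι x‖ ≤ (ε / (‖ι x‖ + 1)) * ‖ι x‖ :=
          mul_le_mul_of_nonneg_right hr.le (norm_nonneg _)
      _ < (ε / (‖ι x‖ + 1)) * (‖ι x‖ + 1) :=
          mul_lt_mul_of_pos_left (lt_add_one _) (div_pos hε (by positivity))
      _ = ε := by field_simp

/-- (P6a) `ι M` is dense in `ℚ_q(ι M)` -/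
theorem isApprox_of_mem_localField [Algebra.IsAlgebraic ℚ M] (ι : Emb q M) {y : PadicAlgCl q}
    (hy : y ∈ localField q M ι) : IsApprox ι y := by
  have halg : ∀ z ∈ Set.range ι, IsAlgebraic ℚ_[q] z := fun z _ =>
    Algebra.IsAlgebraic.isAlgebraic z
  have hy' : y ∈ (localField q M ι).toSubalgebra := hy
  rw [localField, IntermediateField.adjoin_toSubalgebra_of_isAlgebraic halg,
    ← Subalgebra.mem_toSubmodule, Algebra.adjoin_eq_span] at hy'
  -- the multiplicative closure of the range is the range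
  have hcl : ∀ z ∈ Submonoid.closure (Set.range ι), z ∈ Set.range ι := by
    intro z hz
    induction hz using Submonoid.closure_induction with
    | mem z hz => exact hz
    | one => exact ⟨1, map_one ι⟩
    | mul a b _ _ ha hb =>
      obtain ⟨m, rfl⟩ := ha
      obtain ⟨m', rfl⟩ := hb
      exact ⟨m * m', map_mul ι m m'⟩
  clear hy
  induction hy' using Submodule.span_induction with
  | mem z hz =>
    obtain ⟨m, rfl⟩ := hcl z hz
    exact isApprox_map ι m
  | zero => exact isApprox_zero ι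
  | add z₁ z₂ _ _ h₁ h₂ => exact h₁.add h₂
  | smul c z _ h => exact h.smul c

end Fermat.Agent.S55lib.Places
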