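/-
S55lib / Places / Val (lead).
(P4): the norm of `PadicAlgCl q` pulled back along an embedding `ι : M →ₐ[ℚ] PadicAlgCl q`
is equivalent to the `primeOf ι`-adic valuation of `M`.
-/
import Mathlib
import Fermat.Agent.S55lib.Places.Basic

set_option autoImplicit false

noncomputable section

namespace Fermat.Agent.S55lib.Places

open NumberField IsDedekindDomain

variable {q : ℕ} [Fact q.Prime] {M : Type*} [Field M] [NumberField M]

theorem norm_eq_one_of_notMem (ι : M →ₐ[ℚ] PadicAlgCl q) {d : 𝓞 M}
    (hd : d ∈ (primeOf ι).asIdeal.primeCompl) : ‖ι (d : M)‖ = 1 :=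
  notMem_idealOf_iff.mp hd

/-- (P4), core form -/
theorem valuation_le_one_iff (ι : M →ₐ[ℚ] PadicAlgCl q) (x : M) :
    (primeOf ι).valuation M x ≤ 1 ↔ ‖ι x‖ ≤ 1 := by
  obtain ⟨n, d, h | h⟩ := (primeOf ι).exists_primeCompl_mul_eq_or_mul_eq (K := M) x
  · -- x * d = n
    have hd1 : ‖ι (((d : 𝓞 M)) : M)‖ = 1 := norm_eq_one_of_notMem ι d.2
    have hvd : (primeOf ι).valuation M (algebraMap (𝓞 M) M d) = 1 := by
      rw [HeightOneSpectrum.valuation_of_algebraMap]
      exact ((primeOf ι).intValuation_eq_one_iff_mem_primeCompl d).mpr d.2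
    have h1 : ‖ι x‖ = ‖ι (n : M)‖ := by
      have := congrArg (fun y => ‖ι y‖) h
      simp only [map_mul, norm_mul] at this
      rw [show ‖ι ((algebraMap (𝓞 M) M) (d : 𝓞 M))‖ = 1 from hd1, mul_one] at this
      exact this
    have h2 : (primeOf ι).valuation M x = (primeOf ι).valuation M (algebraMap (𝓞 M) M n) := by
      have := congrArg ((primeOf ι).valuation M) h
      rw [map_mul, hvd, mul_one] at this
      exact this
    rw [h1, h2]
    exact ⟨fun _ => norm_le_one_of_mem_integers ι n, fun _ => (primeOf ι).valuation_le_one n⟩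
  · -- x * n = d
    have hd1 : ‖ι (((d : 𝓞 M)) : M)‖ = 1 := norm_eq_one_of_notMem ι d.2
    have hvd : (primeOf ι).valuation M (algebraMap (𝓞 M) M d) = 1 := by
      rw [HeightOneSpectrum.valuation_of_algebraMap]
      exact ((primeOf ι).intValuation_eq_one_iff_mem_primeCompl d).mpr d.2
    have h1 : ‖ι x‖ * ‖ι (n : M)‖ = 1 := by
      have := congrArg (fun y => ‖ι y‖) h
      simp only [map_mul, norm_mul] at this
      rw [this]; exact hd1
    have h2 : (primeOf ι).valuation M x * (primeOf ι).valuation M (algebraMap (𝓞 M) M n) = 1 := by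
      have := congrArg ((primeOf ι).valuation M) h
      rw [map_mul, hvd] at this
      exact this
    have hn_le : ‖ι (n : M)‖ ≤ 1 := norm_le_one_of_mem_integers ι n
    have hvn_le : (primeOf ι).valuation M (algebraMap (𝓞 M) M n) ≤ 1 :=
      (primeOf ι).valuation_le_one n
    constructor
    · intro hx
      -- valuation of n must be 1, so n ∉ P, so ‖ι n‖ = 1
      have hvn : (primeOf ι).valuation M (algebraMap (𝓞 M) M n) = 1 := by
        apply le_antisymm hvn_le
        calc (1 : WithZero (Multiplicative ℤ)) = (primeOf ι).valuation M x *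
              (primeOf ι).valuation M (algebraMap (𝓞 M) M n) := h2.symm
          _ ≤ 1 * (primeOf ι).valuation M (algebraMap (𝓞 M) M n) := mul_le_mul_left hx _
          _ = _ := one_mul _
      have hn : n ∈ (primeOf ι).asIdeal.primeCompl := by
        rw [HeightOneSpectrum.valuation_of_algebraMap] at hvn
        exact ((primeOf ι).intValuation_eq_one_iff_mem_primeCompl n).mp hvn
      have hn1 : ‖ι (n : M)‖ = 1 := norm_eq_one_of_notMem ι hn
      rw [hn1, mul_one] at h1
      exact h1.le
    · intro hx
      have hn1 : ‖ι (n : M)‖ = 1 := by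
        apply le_antisymm hn_le
        calc (1 : ℝ) = ‖ι x‖ * ‖ι (n : M)‖ := h1.symm
          _ ≤ 1 * ‖ι (n : M)‖ := mul_le_mul_of_nonneg_right hx (norm_nonneg _)
          _ = _ := one_mul _
      have hn : n ∈ (primeOf ι).asIdeal.primeCompl := notMem_idealOf_iff.mpr hn1
      have hvn : (primeOf ι).valuation M (algebraMap (𝓞 M) M n) = 1 := by
        rw [HeightOneSpectrum.valuation_of_algebraMap]
        exact ((primeOf ι).intValuation_eq_one_iff_mem_primeCompl n).mpr hn
      rw [hvn, mul_one] at h2
      exact h2.le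

end Fermat.Agent.S55lib.Places
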