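/-
S55lib / Places / Completion (lead).
The instantiation of helper1's `SecondIneq.CompletionData F` in the intrinsic model:
for a finite place `v` of the number field `F`, `q_v` the residue characteristic, `ι_v` an embedding
`F → ℚ̄_{q_v}` with `primeOf ι_v = v`, the local field is `F_v := localField q_v F ι_v ⊂ ℚ̄_{q_v}`
with its unit ball (helper6's `normedIntegers`).
-/
import Mathlib
import Fermat.Agent.S55lib.Places.Choice
import Fermat.Agent.S55lib.Places.Val
import Fermat.Agent.S55lib.Places.Dense
import Fermat.Agent.S55lib.Places.Approx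
import Fermat.Agent.S55lib.LocalUnr.Padic
import Fermat.Agent.S55lib.LocalH.Normed
import Fermat.Agent.S55lib.SecondIneq.CompletionData

set_option autoImplicit false

noncomputable section

namespace Fermat.Agent.S55lib.Places

open NumberField IsDedekindDomain Fermat.Agent.S55lib Fermat.Agent.S55lib.LocalH
  Fermat.Agent.S55lib.SecondIneq

section FiniteDim

variable {q : ℕ} [Fact q.Prime] {M : Type*} [Field M] [NumberField M]

theorem map_mem_localField (ι : Emb q M) (x : M) : ι x ∈ localField q M ι :=
  IntermediateField.subset_adjoin _ _ ⟨x, rfl⟩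

theorem localField_eq_adjoin_simple (ι : Emb q M) {α : M} (hα : IntermediateField.adjoin ℚ {α} = ⊤) :
    localField q M ι = IntermediateField.adjoin ℚ_[q] {ι α} := by
  have hint : IsIntegral ℚ α := Algebra.IsIntegral.isIntegral α
  apply le_antisymm
  · unfold localField
    rw [IntermediateField.adjoin_le_iff]
    rintro _ ⟨m, rfl⟩
    have hm : m ∈ Algebra.adjoin ℚ {α} := by
      have h2 : (IntermediateField.adjoin ℚ {α}).toSubalgebra = Algebra.adjoin ℚ {α} :=
        IntermediateField.adjoin_simple_toSubalgebra_of_isAlgebraic hint.isAlgebraic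
      rw [← h2, hα]
      trivial
    rw [Algebra.adjoin_singleton_eq_range_aeval] at hm
    obtain ⟨g, rfl⟩ := hm
    show ι (Polynomial.aeval α g) ∈ IntermediateField.adjoin ℚ_[q] {ι α}
    rw [← Polynomial.aeval_algHom_apply]
    have h4 : ι α ∈ IntermediateField.adjoin ℚ_[q] {ι α} :=
      IntermediateField.subset_adjoin _ _ (Set.mem_singleton _)
    have h6 : Algebra.adjoin ℚ {ι α} ≤
        (IntermediateField.adjoin ℚ_[q] {ι α}).toSubalgebra.restrictScalars ℚ :=
      Algebra.adjoin_le (by rintro _ rfl; exact h4)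
    exact h6 (Polynomial.aeval_mem_adjoin_singleton ℚ (ι α))
  · rw [IntermediateField.adjoin_le_iff]
    intro y hy
    rw [Set.mem_singleton_iff] at hy
    subst hy
    exact map_mem_localField ι α

instance finiteDimensional_localField (ι : Emb q M) :
    FiniteDimensional ℚ_[q] (localField q M ι) := by
  obtain ⟨α, hα⟩ := Field.exists_primitive_element ℚ M
  rw [localField_eq_adjoin_simple ι hα]
  apply IntermediateField.adjoin.finiteDimensional
  have h1 : IsIntegral ℚ α := Algebra.IsIntegral.isIntegral α
  exact (h1.map ι).tower_top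

end FiniteDim

section Local

variable {q : ℕ} [Fact q.Prime] {F : Type*} [Field F] [NumberField F] (ι : Emb q F)

/-- the embedding of the global field into the local field -/
def toLocalField : F →+* localField q F ι :=
  (ι : F →+* PadicAlgCl q).codRestrict (localField q F ι).toSubfield.toSubring
    (fun x => map_mem_localField ι x)

@[simp] theorem coe_toLocalField (x : F) : ((toLocalField ι x : localField q F ι) : PadicAlgCl q) = ι x :=
  rfl

/-- the unit ball of the local field -/
abbrev localIntegers : ValuationSubring (localField q F ι) := normedIntegers (localField q F ι)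

theorem toLocalField_mem_iff (x : F) :
    toLocalField ι x ∈ localIntegers ι ↔ (primeOf ι).valuation F x ≤ 1 := by
  rw [mem_normedIntegers, valuation_le_one_iff]
  rfl

theorem mem_maximalIdeal_of_norm_lt_one {L : Type} [NontriviallyNormedField L] [IsUltrametricDist L]
    [ProperSpace L] (x : normedIntegers L) (hx : ‖(x : L)‖ < 1) :
    x ∈ IsLocalRing.maximalIdeal (normedIntegers L) := by
  rw [IsLocalRing.mem_maximalIdeal, mem_nonunits_iff]
  rintro ⟨u, rfl⟩
  have h1 : ((u : normedIntegers L) : L) * ((u⁻¹ : (normedIntegers L)ˣ) : normedIntegers L) = 1 :=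
    Subtype.ext_iff.mp u.mul_inv
  have h2 : ‖(((u⁻¹ : (normedIntegers L)ˣ) : normedIntegers L) : L)‖ ≤ 1 :=
    (mem_normedIntegers L _).mp (((u⁻¹ : (normedIntegers L)ˣ) : normedIntegers L)).2
  have h3 := congrArg norm h1
  rw [norm_mul, norm_one] at h3
  have h5 : ‖((u : normedIntegers L) : L)‖ *
      ‖(((u⁻¹ : (normedIntegers L)ˣ) : normedIntegers L) : L)‖ ≤ ‖((u : normedIntegers L) : L)‖ * 1 :=
    mul_le_mul_of_nonneg_left h2 (norm_nonneg _)
  rw [h3, mul_one] at h5
  exact absurd hx (not_lt.mpr h5)

theorem norm_natCast_localField : ‖((q : ℕ) : localField q F ι)‖ = (q : ℝ)⁻¹ := by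
  have : ‖((q : ℕ) : localField q F ι)‖ = ‖((q : ℕ) : PadicAlgCl q)‖ := rfl
  rw [this, norm_natCast_self]

/-- `𝓞 F` is dense in the unit ball of the local field, in the adic form -/
theorem exists_integer_add_mem_pow (y : localIntegers ι) (n : ℕ) :
    ∃ (x : 𝓞 F) (z : localIntegers ι), z ∈ IsLocalRing.maximalIdeal (localIntegers ι) ^ n ∧
      (y : localField q F ι) = toLocalField ι (x : F) + (z : localField q F ι) := by
  have hq0 : (0 : ℝ) < q := by exact_mod_cast (Fact.out : q.Prime).pos
  have hε : (0 : ℝ) < ((q : ℝ)⁻¹) ^ n := by positivity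
  have hy0 : ‖(y : localField q F ι)‖ ≤ 1 := (mem_normedIntegers (localField q F ι) _).mp y.2
  have hy1 : ‖((y : localField q F ι) : PadicAlgCl q)‖ ≤ 1 := hy0
  obtain ⟨x₀, hx₀⟩ := isApprox_of_mem_localField ι (y : localField q F ι).2 _ hε
  have hε1 : ((q : ℝ)⁻¹) ^ n ≤ 1 := by
    apply pow_le_one₀ (by positivity)
    exact inv_le_one_of_one_le₀ (by exact_mod_cast (Fact.out : q.Prime).one_lt.le)
  have hx₀1 : ‖ι x₀‖ ≤ 1 := by
    have h1 : ι x₀ = ((y : localField q F ι) : PadicAlgCl q) +
        -(((y : localField q F ι) : PadicAlgCl q) - ι x₀) := by ring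
    rw [h1]
    refine le_trans (IsUltrametricDist.norm_add_le_max _ _) (max_le hy1 ?_)
    rw [norm_neg]
    exact (hx₀.le).trans hε1
  obtain ⟨x, hx⟩ := exists_integer_norm_sub_lt ι x₀ hx₀1 hε
  -- the difference
  set z : localField q F ι := (y : localField q F ι) - toLocalField ι (x : F) with hz
  have hznorm : ‖z‖ ≤ ((q : ℝ)⁻¹) ^ n := by
    have h1 : ‖z‖ = ‖((y : localField q F ι) : PadicAlgCl q) - ι (x : F)‖ := rfl
    have h2 : ((y : localField q F ι) : PadicAlgCl q) - ι (x : F) =
        (((y : localField q F ι) : PadicAlgCl q) - ι x₀) + -(ι (x : F) - ι x₀) := by ring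
    rw [h1, h2]
    refine le_trans (IsUltrametricDist.norm_add_le_max _ _) (max_le hx₀.le ?_)
    rw [norm_neg]
    exact hx.le
  -- `z = q ^ n * w` with `w` in the unit ball
  have hqn : ((q : ℕ) : localField q F ι) ≠ 0 := by
    rw [← norm_pos_iff, norm_natCast_localField]
    positivity
  set w : localField q F ι := z / ((q : ℕ) : localField q F ι) ^ n with hw
  have hwnorm : ‖w‖ ≤ 1 := by
    rw [hw, norm_div, norm_pow, norm_natCast_localField]
    exact div_le_one_of_le₀ hznorm hε.le
  have hqmem : ((q : ℕ) : localField q F ι) ∈ localIntegers ι := by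
    rw [mem_normedIntegers, norm_natCast_localField]
    exact inv_le_one_of_one_le₀ (by exact_mod_cast (Fact.out : q.Prime).one_lt.le)
  have hqmax : (⟨((q : ℕ) : localField q F ι), hqmem⟩ : localIntegers ι) ∈
      IsLocalRing.maximalIdeal (localIntegers ι) := by
    apply mem_maximalIdeal_of_norm_lt_one
    show ‖((q : ℕ) : localField q F ι)‖ < 1
    rw [norm_natCast_localField]
    exact inv_lt_one_of_one_lt₀ (by exact_mod_cast (Fact.out : q.Prime).one_lt)
  have hwmem : w ∈ localIntegers ι := (mem_normedIntegers _ _).mpr hwnorm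
  refine ⟨x, (⟨((q : ℕ) : localField q F ι), hqmem⟩ : localIntegers ι) ^ n * ⟨w, hwmem⟩,
    Ideal.mul_mem_right _ _ (Ideal.pow_mem_pow hqmax n), ?_⟩
  have h3 : (((⟨((q : ℕ) : localField q F ι), hqmem⟩ : localIntegers ι) ^ n * ⟨w, hwmem⟩ :
      localIntegers ι) : localField q F ι) = ((q : ℕ) : localField q F ι) ^ n * w := by
    simp
  rw [h3, hw, mul_div_cancel₀ _ (pow_ne_zero n hqn), hz]
  ring

end Local

section Data

variable (F : Type*) [Field F] [NumberField F]

/-- **the completions of a number field in the intrinsic model**: at the finite place `v`, the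
field `ℚ_{q_v}(ι_v F) ⊂ ℚ̄_{q_v}` with its unit ball. -/
def completionData : CompletionData.{0} F where
  Fv v := localField (qOf v) F (embOf v)
  instField _ := inferInstance
  𝒪v v := localIntegers (embOf v)
  instDVR _ := inferInstance
  instComplete _ := inferInstance
  instFinite _ := inferInstance
  emb v := toLocalField (embOf v)
  emb_mem_iff v x := by rw [toLocalField_mem_iff, primeOf_embOf]
  dense v y n := exists_integer_add_mem_pow (embOf v) y n

end Data

end Fermat.Agent.S55lib.Places
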