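/-
S55lib / Places / Units (lead).
(P5): a nonzero element of a number field is a unit at almost all places:
for `x ≠ 0` in `M` there is `n ≠ 0` such that `‖ι x‖ = 1` for every prime `q ∤ n` and every
embedding `ι : M →ₐ[ℚ] PadicAlgCl q`.
-/
import Mathlib
import Fermat.Agent.S55lib.Places.Basic

set_option autoImplicit false

noncomputable section

namespace Fermat.Agent.S55lib.Places

open NumberField IsDedekindDomain

variable {M : Type*} [Field M] [NumberField M]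

theorem norm_natCast_eq_one {q : ℕ} [Fact q.Prime] {n : ℕ} (hn : ¬ q ∣ n) :
    ‖((n : ℕ) : PadicAlgCl q)‖ = 1 := by
  have h : ((n : ℕ) : PadicAlgCl q) = ((n : ℚ_[q]) : PadicAlgCl q) :=
    (map_natCast (algebraMap ℚ_[q] (PadicAlgCl q)) n).symm
  rw [h, PadicAlgCl.norm_extends, Padic.norm_natCast_eq_one_iff]
  exact (Nat.Prime.coprime_iff_not_dvd (Fact.out : q.Prime)).mpr hn

/-- a nonzero integer of `M` divides a nonzero natural number -/
theorem exists_nat_mul_eq (a : 𝓞 M) (ha : a ≠ 0) : ∃ (n : ℕ) (b : 𝓞 M), n ≠ 0 ∧ a * b = (n : 𝓞 M) := by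
  have h1 : ((Ideal.absNorm (Ideal.span {a}) : ℕ) : 𝓞 M) ∈ Ideal.span {a} := Ideal.absNorm_mem _
  obtain ⟨b, hb⟩ := Ideal.mem_span_singleton'.mp h1
  refine ⟨Ideal.absNorm (Ideal.span {a}), b, ?_, ?_⟩
  · rw [Ne, Ideal.absNorm_eq_zero_iff, Ideal.span_singleton_eq_bot]
    exact ha
  · rw [mul_comm]
    exact hb

/-- a nonzero integer of `M` has norm one at every embedding into `ℚ̄_q`, for `q` outside the
divisors of a fixed nonzero natural number -/
theorem exists_nat_forall_norm_integer_eq_one (a : 𝓞 M) (ha : a ≠ 0) :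
    ∃ n : ℕ, n ≠ 0 ∧ ∀ (q : ℕ) [Fact q.Prime], ¬ q ∣ n →
      ∀ ι : M →ₐ[ℚ] PadicAlgCl q, ‖ι (a : M)‖ = 1 := by
  obtain ⟨n, b, hn, hab⟩ := exists_nat_mul_eq a ha
  refine ⟨n, hn, ?_⟩
  intro q _ hq ι
  have h1 : ι (a : M) * ι (b : M) = ((n : ℕ) : PadicAlgCl q) := by
    rw [← map_mul]
    have : (a : M) * (b : M) = ((n : ℕ) : M) := by
      have := congrArg (fun z : 𝓞 M => (z : M)) hab
      simpa using this
    rw [this, map_natCast]
  have h2 : ‖ι (a : M)‖ * ‖ι (b : M)‖ = 1 := by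
    rw [← norm_mul, h1, norm_natCast_eq_one hq]
  have ha1 : ‖ι (a : M)‖ ≤ 1 := norm_le_one_of_mem_integers ι a
  have hb1 : ‖ι (b : M)‖ ≤ 1 := norm_le_one_of_mem_integers ι b
  have ha0 : 0 ≤ ‖ι (a : M)‖ := norm_nonneg _
  have hb0 : 0 ≤ ‖ι (b : M)‖ := norm_nonneg _
  nlinarith

/-- **(P5)** a nonzero element of `M` is a unit at every embedding into `ℚ̄_q`, for `q` outside
the divisors of a fixed nonzero natural number. -/
theorem exists_nat_forall_norm_eq_one (x : M) (hx : x ≠ 0) :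
    ∃ n : ℕ, n ≠ 0 ∧ ∀ (q : ℕ) [Fact q.Prime], ¬ q ∣ n →
      ∀ ι : M →ₐ[ℚ] PadicAlgCl q, ‖ι x‖ = 1 := by
  obtain ⟨a, b, hb, hab⟩ := IsFractionRing.div_surjective (A := 𝓞 M) x
  have hb0 : b ≠ 0 := nonZeroDivisors.ne_zero hb
  have ha0 : a ≠ 0 := by
    rintro rfl
    rw [map_zero, zero_div] at hab
    exact hx hab.symm
  obtain ⟨n₁, hn₁, h₁⟩ := exists_nat_forall_norm_integer_eq_one a ha0
  obtain ⟨n₂, hn₂, h₂⟩ := exists_nat_forall_norm_integer_eq_one b hb0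
  refine ⟨n₁ * n₂, mul_ne_zero hn₁ hn₂, ?_⟩
  intro q _ hq ι
  have hq₁ : ¬ q ∣ n₁ := fun h => hq (Dvd.dvd.mul_right h n₂)
  have hq₂ : ¬ q ∣ n₂ := fun h => hq (Dvd.dvd.mul_left h n₁)
  rw [← hab, map_div₀, norm_div]
  have e1 : ‖ι (algebraMap (𝓞 M) M a)‖ = 1 := h₁ q hq₁ ι
  have e2 : ‖ι (algebraMap (𝓞 M) M b)‖ = 1 := h₂ q hq₂ ι
  rw [e1, e2, div_one]

/-- the `Nat.Primes` form: the set of primes at which `x` fails to be a unit at some embedding
is finite. -/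
theorem finite_setOf_exists_norm_ne_one (x : M) (hx : x ≠ 0) :
    {q : Nat.Primes | ∃ (_ : Fact (q : ℕ).Prime) (ι : M →ₐ[ℚ] PadicAlgCl (q : ℕ)), ‖ι x‖ ≠ 1}.Finite := by
  obtain ⟨n, hn, h⟩ := exists_nat_forall_norm_eq_one x hx
  have hfin : {q : Nat.Primes | (q : ℕ) ∣ n}.Finite := by
    have h1 : (Set.Iic n).Finite := Set.finite_Iic n
    refine Set.Finite.of_injOn (f := fun q : Nat.Primes => (q : ℕ)) ?_ ?_ h1
    · intro q hq
      exact Nat.le_of_dvd (Nat.pos_of_ne_zero hn) hq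
    · intro q _ q' _ hqq'
      exact Subtype.ext hqq'
  refine hfin.subset ?_
  rintro q ⟨hq, ι, hι⟩
  by_contra hdvd
  exact hι (h (q : ℕ) hdvd ι)

end Fermat.Agent.S55lib.Places
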