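/-
S55lib / Places / Unram (lead).
(Ram): a number field is unramified at almost all primes, in the intrinsic model:
there is `n ≠ 0` such that for every prime `q ∤ n` and every embedding `ι : M →ₐ[ℚ] PadicAlgCl q`
the local field `localField q M ι` has value group `q^ℤ` (`FirstIneq.UnramAt`).
Proof: `M = ℚ(α)`, `α` integral with minimal polynomial `f`; for `q ∤ n` (`n` from `Places/Units`
applied to `f'(α)`) the roots of `f` in `ℚ̄_q` are pairwise at distance `1`, so the inertia group of
the splitting field `N` of `f` over `ℚ_q` is trivial; helper3's criterion gives `N/ℚ_q`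
unramified, and `localField q M ι ≤ N`.
-/
import Mathlib
import Fermat.Agent.S55lib.Places.Units
import Fermat.Agent.S55lib.Places.Completion
import Fermat.Agent.S55lib.FirstIneq.UnitsLocal

set_option autoImplicit false

noncomputable section

namespace Fermat.Agent.S55lib.Places

open NumberField Polynomial Fermat.Agent.S55lib Fermat.Agent.S55lib.LocalUnr
  Fermat.Agent.S55lib.FirstIneq

section Roots

variable {q : ℕ} [Fact q.Prime]

/-- if the derivative of a monic polynomial with integral roots has norm one at a root `β`, then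
all other roots are at distance one from `β` -/
theorem norm_sub_eq_one_of_norm_derivative_eq_one {g : (PadicAlgCl q)[X]} (hm : g.Monic)
    (hint : ∀ γ ∈ g.roots, ‖γ‖ ≤ 1) {β β' : PadicAlgCl q} (hβ : β ∈ g.roots) (hβ' : β' ∈ g.roots)
    (hne : β' ≠ β) (hder : ‖eval β (derivative g)‖ = 1) : ‖β - β'‖ = 1 := by
  classical
  have hsplit : g.Splits := IsAlgClosed.splits g
  have h1 := hsplit.eval_root_derivative hm hβ
  have hmem : β' ∈ g.roots.erase β := (Multiset.mem_erase_of_ne hne).mpr hβ'
  -- all factors have norm at most one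
  have hle : ∀ γ ∈ g.roots.erase β, ‖β - γ‖ ≤ 1 := by
    intro γ hγ
    have hγ' : γ ∈ g.roots := Multiset.mem_of_mem_erase hγ
    rw [sub_eq_add_neg]
    refine le_trans (IsUltrametricDist.norm_add_le_max _ _) (max_le (hint β hβ) ?_)
    rw [norm_neg]
    exact hint γ hγ'
  obtain ⟨s, hs⟩ := Multiset.exists_cons_of_mem hmem
  rw [h1, hs, Multiset.map_cons, Multiset.prod_cons, norm_mul] at hder
  have hrest : ‖(s.map fun a => β - a).prod‖ ≤ 1 := by
    have hs' : ∀ γ ∈ s, ‖β - γ‖ ≤ 1 := fun γ hγ => hle γ (by rw [hs]; exact Multiset.mem_cons_of_mem hγ)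
    clear hs hder h1 hmem
    induction s using Multiset.induction_on with
    | empty => simp
    | cons a s ih =>
      rw [Multiset.map_cons, Multiset.prod_cons, norm_mul]
      have h2 := hs' a (Multiset.mem_cons_self a s)
      have h3 := ih (fun γ hγ => hs' γ (Multiset.mem_cons_of_mem hγ))
      calc ‖β - a‖ * ‖(s.map fun a => β - a).prod‖ ≤ 1 * 1 :=
            mul_le_mul h2 h3 (norm_nonneg _) zero_le_one
        _ = 1 := one_mul 1
  have hb := hle β' hmem
  apply le_antisymm hb
  calc (1 : ℝ) = ‖β - β'‖ * ‖(s.map fun a => β - a).prod‖ := hder.symm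
    _ ≤ ‖β - β'‖ * 1 := mul_le_mul_of_nonneg_left hrest (norm_nonneg _)
    _ = ‖β - β'‖ := mul_one _

end Roots

section Crit

open scoped NormedField Valued

variable {K L : Type*} [NontriviallyNormedField K] [IsUltrametricDist K] [ProperSpace K]
  [NontriviallyNormedField L] [IsUltrametricDist L] [ProperSpace L] [NormedAlgebra K L]
  [FiniteDimensional K L] [IsGalois K L]

/-- an automorphism with trivial image in the residue field moves integral elements by less than
one -/
theorem norm_sub_lt_one_of_resGal_eq_one {σ : L ≃ₐ[K] L} (hσ : resGal K L σ = 1) {x : L}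
    (hx : ‖x‖ ≤ 1) : ‖σ x - x‖ < 1 := by
  have hx' : x ∈ 𝒪[L] := Valued.integer.mem_iff.mpr hx
  have h1 := resGal_apply K L σ ⟨x, hx'⟩
  rw [hσ] at h1
  have h2 : IsLocalRing.residue 𝒪[L] (σ • (⟨x, hx'⟩ : 𝒪[L]) - ⟨x, hx'⟩) = 0 := by
    rw [map_sub, ← h1]
    exact sub_self _
  have h3 := (residue_eq_zero_iff (K := L) _).mp h2
  exact h3

/-- **criterion**: if `L` is generated by integral elements which every automorphism either fixes
or moves to distance one, then `L/K` is unramified. -/
theorem isUnramified_of_generators (S : Set L) (hgen : Algebra.adjoin K S = ⊤)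
    (hint : ∀ x ∈ S, ‖x‖ ≤ 1)
    (hsep : ∀ (σ : L ≃ₐ[K] L), ∀ x ∈ S, σ x ≠ x → ‖σ x - x‖ = 1) : IsUnramified K L := by
  apply isUnramified_of_injective
  rw [injective_iff_map_eq_one]
  intro σ hσ
  have hfix : ∀ x ∈ S, σ x = x := by
    intro x hx
    by_contra hne
    have h1 := hsep σ x hx hne
    have h2 := norm_sub_lt_one_of_resGal_eq_one hσ (hint x hx)
    rw [h1] at h2
    exact lt_irrefl _ h2
  have h3 : (σ : L →ₐ[K] L) = AlgHom.id K L := by
    apply AlgHom.ext_of_adjoin_eq_top hgen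
    intro x hx
    exact hfix x hx
  ext x
  have := congrArg (fun φ : L →ₐ[K] L => φ x) h3
  exact this

end Crit

section Padic

variable {q : ℕ} [Fact q.Prime]

theorem coe_mem_rootSet {f : ℚ_[q][X]} {N : IntermediateField ℚ_[q] (PadicAlgCl q)} {x : N}
    (hx : x ∈ f.rootSet N) : (x : PadicAlgCl q) ∈ f.rootSet (PadicAlgCl q) := by
  rw [mem_rootSet] at hx ⊢
  refine ⟨hx.1, ?_⟩
  have h := congrArg (fun y : N => (y : PadicAlgCl q)) hx.2
  simp only [ZeroMemClass.coe_zero] at h
  rw [← h]
  exact (Polynomial.aeval_algHom_apply N.val x f)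

/-- the splitting field inside `ℚ̄_q` of a polynomial over `ℚ_q` whose roots are integral and
pairwise at distance one is unramified over `ℚ_q` -/
theorem unramAt_adjoin_rootSet (f : ℚ_[q][X])
    (hint : ∀ β ∈ f.rootSet (PadicAlgCl q), ‖β‖ ≤ 1)
    (hsep : ∀ β ∈ f.rootSet (PadicAlgCl q), ∀ β' ∈ f.rootSet (PadicAlgCl q), β' ≠ β →
      ‖β' - β‖ = 1) :
    UnramAt q (IntermediateField.adjoin ℚ_[q] (f.rootSet (PadicAlgCl q))) := by
  set N := IntermediateField.adjoin ℚ_[q] (f.rootSet (PadicAlgCl q)) with hN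
  have hsf : f.IsSplittingField ℚ_[q] N :=
    IntermediateField.adjoin_rootSet_isSplittingField (IsAlgClosed.splits _)
  have : FiniteDimensional ℚ_[q] N := Polynomial.IsSplittingField.finiteDimensional N f
  have : IsGalois ℚ_[q] N :=
    { to_isSeparable := inferInstance
      to_normal := Normal.of_isSplittingField f }
  apply unramAt_of_isUnramified
  apply isUnramified_of_generators (f.rootSet N) (Polynomial.IsSplittingField.adjoin_rootSet N f)
  · intro x hx
    exact hint _ (coe_mem_rootSet hx)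
  · intro σ x hx hne
    have hσx : σ x ∈ f.rootSet N := by
      rw [mem_rootSet] at hx ⊢
      refine ⟨hx.1, ?_⟩
      rw [Polynomial.aeval_algEquiv, AlgHom.comp_apply, hx.2]
      exact map_zero _
    have h1 := hsep _ (coe_mem_rootSet hx) _ (coe_mem_rootSet hσx)
      (fun h => hne (Subtype.ext h))
    exact h1

theorem UnramAt.mono {E E' : IntermediateField ℚ_[q] (PadicAlgCl q)} (h : UnramAt q E')
    (hle : E ≤ E') : UnramAt q E := fun y hy hy0 => h y (hle hy) hy0

end Padic

section Global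

variable (M : Type*) [Field M] [NumberField M]

/-- **(Ram)** a number field is unramified at almost all primes, in the intrinsic model. -/
theorem exists_nat_forall_unramAt :
    ∃ n : ℕ, n ≠ 0 ∧ ∀ (q : ℕ) [Fact q.Prime], ¬ q ∣ n →
      ∀ ι : Emb q M, UnramAt q (localField q M ι) := by
  obtain ⟨α, hα⟩ := Field.exists_primitive_element ℚ M
  have hint : IsIntegral ℚ α := Algebra.IsIntegral.isIntegral α
  set f₀ := minpoly ℚ α with hf₀
  have hmonic : f₀.Monic := minpoly.monic hint
  have hsep : f₀.Separable := (minpoly.irreducible hint).separable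
  have hx : aeval α (derivative f₀) ≠ 0 := hsep.aeval_derivative_ne_zero (minpoly.aeval ℚ α)
  obtain ⟨n₁, hn₁, h₁⟩ := exists_nat_forall_norm_eq_one (aeval α (derivative f₀)) hx
  -- integrality of `α` at almost all primes
  have hα1 : ∃ n₂ : ℕ, n₂ ≠ 0 ∧ ∀ (q : ℕ) [Fact q.Prime], ¬ q ∣ n₂ →
      ∀ ι : M →ₐ[ℚ] PadicAlgCl q, ‖ι α‖ ≤ 1 := by
    by_cases h0 : α = 0
    · exact ⟨1, one_ne_zero, fun q _ _ ι => by rw [h0, map_zero, norm_zero]; exact zero_le_one⟩
    · obtain ⟨n₂, hn₂, h₂⟩ := exists_nat_forall_norm_eq_one α h0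
      exact ⟨n₂, hn₂, fun q _ hq ι => (h₂ q hq ι).le⟩
  obtain ⟨n₂, hn₂, h₂⟩ := hα1
  refine ⟨n₁ * n₂, mul_ne_zero hn₁ hn₂, ?_⟩
  intro q _ hq ι
  have hq₁ : ¬ q ∣ n₁ := fun h => hq (Dvd.dvd.mul_right h n₂)
  have hq₂ : ¬ q ∣ n₂ := fun h => hq (Dvd.dvd.mul_left h n₁)
  -- the polynomial over `ℚ_q` and over `ℚ̄_q`
  set f : ℚ_[q][X] := f₀.map (algebraMap ℚ ℚ_[q]) with hf
  set g : (PadicAlgCl q)[X] := f₀.map (algebraMap ℚ (PadicAlgCl q)) with hg
  have hfg : f.map (algebraMap ℚ_[q] (PadicAlgCl q)) = g := by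
    rw [hf, hg, Polynomial.map_map, ← IsScalarTower.algebraMap_eq]
  have hgm : g.Monic := hmonic.map _
  have hg0 : g ≠ 0 := hgm.ne_zero
  have hf0 : f ≠ 0 := (hmonic.map _).ne_zero
  -- roots of `g` are the `ι' α`
  have hroot : ∀ β ∈ g.roots, ∃ ι' : M →ₐ[ℚ] PadicAlgCl q, ι' α = β := by
    intro β hβ
    have h1 : aeval β f₀ = 0 := by
      rw [mem_roots hg0, IsRoot.def, hg, eval_map_algebraMap] at hβ
      exact hβ
    exact IntermediateField.exists_algHom_of_splits_of_aeval
      (fun s => ⟨Algebra.IsIntegral.isIntegral s, IsAlgClosed.splits _⟩) h1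
  have hrint : ∀ β ∈ g.roots, ‖β‖ ≤ 1 := by
    intro β hβ
    obtain ⟨ι', rfl⟩ := hroot β hβ
    exact h₂ q hq₂ ι'
  have hder : ∀ β ∈ g.roots, ‖eval β (derivative g)‖ = 1 := by
    intro β hβ
    obtain ⟨ι', rfl⟩ := hroot β hβ
    have h1 : eval (ι' α) (derivative g) = ι' (aeval α (derivative f₀)) := by
      rw [hg, derivative_map, eval_map_algebraMap, aeval_algHom_apply]
    rw [h1]
    exact h₁ q hq₁ ι'
  have hset : ∀ β, β ∈ f.rootSet (PadicAlgCl q) ↔ β ∈ g.roots := by
    intro β
    rw [mem_rootSet, mem_roots hg0, IsRoot.def, ← hfg, eval_map_algebraMap]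
    exact ⟨fun h => h.2, fun h => ⟨hf0, h⟩⟩
  have hN := unramAt_adjoin_rootSet f
    (fun β hβ => hrint β ((hset β).mp hβ))
    (fun β hβ β' hβ' hne => by
      have := norm_sub_eq_one_of_norm_derivative_eq_one hgm hrint ((hset β').mp hβ')
        ((hset β).mp hβ) (Ne.symm hne) (hder β' ((hset β').mp hβ'))
      exact this)
  refine UnramAt.mono (q := q) hN ?_
  rw [localField_eq_adjoin_simple ι hα]
  apply IntermediateField.adjoin.mono
  rintro _ rfl
  rw [hset, mem_roots hg0, IsRoot.def, hg, eval_map_algebraMap, aeval_algHom_apply, minpoly.aeval,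
    map_zero]

end Global

end Fermat.Agent.S55lib.Places
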