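/-
S55lib / Places / Orbit (lead).
(P2): two embeddings `ι ι' : M →ₐ[ℚ] PadicAlgCl q` of a number field cut out the same prime of
`𝓞 M` if and only if they are conjugate under `G_q = Gal(ℚ̄_q/ℚ_q)`.
Also: compatibility of `primeOf` with pre-composition by automorphisms of `M`.
-/
import Mathlib
import Fermat.Agent.S55lib.Places.Val

set_option autoImplicit false

noncomputable section

namespace Fermat.Agent.S55lib.Places

open NumberField IsDedekindDomain Polynomial

variable {q : ℕ} [Fact q.Prime]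

theorem exists_rat_norm_sub_lt' (c : ℚ_[q]) {ε : ℝ} (hε : 0 < ε) :
    ∃ r : ℚ, ‖c - (r : ℚ_[q])‖ < ε := by
  obtain ⟨δ, hδ0, hδ⟩ := exists_rat_btwn hε
  obtain ⟨r, hr⟩ := Padic.rat_dense' c (by exact_mod_cast hδ0 : (0 : ℚ) < δ)
  refine ⟨r, lt_trans ?_ hδ⟩
  have : ‖c - (r : ℚ_[q])‖ = ((padicNormE (c - (r : ℚ_[q])) : ℚ) : ℝ) := rfl
  rw [this]
  exact_mod_cast hr

theorem algebraMap_rat_eq (r : ℚ) :
    algebraMap ℚ (PadicAlgCl q) r = algebraMap ℚ_[q] (PadicAlgCl q) (r : ℚ_[q]) :=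
  (eq_ratCast (algebraMap ℚ (PadicAlgCl q)) r).trans
    (map_ratCast (algebraMap ℚ_[q] (PadicAlgCl q)) r).symm

theorem norm_monomial_sub_lt (n : ℕ) (c : ℚ_[q]) (r : ℚ) (a : PadicAlgCl q) {ε : ℝ}
    (hr : ‖c - (r : ℚ_[q])‖ * ‖a‖ ^ n < ε) :
    ‖aeval a (monomial n r) - aeval a (monomial n c)‖ < ε := by
  rw [aeval_monomial, aeval_monomial, algebraMap_rat_eq, ← sub_mul, ← map_sub, norm_mul,
    norm_pow, norm_algebraMap', ← norm_neg, neg_sub]
  exact hr

/-- simultaneous approximation of the values of a polynomial over `ℚ_q` at two points by the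
values of a polynomial over `ℚ` -/
theorem exists_rat_poly_approx (h : ℚ_[q][X]) (a a' : PadicAlgCl q) {ε : ℝ} (hε : 0 < ε) :
    ∃ g : ℚ[X], ‖aeval a g - aeval a h‖ < ε ∧ ‖aeval a' g - aeval a' h‖ < ε := by
  induction h using Polynomial.induction_on' with
  | add h₁ h₂ ih₁ ih₂ =>
    obtain ⟨g₁, h11, h12⟩ := ih₁
    obtain ⟨g₂, h21, h22⟩ := ih₂
    refine ⟨g₁ + g₂, ?_, ?_⟩
    · have : aeval a (g₁ + g₂) - aeval a (h₁ + h₂) =
          (aeval a g₁ - aeval a h₁) + (aeval a g₂ - aeval a h₂) := by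
        rw [map_add, map_add]; ring
      rw [this]
      exact lt_of_le_of_lt (IsUltrametricDist.norm_add_le_max _ _) (max_lt h11 h21)
    · have : aeval a' (g₁ + g₂) - aeval a' (h₁ + h₂) =
          (aeval a' g₁ - aeval a' h₁) + (aeval a' g₂ - aeval a' h₂) := by
        rw [map_add, map_add]; ring
      rw [this]
      exact lt_of_le_of_lt (IsUltrametricDist.norm_add_le_max _ _) (max_lt h12 h22)
  | monomial n c =>
    have hpos : 0 < ‖a‖ ^ n + ‖a'‖ ^ n + 1 := by positivity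
    obtain ⟨r, hr⟩ := exists_rat_norm_sub_lt' c (div_pos hε hpos)
    have hr' : ‖c - (r : ℚ_[q])‖ * (‖a‖ ^ n + ‖a'‖ ^ n + 1) < ε := (lt_div_iff₀ hpos).mp hr
    have h0 : 0 ≤ ‖c - (r : ℚ_[q])‖ := norm_nonneg _
    refine ⟨monomial n r, norm_monomial_sub_lt n c r a ?_, norm_monomial_sub_lt n c r a' ?_⟩
    · refine lt_of_le_of_lt (mul_le_mul_of_nonneg_left ?_ h0) hr'
      have : 0 ≤ ‖a'‖ ^ n := by positivity
      linarith
    · refine lt_of_le_of_lt (mul_le_mul_of_nonneg_left ?_ h0) hr'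
      have : 0 ≤ ‖a‖ ^ n := by positivity
      linarith

variable {M : Type*} [Field M] [NumberField M]

theorem norm_le_one_iff_of_primeOf_eq {ι ι' : M →ₐ[ℚ] PadicAlgCl q} (h : primeOf ι = primeOf ι')
    (x : M) : ‖ι x‖ ≤ 1 ↔ ‖ι' x‖ ≤ 1 := by
  rw [← valuation_le_one_iff, ← valuation_le_one_iff, h]

theorem norm_lt_one_iff_of_primeOf_eq {ι ι' : M →ₐ[ℚ] PadicAlgCl q} (h : primeOf ι = primeOf ι')
    (x : M) : ‖ι x‖ < 1 ↔ ‖ι' x‖ < 1 := by
  rcases eq_or_ne x 0 with rfl | hx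
  · simp
  · have key : ∀ κ : M →ₐ[ℚ] PadicAlgCl q, ‖κ x‖ < 1 ↔ ¬ ‖κ x⁻¹‖ ≤ 1 := by
      intro κ
      have hκ : κ x ≠ 0 := (map_ne_zero κ).mpr hx
      have hpos : 0 < ‖κ x‖ := norm_pos_iff.mpr hκ
      rw [map_inv₀, norm_inv, not_le, one_lt_inv₀ hpos]
    rw [key ι, key ι', norm_le_one_iff_of_primeOf_eq h]

/-- (P2), the hard direction: embeddings with the same prime are `G_q`-conjugate. -/
theorem exists_postComp_eq_of_primeOf_eq {ι ι' : M →ₐ[ℚ] PadicAlgCl q}
    (h : primeOf ι = primeOf ι') :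
    ∃ d : PadicAlgCl q ≃ₐ[ℚ_[q]] PadicAlgCl q, ι' = postComp d ι := by
  obtain ⟨α, hα⟩ := Field.exists_primitive_element ℚ M
  have hadj : Algebra.adjoin ℚ {α} = ⊤ := by
    have h1 := IntermediateField.adjoin_simple_toSubalgebra_of_isAlgebraic
      (Algebra.IsAlgebraic.isAlgebraic (R := ℚ) α)
    rw [hα] at h1
    rw [← h1]
    rfl
  set a := ι α with ha
  set a' := ι' α with ha'
  by_cases hmin : minpoly ℚ_[q] a = minpoly ℚ_[q] a'
  · obtain ⟨d, hd⟩ :=
      (isConjRoot_iff_exists_algEquiv (K := ℚ_[q]) (L := PadicAlgCl q)).mp hmin.symm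
    refine ⟨d, ?_⟩
    apply AlgHom.ext_of_adjoin_eq_top hadj
    intro x hx
    rw [Set.mem_singleton_iff] at hx
    subst hx
    exact hd.symm
  · exfalso
    have hinta : IsIntegral ℚ_[q] a := Algebra.IsIntegral.isIntegral a
    have hinta' : IsIntegral ℚ_[q] a' := Algebra.IsIntegral.isIntegral a'
    have hcop : IsCoprime (minpoly ℚ_[q] a) (minpoly ℚ_[q] a') := by
      refine (Irreducible.coprime_iff_not_dvd (minpoly.irreducible hinta)).mpr ?_
      intro hdvd
      apply hmin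
      exact Polynomial.eq_of_monic_of_associated (minpoly.monic hinta) (minpoly.monic hinta')
        ((minpoly.irreducible hinta).associated_of_dvd (minpoly.irreducible hinta') hdvd)
    obtain ⟨u, v, huv⟩ := hcop
    -- `hh := u * minpoly a` vanishes at `a` and is `1` at `a'`
    set hh : ℚ_[q][X] := u * minpoly ℚ_[q] a with hhdef
    have hha : aeval a hh = 0 := by rw [hhdef, map_mul, minpoly.aeval, mul_zero]
    have hha' : aeval a' hh = 1 := by
      have h1 : aeval a' (u * minpoly ℚ_[q] a + v * minpoly ℚ_[q] a') = 1 := by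
        rw [huv, map_one]
      rw [map_add, map_mul _ v, minpoly.aeval, mul_zero, add_zero] at h1
      exact h1
    obtain ⟨g, hg, hg'⟩ := exists_rat_poly_approx hh a a' one_pos
    rw [hha, sub_zero] at hg
    rw [hha'] at hg'
    have e1 : ι (aeval α g) = aeval a g := (Polynomial.aeval_algHom_apply ι α g).symm
    have e2 : ι' (aeval α g) = aeval a' g := (Polynomial.aeval_algHom_apply ι' α g).symm
    have hlt : ‖ι' (aeval α g)‖ < 1 := by
      rw [← norm_lt_one_iff_of_primeOf_eq h, e1]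
      exact hg
    rw [e2] at hlt
    have : ‖(1 : PadicAlgCl q)‖ < 1 := by
      have h2 : (1 : PadicAlgCl q) = aeval a' g + (1 - aeval a' g) := by ring
      rw [norm_sub_rev] at hg'
      rw [h2]
      exact lt_of_le_of_lt (IsUltrametricDist.norm_add_le_max _ _) (max_lt hlt hg')
    rw [norm_one] at this
    exact lt_irrefl _ this

/-- (P2): the fibres of `primeOf` are the `G_q`-orbits. -/
theorem primeOf_eq_iff (ι ι' : M →ₐ[ℚ] PadicAlgCl q) :
    primeOf ι = primeOf ι' ↔ ∃ d : PadicAlgCl q ≃ₐ[ℚ_[q]] PadicAlgCl q, ι' = postComp d ι := by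
  constructor
  · exact exists_postComp_eq_of_primeOf_eq
  · rintro ⟨d, rfl⟩
    exact (primeOf_postComp d ι).symm

/-- compatibility with automorphisms of the number field: the prime of `ι ∘ γ` is the pull-back
of the prime of `ι` under `γ`. -/
theorem primeOf_comp_asIdeal (γ : M ≃ₐ[ℚ] M) (ι : M →ₐ[ℚ] PadicAlgCl q) :
    (primeOf (ι.comp (γ : M →ₐ[ℚ] M))).asIdeal =
      (primeOf ι).asIdeal.comap
        ((RingOfIntegers.mapRingEquiv (γ : M ≃+* M) : 𝓞 M ≃+* 𝓞 M) : 𝓞 M →+* 𝓞 M) := by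
  ext x
  rw [Ideal.mem_comap, mem_primeOf, mem_primeOf]
  rfl

end Fermat.Agent.S55lib.Places
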