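/-
S55lib / Places / Glue (lead).
The comparison between the two idele models of a number field `M`:
* the intrinsic semilocal model `∀ q : Nat.Primes, Jq q M` (`Iface/Layers.lean`), and
* the place-indexed model `∀ v, ((completionData M).Fv v)ˣ` of `SecondIneq` (helper1),
by `toIdele x v := x_{q_v}(ι_v)` (evaluation of the `q_v`-component at the chosen embedding).
`toIdele` is an injective group homomorphism, carries the diagonal to the principal ideles,
and matches the local unit conditions (hence the restricted products).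
-/
import Mathlib
import Fermat.Agent.S55lib.Places.Completion
import Fermat.Agent.S55lib.Places.Orbit
import Fermat.Agent.S55lib.Iface.Modules

set_option autoImplicit false

noncomputable section

namespace Fermat.Agent.S55lib.Places

open NumberField IsDedekindDomain Fermat.Agent.S55lib Fermat.Agent.S55lib.LocalH
  Fermat.Agent.S55lib.SecondIneq

section Local

variable {q : ℕ} [Fact q.Prime] {M : Type*} [Field M] [NumberField M]

/-- evaluation of an equivariant function at an embedding, as a unit of the local field -/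
def evalUnit (ι : Emb q M) : Jq q M →* (localField q M ι)ˣ where
  toFun f := Units.mk0 ⟨((f.1 ι : (PadicAlgCl q)ˣ) : PadicAlgCl q), Jq.val_mem_localField f.2 ι⟩
    (fun h => (f.1 ι).ne_zero (congrArg Subtype.val h))
  map_one' := by
    apply Units.ext
    apply Subtype.ext
    simp
  map_mul' f g := by
    apply Units.ext
    apply Subtype.ext
    simp

@[simp] theorem coe_evalUnit (ι : Emb q M) (f : Jq q M) :
    (((evalUnit ι f : (localField q M ι)ˣ) : localField q M ι) : PadicAlgCl q) =
      ((f.1 ι : (PadicAlgCl q)ˣ) : PadicAlgCl q) := rfl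

theorem mem_unitGroup_normedIntegers_iff {L : Type} [NontriviallyNormedField L]
    [IsUltrametricDist L] [ProperSpace L] (x : Lˣ) :
    x ∈ (normedIntegers L).unitGroup ↔ ‖(x : L)‖ = 1 := by
  rw [ValuationSubring.mem_unitGroup_iff]
  have h0 : 0 < ‖(x : L)‖ := norm_pos_iff.mpr x.ne_zero
  have hv0 : (normedIntegers L).valuation (x : L) ≠ 0 := (Valuation.ne_zero_iff _).mpr x.ne_zero
  have h1 : (normedIntegers L).valuation (x : L) ≤ 1 ↔ ‖(x : L)‖ ≤ 1 := by
    rw [ValuationSubring.valuation_le_one_iff, mem_normedIntegers]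
  have h2 : (normedIntegers L).valuation (x : L)⁻¹ ≤ 1 ↔ ‖(x : L)⁻¹‖ ≤ 1 := by
    rw [ValuationSubring.valuation_le_one_iff, mem_normedIntegers]
  rw [map_inv₀, norm_inv, inv_le_one₀ (zero_lt_iff.mpr hv0), inv_le_one₀ h0] at h2
  exact ⟨fun h => le_antisymm (h1.mp h.le) (h2.mp h.ge),
    fun h => le_antisymm (h1.mpr h.le) (h2.mpr h.ge)⟩

theorem evalUnit_mem_unitGroup_iff (ι : Emb q M) (f : Jq q M) :
    evalUnit ι f ∈ (localIntegers ι).unitGroup ↔
      ‖((f.1 ι : (PadicAlgCl q)ˣ) : PadicAlgCl q)‖ = 1 := by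
  rw [mem_unitGroup_normedIntegers_iff]
  rfl

/-- the norm of the value of an equivariant function only depends on the place -/
theorem norm_apply_eq_of_primeOf_eq (f : Jq q M) {ι ι' : Emb q M} (h : primeOf ι = primeOf ι') :
    ‖((f.1 ι' : (PadicAlgCl q)ˣ) : PadicAlgCl q)‖ = ‖((f.1 ι : (PadicAlgCl q)ˣ) : PadicAlgCl q)‖ := by
  obtain ⟨d, rfl⟩ := (primeOf_eq_iff ι ι').mp h
  have h1 := f.2 d ι
  have h2 : (d • ι : Emb q M) = postComp d ι := rfl
  rw [← h2, h1, norm_algEquiv]

/-- an equivariant function which is trivial at one embedding is trivial on its orbit -/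
theorem apply_eq_one_of_primeOf_eq (f : Jq q M) {ι ι' : Emb q M} (h : primeOf ι = primeOf ι')
    (h1 : f.1 ι = 1) : f.1 ι' = 1 := by
  obtain ⟨d, rfl⟩ := (primeOf_eq_iff ι ι').mp h
  have h2 := f.2 d ι
  have h3 : (d • ι : Emb q M) = postComp d ι := rfl
  apply Units.ext
  rw [← h3, h2, h1]
  simp

end Local

section Global

variable (M : Type*) [Field M] [NumberField M]

/-- the rational prime below a finite place, as an element of `Nat.Primes` -/
abbrev qPrimeOf (v : HeightOneSpectrum (𝓞 M)) : Nat.Primes := ⟨qOf v, (fact_qOf v).out⟩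

variable {M}

theorem qPrimeOf_primeOf (q : Nat.Primes) (ι : Emb (q : ℕ) M) : qPrimeOf M (primeOf ι) = q :=
  Subtype.ext (qOf_primeOf ι)

/-- the fibres of `v ↦ q_v` are finite -/
theorem finite_setOf_qPrimeOf_eq (q : Nat.Primes) : {v : HeightOneSpectrum (𝓞 M) | qPrimeOf M v = q}.Finite := by
  have hq0 : (Ideal.span {((q : ℕ) : 𝓞 M)}) ≠ 0 := by
    rw [Ne, Ideal.zero_eq_bot, Ideal.span_singleton_eq_bot]
    exact_mod_cast q.2.ne_zero
  refine (Ideal.finite_factors hq0).subset ?_
  intro v hv
  rw [Set.mem_ofPred_eq] at hv ⊢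
  rw [Ideal.dvd_span_singleton]
  have h1 : ((qOf v : ℕ) : 𝓞 M) ∈ v.asIdeal := qOf_mem v
  have h2 : qOf v = (q : ℕ) := congrArg Subtype.val hv
  rw [h2] at h1
  exact h1

variable (M)

/-- **the comparison map** from the semilocal model to the place-indexed model. -/
def toIdele : (∀ q : Nat.Primes, Jq (q : ℕ) M) →* ∀ v, ((completionData M).Fv v)ˣ where
  toFun x v := evalUnit (embOf v) (x (qPrimeOf M v))
  map_one' := by
    funext v
    exact map_one (evalUnit (embOf v))
  map_mul' x y := by
    funext v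
    exact map_mul (evalUnit (embOf v)) _ _

variable {M}

theorem toIdele_apply (x : ∀ q : Nat.Primes, Jq (q : ℕ) M) (v : HeightOneSpectrum (𝓞 M)) :
    toIdele M x v = evalUnit (embOf v) (x (qPrimeOf M v)) := rfl

variable (M) in
/-- the diagonal embedding into the full product -/
def diagPi : Mˣ →* ∀ q : Nat.Primes, Jq (q : ℕ) M :=
  MonoidHom.pi fun q : Nat.Primes => diag (q : ℕ) M

@[simp] theorem diagPi_apply (c : Mˣ) (q : Nat.Primes) : diagPi M c q = diag (q : ℕ) M c := rfl

/-- the diagonal goes to the principal ideles -/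
theorem toIdele_diag (c : Mˣ) :
    toIdele M (diagPi M c) = fun v => (completionData M).loc v c := by
  funext v
  apply Units.ext
  apply Subtype.ext
  rfl

theorem toIdele_mem_U_iff (x : ∀ q : Nat.Primes, Jq (q : ℕ) M) (v : HeightOneSpectrum (𝓞 M)) :
    toIdele M x v ∈ (completionData M).U v ↔
      ‖Units.val ((x (qPrimeOf M v)).1 (embOf v))‖ = 1 :=
  evalUnit_mem_unitGroup_iff (embOf v) (x (qPrimeOf M v))

/-- transport along an equality of primes: norms -/
theorem norm_apply_eq_of_eq (x : ∀ q : Nat.Primes, Jq (q : ℕ) M) {q q' : Nat.Primes} (h : q' = q)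
    (ι : Emb (q : ℕ) M) (ι' : Emb (q' : ℕ) M) (hι : primeOf ι' = primeOf ι) :
    ‖((((x q').1 ι' : (PadicAlgCl (q' : ℕ))ˣ)) : PadicAlgCl (q' : ℕ))‖ =
      ‖((((x q).1 ι : (PadicAlgCl (q : ℕ))ˣ)) : PadicAlgCl (q : ℕ))‖ := by
  subst h
  exact norm_apply_eq_of_primeOf_eq (x q') hι.symm

/-- transport along an equality of primes: triviality -/
theorem apply_eq_one_of_eq (x : ∀ q : Nat.Primes, Jq (q : ℕ) M) {q q' : Nat.Primes} (h : q' = q)
    (ι : Emb (q : ℕ) M) (ι' : Emb (q' : ℕ) M) (hι : primeOf ι' = primeOf ι)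
    (h1 : (x q').1 ι' = 1) : (x q).1 ι = 1 := by
  subst h
  exact apply_eq_one_of_primeOf_eq (x q') hι h1

/-- the local unit condition at `q`, in terms of the places above `q` -/
theorem mem_Uq_iff_forall_toIdele (x : ∀ q : Nat.Primes, Jq (q : ℕ) M) (q : Nat.Primes) :
    x q ∈ Uq (q : ℕ) M ↔
      ∀ v : HeightOneSpectrum (𝓞 M), qPrimeOf M v = q → toIdele M x v ∈ (completionData M).U v := by
  constructor
  · intro hx v hv
    subst hv
    rw [toIdele_mem_U_iff]
    exact hx (embOf v)
  · intro hx ι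
    have hv : qPrimeOf M (primeOf ι) = q := qPrimeOf_primeOf q ι
    have h1 := (toIdele_mem_U_iff x (primeOf ι)).mp (hx (primeOf ι) hv)
    rw [← norm_apply_eq_of_eq x hv ι (embOf (primeOf ι)) (primeOf_embOf _)]
    exact h1

/-- `toIdele` is injective -/
theorem toIdele_injective : Function.Injective (toIdele M) := by
  rw [injective_iff_map_eq_one]
  intro x hx
  funext q
  apply Subtype.ext
  funext ι
  have hv : qPrimeOf M (primeOf ι) = q := qPrimeOf_primeOf q ι
  refine apply_eq_one_of_eq x hv ι (embOf (primeOf ι)) (primeOf_embOf _) ?_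
  have h1 := congrFun hx (primeOf ι)
  rw [toIdele_apply] at h1
  have h2 := congrArg (fun u : (localField (qOf (primeOf ι)) M (embOf (primeOf ι)))ˣ =>
    ((u : localField (qOf (primeOf ι)) M (embOf (primeOf ι))) : PadicAlgCl (qOf (primeOf ι)))) h1
  apply Units.ext
  exact h2

/-- the restricted products correspond -/
theorem toIdele_mem_idele_iff (x : ∀ q : Nat.Primes, Jq (q : ℕ) M) :
    toIdele M x ∈ idele (completionData M).U ↔ {q : Nat.Primes | x q ∉ Uq (q : ℕ) M}.Finite := by
  rw [mem_idele]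
  constructor
  · intro h
    refine (h.image (qPrimeOf M)).subset ?_
    intro q hq
    rw [Set.mem_ofPred_eq, mem_Uq_iff_forall_toIdele] at hq
    push Not at hq
    obtain ⟨v, hv, hvU⟩ := hq
    exact ⟨v, hvU, hv⟩
  · intro h
    have h2 : {v : HeightOneSpectrum (𝓞 M) | toIdele M x v ∉ (completionData M).U v} ⊆
        ⋃ q ∈ {q : Nat.Primes | x q ∉ Uq (q : ℕ) M}, {v | qPrimeOf M v = q} := by
      intro v hv
      rw [Set.mem_iUnion₂]
      refine ⟨qPrimeOf M v, ?_, rfl⟩
      rw [Set.mem_ofPred_eq, mem_Uq_iff_forall_toIdele]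
      intro hall
      exact hv (hall v rfl)
    exact (h.biUnion (fun q _ => finite_setOf_qPrimeOf_eq q)).subset h2

end Global

end Fermat.Agent.S55lib.Places
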