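/-
S55lib / Places / ClassTors (lead).
The class group is torsion, in idelic form: for every idele `x` of the number field `M` the
`h`-th power of `x` (`h` the class number) is a unit idele times a principal idele.
First in the place-indexed model of `SecondIneq` (any `CompletionData`), then transported to the
intrinsic semilocal model along `Places.toIdele`.
-/
import Mathlib
import Fermat.Agent.S55lib.Places.Glue
import Fermat.Agent.S55lib.SecondIneq.ClassGroupS

set_option autoImplicit false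

noncomputable section

namespace Fermat.Agent.S55lib.Places

open NumberField IsDedekindDomain HeightOneSpectrum nonZeroDivisors Fermat.Agent.S55lib
  Fermat.Agent.S55lib.SecondIneq Fermat.Agent.S55lib.LocalH

section Abstract

variable {F : Type*} [Field F] [NumberField F] (D : CompletionData F)

theorem ordInt_pow' (v : HeightOneSpectrum (𝓞 F)) (x : (D.Fv v)ˣ) (n : ℕ) :
    ordInt (D.𝒪v v) (x ^ n) = n * ordInt (D.𝒪v v) x := by
  induction n with
  | zero =>
    rw [pow_zero, Nat.cast_zero, zero_mul]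
    exact (mem_unitGroup_iff_ordInt (D.𝒪v v) 1).mp (Subgroup.one_mem _)
  | succ n ih =>
    rw [pow_succ, ordInt_mul, ih]
    push_cast
    ring

theorem ordInt_inv' (v : HeightOneSpectrum (𝓞 F)) (x : (D.Fv v)ˣ) :
    ordInt (D.𝒪v v) x⁻¹ = - ordInt (D.𝒪v v) x := by
  have := ordInt_mul (D.𝒪v v) x x⁻¹
  rw [mul_inv_cancel] at this
  have h0 : ordInt (D.𝒪v v) (1 : (D.Fv v)ˣ) = 0 :=
    (mem_unitGroup_iff_ordInt (D.𝒪v v) 1).mp (Subgroup.one_mem _)
  rw [h0] at this
  omega

open scoped Classical in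
/-- **the class group is torsion, idelic form** (place-indexed model) -/
theorem exists_pow_div_loc_mem_U (y : ∀ v, (D.Fv v)ˣ) (hy : y ∈ idele D.U) :
    ∃ c : Fˣ, ∀ v, (y v) ^ (classNumber F) / D.loc v c ∈ D.U v := by
  have hyfin : {v | ordInt (D.𝒪v v) (y v) ≠ 0}.Finite := by
    refine (mem_idele.mp hy).subset ?_
    intro v hv
    simp only [Set.mem_ofPred_eq] at hv ⊢
    rwa [CompletionData.U, mem_unitGroup_iff_ordInt]
  set exps : HeightOneSpectrum (𝓞 F) →₀ ℤ :=
    Finsupp.mk hyfin.toFinset (fun v => ordInt (D.𝒪v v) (y v)) (fun v => by simp) with hexps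
  set Iy : FractionalIdeal (𝓞 F)⁰ F :=
    exps.prod fun v k => (v.asIdeal : FractionalIdeal (𝓞 F)⁰ F) ^ k with hIy
  have hIy0 : Iy ≠ 0 := by
    rw [hIy, Finsupp.prod, Finset.prod_ne_zero_iff]
    intro v _
    exact zpow_ne_zero _ (FractionalIdeal.coeIdeal_ne_zero.mpr v.ne_bot)
  have hcount : ∀ v, FractionalIdeal.count F v Iy = ordInt (D.𝒪v v) (y v) := fun v =>
    FractionalIdeal.count_finsuppProd F v exps
  set Iu : (FractionalIdeal (𝓞 F)⁰ F)ˣ := Units.mk0 Iy hIy0 with hIu
  have hprinc : ClassGroup.mk F (Iu ^ classNumber F) = 1 := by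
    rw [map_pow]
    exact pow_card_eq_one
  rw [ClassGroup.mk_eq_one_iff, FractionalIdeal.isPrincipal_iff] at hprinc
  obtain ⟨c, hc⟩ := hprinc
  have hc0 : c ≠ 0 := by
    rintro rfl
    rw [FractionalIdeal.spanSingleton_zero] at hc
    exact (Iu ^ classNumber F).ne_zero hc
  have hpow : Iy ^ classNumber F = FractionalIdeal.spanSingleton (𝓞 F)⁰ c := by
    rw [← hc]
    simp [hIu]
  have hcountpow : ∀ v, (classNumber F : ℤ) * ordInt (D.𝒪v v) (y v) =
      FractionalIdeal.count F v (FractionalIdeal.spanSingleton (𝓞 F)⁰ c) := by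
    intro v
    rw [← hcount v, ← hpow, FractionalIdeal.count_pow]
  set cu : Fˣ := Units.mk0 c hc0 with hcu
  refine ⟨cu, ?_⟩
  intro v
  have h1 := hcountpow v
  have h2 := Fermat.Agent.S55lib.SecondIneq.valuation_eq_exp_neg_count v c hc0
  have h3 := D.valuation_eq_exp_neg_ordInt v cu
  rw [hcu, Units.val_mk0, h2, WithZero.exp_inj, neg_inj, ← h1] at h3
  rw [CompletionData.U, mem_unitGroup_iff_ordInt, div_eq_mul_inv, ordInt_mul, ordInt_inv',
    ordInt_pow', ← h3]
  ring

end Abstract

section Intrinsic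

variable (M : Type*) [Field M] [NumberField M]

/-- **the class group is torsion, idelic form, in the `Jq`-model**: the `h`-th power of an idele
is a unit idele up to a principal idele (`h = classNumber M ≠ 0`). -/
theorem exists_pow_mul_diag_mem_Uq (x : ∀ q : Nat.Primes, Jq (q : ℕ) M)
    (hx : {q : Nat.Primes | x q ∉ Uq (q : ℕ) M}.Finite) :
    ∃ a : Mˣ, ∀ q : Nat.Primes, (x q) ^ (classNumber M) * diag (q : ℕ) M a ∈ Uq (q : ℕ) M := by
  have h1 : toIdele M x ∈ idele (completionData M).U := (toIdele_mem_idele_iff x).mpr hx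
  obtain ⟨c, hc⟩ := exists_pow_div_loc_mem_U (completionData M) (toIdele M x) h1
  refine ⟨c⁻¹, ?_⟩
  intro q
  have key : ∀ v, toIdele M (x ^ classNumber M * diagPi M c⁻¹) v =
      (toIdele M x v) ^ (classNumber M) / (completionData M).loc v c := by
    intro v
    rw [map_mul, map_pow, toIdele_diag, Pi.mul_apply, Pi.pow_apply, map_inv, div_eq_mul_inv]
  have h3 := (mem_Uq_iff_forall_toIdele (x ^ classNumber M * diagPi M c⁻¹) q).mpr ?_
  · exact h3
  · intro v _
    rw [key]
    exact hc v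

/-- variant with an explicit nonzero exponent (helper4's shape) -/
theorem exists_ne_zero_pow_mul_diag_mem_Uq (x : ∀ q : Nat.Primes, Jq (q : ℕ) M)
    (hx : {q : Nat.Primes | x q ∉ Uq (q : ℕ) M}.Finite) :
    ∃ n : ℕ, n ≠ 0 ∧ ∃ a : Mˣ, ∀ q : Nat.Primes, (x q) ^ n * diag (q : ℕ) M a ∈ Uq (q : ℕ) M :=
  ⟨classNumber M, classNumber_ne_zero M, exists_pow_mul_diag_mem_Uq M x hx⟩

end Intrinsic

end Fermat.Agent.S55lib.Places
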