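/-
S55lib / Places / Below (lead).
For an extension `M/F` of number fields: the place of `F` below a place of `M`, and the embedding
of the local fields `F_{r w} → M_w` of `Places.completionData`, compatible with the global
embedding (the data `r`, `hrfin`, `j`, `hj` of `SecondIneq.second_inequality_kummer`).
-/
import Mathlib
import Fermat.Agent.S55lib.Places.Glue

set_option autoImplicit false

noncomputable section

namespace Fermat.Agent.S55lib.Places

open NumberField IsDedekindDomain Fermat.Agent.S55lib Fermat.Agent.S55lib.SecondIneq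

variable {F M : Type*} [Field F] [NumberField F] [Field M] [NumberField M] [Algebra F M]

variable (F) in
/-- the place of `F` below the place `w` of `M` -/
def placeBelow (w : HeightOneSpectrum (𝓞 M)) : HeightOneSpectrum (𝓞 F) :=
  primeOf (Emb.res (IsScalarTower.toAlgHom ℚ F M) (embOf w))

theorem primeOf_res_eq_of_primeOf_eq {q : ℕ} [Fact q.Prime] {ι ι' : Emb q M}
    (h : primeOf ι = primeOf ι') :
    primeOf (Emb.res (IsScalarTower.toAlgHom ℚ F M) ι) =
      primeOf (Emb.res (IsScalarTower.toAlgHom ℚ F M) ι') := by
  obtain ⟨d, rfl⟩ := (primeOf_eq_iff ι ι').mp h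
  exact (primeOf_postComp d (Emb.res (IsScalarTower.toAlgHom ℚ F M) ι)).symm

theorem qOf_placeBelow (w : HeightOneSpectrum (𝓞 M)) : qOf (placeBelow F w) = qOf w :=
  qOf_primeOf _

theorem mem_placeBelow_iff (w : HeightOneSpectrum (𝓞 M)) (x : 𝓞 F) :
    x ∈ (placeBelow F w).asIdeal ↔ algebraMap (𝓞 F) (𝓞 M) x ∈ w.asIdeal := by
  conv_rhs => rw [← primeOf_embOf w]
  rw [placeBelow, mem_primeOf, mem_primeOf]
  rfl

/-- the place below the place of an embedding is the place of the restricted embedding -/
theorem placeBelow_primeOf {q : ℕ} [Fact q.Prime] (ι : Emb q M) :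
    placeBelow F (primeOf ι) = primeOf (Emb.res (IsScalarTower.toAlgHom ℚ F M) ι) := by
  apply HeightOneSpectrum.ext
  ext x
  rw [mem_placeBelow_iff, mem_primeOf, mem_primeOf]
  rfl

theorem finite_setOf_placeBelow_eq (v : HeightOneSpectrum (𝓞 F)) :
    {w : HeightOneSpectrum (𝓞 M) | placeBelow F w = v}.Finite := by
  refine (finite_setOf_qPrimeOf_eq (M := M) (qPrimeOf F v)).subset ?_
  intro w hw
  rw [Set.mem_ofPred_eq] at hw ⊢
  apply Subtype.ext
  show qOf w = qOf v
  rw [← hw, qOf_placeBelow]

/-- conjugate embeddings (with respect to a possibly different, but equal, prime) give a ring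
homomorphism of the local fields compatible with the global embeddings -/
theorem exists_ringHom_localField {q q' : ℕ} [Fact q.Prime] [Fact q'.Prime] (h : q' = q)
    (κ' : Emb q' F) (ι : Emb q M)
    (hp : primeOf κ' = primeOf (Emb.res (IsScalarTower.toAlgHom ℚ F M) ι)) :
    ∃ j : localField q' F κ' →+* localField q M ι,
      ∀ x : F, j (toLocalField κ' x) = toLocalField ι (algebraMap F M x) := by
  subst h
  obtain ⟨d, hd⟩ := (primeOf_eq_iff κ' (Emb.res (IsScalarTower.toAlgHom ℚ F M) ι)).mp hp
  have hle : localField q' F κ' ≤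
      (localField q' M ι).comap (d : PadicAlgCl q' →ₐ[ℚ_[q']] PadicAlgCl q') := by
    unfold localField
    rw [IntermediateField.adjoin_le_iff]
    rintro _ ⟨x, rfl⟩
    show d (κ' x) ∈ IntermediateField.adjoin ℚ_[q'] (Set.range ι)
    have h1 : d (κ' x) = ι (algebraMap F M x) := by
      have := congrArg (fun g : Emb q' F => g x) hd
      exact this.symm
    rw [h1]
    exact IntermediateField.subset_adjoin _ _ ⟨_, rfl⟩
  refine ⟨(((d : PadicAlgCl q' →ₐ[ℚ_[q']] PadicAlgCl q') : PadicAlgCl q' →+* PadicAlgCl q').comp
    (localField q' F κ').val.toRingHom).codRestrict (localField q' M ι).toSubfield.toSubring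
    (fun y => hle y.2), ?_⟩
  intro x
  apply Subtype.ext
  show d (κ' x) = ι (algebraMap F M x)
  have := congrArg (fun g : Emb q' F => g x) hd
  exact this.symm

variable (F M) in
/-- the embedding of the local fields `F_{r w} → M_w` -/
def localEmb (w : HeightOneSpectrum (𝓞 M)) :
    (completionData F).Fv (placeBelow F w) →+* (completionData M).Fv w :=
  (exists_ringHom_localField (qOf_placeBelow w) (embOf (placeBelow F w)) (embOf w)
    (primeOf_embOf _)).choose

theorem localEmb_emb (w : HeightOneSpectrum (𝓞 M)) (x : F) :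
    localEmb F M w ((completionData F).emb (placeBelow F w) x) =
      (completionData M).emb w (algebraMap F M x) :=
  (exists_ringHom_localField (qOf_placeBelow w) (embOf (placeBelow F w)) (embOf w)
    (primeOf_embOf _)).choose_spec x

end Fermat.Agent.S55lib.Places
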