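/-
S55lib / Places / Ext (lead).
Surjectivity of the comparison map `toIdele` (`Places/Glue.lean`): every family of local units
`y_v ∈ (F_v)ˣ` is the family of values `x_{q_v}(ι_v)` of a family `x_q ∈ J_q(F)`; the restricted
products correspond, so every idele of `SecondIneq`'s place-indexed model comes from `Dev.Idele F`.
Main tool: the one-orbit extension `exists_Jq_single`.
-/
import Mathlib
import Fermat.Agent.S55lib.Places.Glue
import Fermat.Agent.S55lib.Dev.Idele

set_option autoImplicit false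

noncomputable section

namespace Fermat.Agent.S55lib.Places

open NumberField IsDedekindDomain Fermat.Agent.S55lib Fermat.Agent.S55lib.SecondIneq

section Single

variable {q : ℕ} [Fact q.Prime] {F : Type*} [Field F] [NumberField F]

/-- elements of `G_q` which agree on the orbit point agree on the local field -/
theorem apply_eq_of_smul_eq {ι₀ : Emb q F} {d d' : GalQq q} (h : d • ι₀ = d' • ι₀)
    {t : PadicAlgCl q} (ht : t ∈ localField q F ι₀) : d t = d' t := by
  have h1 : (d'⁻¹ * d) • ι₀ = ι₀ := by rw [mul_smul, h, inv_smul_smul]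
  have h2 := (Emb.smul_eq_self_iff (d'⁻¹ * d) ι₀).mp h1
  have h3 : (d'⁻¹ * d) t = t := h2 ⟨t, ht⟩
  have h4 : d' ((d'⁻¹ * d) t) = d t := by
    rw [AlgEquiv.mul_apply]
    exact AlgEquiv.apply_symm_apply d' (d t)
  rw [← h4, h3]

/-- **one-orbit extension**: a unit of the local field at `ι₀` extends to an equivariant function
supported on the orbit of `ι₀`. -/
theorem exists_Jq_single (ι₀ : Emb q F) (t : (PadicAlgCl q)ˣ)
    (ht : (t : PadicAlgCl q) ∈ localField q F ι₀) :
    ∃ g : Jq q F, g.1 ι₀ = t ∧ ∀ ι : Emb q F, primeOf ι ≠ primeOf ι₀ → g.1 ι = 1 := by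
  classical
  let g : Emb q F → (PadicAlgCl q)ˣ := fun ι =>
    if h : ∃ d : GalQq q, ι = d • ι₀ then
      Units.map ((h.choose : PadicAlgCl q ≃* PadicAlgCl q) : PadicAlgCl q →* PadicAlgCl q) t
    else 1
  have hg_of : ∀ (ι : Emb q F) (d : GalQq q), ι = d • ι₀ →
      ((g ι : (PadicAlgCl q)ˣ) : PadicAlgCl q) = d t := by
    intro ι d hd
    have h : ∃ d : GalQq q, ι = d • ι₀ := ⟨d, hd⟩
    have h1 : g ι = Units.map ((h.choose : PadicAlgCl q ≃* PadicAlgCl q) :
        PadicAlgCl q →* PadicAlgCl q) t := dif_pos h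
    rw [h1]
    show h.choose (t : PadicAlgCl q) = d t
    exact apply_eq_of_smul_eq (h.choose_spec.symm.trans hd) ht
  have hg_not : ∀ ι : Emb q F, (¬ ∃ d : GalQq q, ι = d • ι₀) → g ι = 1 := fun ι h => dif_neg h
  refine ⟨⟨g, ?_⟩, ?_, ?_⟩
  · intro e ι
    by_cases h : ∃ d : GalQq q, ι = d • ι₀
    · obtain ⟨d, hd⟩ := h
      rw [hg_of ι d hd, hg_of (e • ι) (e * d) (by rw [hd, mul_smul])]
      rfl
    · have h' : ¬ ∃ d : GalQq q, e • ι = d • ι₀ := by
        rintro ⟨d, hd⟩
        apply h
        refine ⟨e⁻¹ * d, ?_⟩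
        rw [mul_smul, ← hd, inv_smul_smul]
      rw [hg_not ι h, hg_not (e • ι) h']
      simp
  · apply Units.ext
    have := hg_of ι₀ 1 (one_smul _ _).symm
    simpa using this
  · intro ι hι
    apply hg_not
    rintro ⟨d, rfl⟩
    apply hι
    exact primeOf_postComp d ι₀

/-- units of an intermediate field as units of the ambient field -/
def unitCoe (E : IntermediateField ℚ_[q] (PadicAlgCl q)) : Eˣ →* (PadicAlgCl q)ˣ :=
  Units.map ((E.val : E →ₐ[ℚ_[q]] PadicAlgCl q) : E →* PadicAlgCl q)

theorem coe_unitCoe (E : IntermediateField ℚ_[q] (PadicAlgCl q)) (t : Eˣ) :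
    ((unitCoe E t : (PadicAlgCl q)ˣ) : PadicAlgCl q) = ((t : E) : PadicAlgCl q) := rfl

theorem unitCoe_mem (E : IntermediateField ℚ_[q] (PadicAlgCl q)) (t : Eˣ) :
    ((unitCoe E t : (PadicAlgCl q)ˣ) : PadicAlgCl q) ∈ E := (t : E).2

end Single

section Global

variable {F : Type*} [Field F] [NumberField F]

/-- the one-orbit extension of a unit of the local field at the place `v` -/
def singleAt (v : HeightOneSpectrum (𝓞 F)) (t : (localField (qOf v) F (embOf v))ˣ) :
    Jq ((qPrimeOf F v : Nat.Primes) : ℕ) F :=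
  (exists_Jq_single (embOf v) (unitCoe (localField (qOf v) F (embOf v)) t)
    (unitCoe_mem (localField (qOf v) F (embOf v)) t)).choose

theorem evalUnit_singleAt (v : HeightOneSpectrum (𝓞 F)) (t : (localField (qOf v) F (embOf v))ˣ) :
    evalUnit (embOf v) (singleAt v t) = t := by
  have h := (exists_Jq_single (embOf v) (unitCoe (localField (qOf v) F (embOf v)) t)
    (unitCoe_mem (localField (qOf v) F (embOf v)) t)).choose_spec.1
  apply Units.ext
  apply Subtype.ext
  rw [coe_evalUnit]
  exact congrArg Units.val h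

theorem singleAt_apply_of_ne (v : HeightOneSpectrum (𝓞 F)) (t : (localField (qOf v) F (embOf v))ˣ)
    (ι : Emb (qOf v) F) (hι : primeOf ι ≠ v) : (singleAt v t).1 ι = 1 := by
  have h := (exists_Jq_single (embOf v) (unitCoe (localField (qOf v) F (embOf v)) t)
    (unitCoe_mem (localField (qOf v) F (embOf v)) t)).choose_spec.2
  apply h ι
  rw [primeOf_embOf]
  exact hι

/-- transport of a component along an equality of primes -/
def castJq {q q' : Nat.Primes} (h : q' = q) (g : Jq (q' : ℕ) F) : Jq (q : ℕ) F := h ▸ g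

theorem castJq_rfl {q : Nat.Primes} (h : q = q) (g : Jq (q : ℕ) F) : castJq h g = g := rfl

theorem castJq_apply_eq_one {q q' : Nat.Primes} (h : q' = q) (g : Jq (q' : ℕ) F)
    (v : HeightOneSpectrum (𝓞 F)) (hg : ∀ ι : Emb (q' : ℕ) F, primeOf ι ≠ v → g.1 ι = 1)
    (ι : Emb (q : ℕ) F) (hι : primeOf ι ≠ v) : (castJq h g).1 ι = 1 := by
  subst h
  exact hg ι hι

open Classical in
/-- the family with prescribed values at the chosen embeddings -/
def ofLocal (y : ∀ v : HeightOneSpectrum (𝓞 F), ((completionData F).Fv v)ˣ) :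
    ∀ q : Nat.Primes, Jq (q : ℕ) F := fun q =>
  ∏ v ∈ (finite_setOf_qPrimeOf_eq (M := F) q).toFinset,
    if h : qPrimeOf F v = q then castJq h (singleAt v (y v)) else 1

/-- **surjectivity of the comparison map.** -/
theorem toIdele_ofLocal (y : ∀ v : HeightOneSpectrum (𝓞 F), ((completionData F).Fv v)ˣ) :
    toIdele F (ofLocal y) = y := by
  classical
  funext v₀
  rw [toIdele_apply, ofLocal, map_prod]
  rw [Finset.prod_eq_single v₀]
  · rw [dif_pos rfl, castJq_rfl, evalUnit_singleAt]
  · intro v _ hv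
    by_cases h : qPrimeOf F v = qPrimeOf F v₀
    · rw [dif_pos h]
      apply Units.ext
      apply Subtype.ext
      rw [coe_evalUnit]
      have h1 := castJq_apply_eq_one h (singleAt v (y v)) v
        (fun ι hι => singleAt_apply_of_ne v (y v) ι hι) (embOf v₀)
        (by rw [primeOf_embOf]; exact fun h' => hv h'.symm)
      rw [h1]
      rfl
    · rw [dif_neg h, map_one]
  · intro hv₀
    exfalso
    apply hv₀
    rw [Set.Finite.mem_toFinset]
    rfl

/-- the restricted products correspond: ideles of the place-indexed model come from `Dev.Idele` -/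
theorem ofLocal_mem_Idele {y : ∀ v : HeightOneSpectrum (𝓞 F), ((completionData F).Fv v)ˣ}
    (hy : y ∈ idele (completionData F).U) : ofLocal y ∈ Dev.Idele F := by
  have h1 : toIdele F (ofLocal y) ∈ idele (completionData F).U := by
    rw [toIdele_ofLocal]
    exact hy
  exact (toIdele_mem_idele_iff (ofLocal y)).mp h1

/-- **(Θ-surj)**: every idele of the place-indexed model is `toIdele` of an element of
`Dev.Idele F`. -/
theorem exists_idele_toIdele_eq (y : ∀ v : HeightOneSpectrum (𝓞 F), ((completionData F).Fv v)ˣ)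
    (hy : y ∈ idele (completionData F).U) : ∃ x : Dev.Idele F, toIdele F x.1 = y :=
  ⟨⟨ofLocal y, ofLocal_mem_Idele hy⟩, toIdele_ofLocal y⟩

/-- **(Θ-surj)** in evaluation form (helper1's shape). -/
theorem exists_idele_eval_eq (y : ∀ v : HeightOneSpectrum (𝓞 F), ((completionData F).Fv v)ˣ)
    (hy : y ∈ idele (completionData F).U) :
    ∃ x : Dev.Idele F, ∀ v : HeightOneSpectrum (𝓞 F),
      (x.1 ⟨qOf v, (fact_qOf v).out⟩).1 (embOf v) =
        unitCoe (localField (qOf v) F (embOf v)) (y v) := by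
  obtain ⟨x, hx⟩ := exists_idele_toIdele_eq y hy
  refine ⟨x, ?_⟩
  intro v
  have h := congrFun hx v
  rw [toIdele_apply] at h
  apply Units.ext
  rw [coe_unitCoe, ← h]
  rfl

end Global

end Fermat.Agent.S55lib.Places
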