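/-
S55lib / Places / ClassFin (lead).
(P8): finiteness of the class group in idelic form, in the intrinsic semilocal model:
there is a finite set `T₀` of rational primes such that every idele `x` (a family
`x_q ∈ J_q(M)` with `x_q ∈ U_q(M)` for almost all `q`) becomes a unit outside `T₀` after
multiplication by a principal idele.
Proof: transport of helper1's `CompletionData.exists_finset_idele_le` along `Places.toIdele`.
-/
import Mathlib
import Fermat.Agent.S55lib.Places.Glue
import Fermat.Agent.S55lib.SecondIneq.ClassGroupS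

set_option autoImplicit false

noncomputable section

namespace Fermat.Agent.S55lib.Places

open NumberField IsDedekindDomain Fermat.Agent.S55lib Fermat.Agent.S55lib.SecondIneq

variable (M : Type*) [Field M] [NumberField M]

open scoped Classical in
/-- **(P8)** class group finiteness, idelic form, in the `Jq`-model. -/
theorem exists_finset_mul_diag_mem_Uq :
    ∃ T₀ : Finset Nat.Primes, ∀ x : (∀ q : Nat.Primes, Jq (q : ℕ) M),
      {q : Nat.Primes | x q ∉ Uq (q : ℕ) M}.Finite →
        ∃ a : Mˣ, ∀ q : Nat.Primes, q ∉ T₀ → x q * diag (q : ℕ) M a ∈ Uq (q : ℕ) M := by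
  obtain ⟨S₀, hS₀⟩ := (completionData M).exists_finset_idele_le
  refine ⟨S₀.image (qPrimeOf M), ?_⟩
  intro x hx
  have h1 : toIdele M x ∈ idele (completionData M).U := (toIdele_mem_idele_iff x).mpr hx
  have h2 := hS₀ S₀ (Finset.Subset.refl _) h1
  obtain ⟨y, hy, s, hs, hys⟩ := Subgroup.mem_sup.mp h2
  obtain ⟨c, hc⟩ := mem_principal.mp hy
  refine ⟨c⁻¹, ?_⟩
  intro q hq
  have key : toIdele M (x * diagPi M c⁻¹) = s := by
    rw [map_mul, toIdele_diag, ← hys]
    funext v
    rw [Pi.mul_apply, Pi.mul_apply, ← hc v, map_inv]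
    exact mul_inv_cancel_comm _ _
  have h3 := (mem_Uq_iff_forall_toIdele (x * diagPi M c⁻¹) q).mpr ?_
  · exact h3
  · intro v hv
    rw [key]
    apply hs v
    intro hvS
    apply hq
    rw [← hv]
    exact Finset.mem_image_of_mem _ hvS

end Fermat.Agent.S55lib.Places
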