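/-
S55lib / Places / Dict (lead).
The place dictionary in the form consumed by the first inequality (`FirstIneq/Count.lean`):
`primeOf : Emb q L → HeightOneSpectrum (𝓞 L)` has the `G_q`-orbits as fibres, the primes above `q`
as image, and is compatible with the automorphisms of `L`.
-/
import Mathlib
import Fermat.Agent.S55lib.Places.Orbit
import Fermat.Agent.S55lib.Places.Surj
import Fermat.Agent.S55lib.FirstIneq.Count

set_option autoImplicit false

noncomputable section

namespace Fermat.Agent.S55lib.Places

open NumberField IsDedekindDomain Fermat.Agent.S55lib Fermat.Agent.S55lib.FirstIneq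

variable (q : ℕ) [Fact q.Prime] (L : Type*) [Field L] [NumberField L]

theorem smul_eq_postComp (d : GalQq q) (ι : Emb q L) : d • ι = postComp d ι := rfl

/-- the fibres of `primeOf` are the `G_q`-orbits (in the `Emb`/`GalQq` language) -/
theorem primeOf_eq_iff_smul (ι ι' : Emb q L) :
    primeOf ι = primeOf ι' ↔ ∃ d : GalQq q, ι' = d • ι :=
  primeOf_eq_iff ι ι'

/-- **the place dictionary** at `q` for the number field `L`. -/
theorem isPlaceDict_primeOf : IsPlaceDict q L (fun ι : Emb q L => primeOf ι) := by
  refine ⟨fun ι ι' => primeOf_eq_iff_smul q L ι ι', fun w => ⟨?_, exists_primeOf_eq w⟩, ?_⟩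
  · rintro ⟨ι, rfl⟩
    exact natCast_mem_primeOf ι
  · intro γ ι
    apply HeightOneSpectrum.ext
    rw [placeComap_asIdeal]
    exact primeOf_comp_asIdeal γ ι

end Fermat.Agent.S55lib.Places
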