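/-
S55lib / Places / SUnit (lead).
(P5, S-unit form): for a set `S` of finite places of the number field `M`, an element `x : Mˣ` is an
`S`-unit (Mathlib's `Set.unit`) iff `‖ι x‖ = 1` for every prime `q` and every embedding
`ι : M →ₐ[ℚ] PadicAlgCl q` whose place `primeOf ι` is outside `S`.
-/
import Mathlib
import Fermat.Agent.S55lib.Places.Val
import Fermat.Agent.S55lib.Places.Choice

set_option autoImplicit false

noncomputable section

namespace Fermat.Agent.S55lib.Places

open NumberField IsDedekindDomain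

variable {M : Type*} [Field M] [NumberField M]

theorem valuation_eq_one_iff {q : ℕ} [Fact q.Prime] (ι : M →ₐ[ℚ] PadicAlgCl q) {x : M}
    (hx : x ≠ 0) : (primeOf ι).valuation M x = 1 ↔ ‖ι x‖ = 1 := by
  have h1 := valuation_le_one_iff ι x
  have h2 := valuation_le_one_iff ι x⁻¹
  have hv0 : (primeOf ι).valuation M x ≠ 0 := (Valuation.ne_zero_iff _).mpr hx
  have hn0 : 0 < ‖ι x‖ := norm_pos_iff.mpr ((map_ne_zero ι).mpr hx)
  rw [map_inv₀, map_inv₀, norm_inv, inv_le_one₀ hn0, inv_le_one₀ (zero_lt_iff.mpr hv0)] at h2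
  constructor
  · intro h
    exact le_antisymm (h1.mp h.le) (h2.mp h.ge)
  · intro h
    exact le_antisymm (h1.mpr h.le) (h2.mpr h.ge)

/-- **S-units in the intrinsic model.** -/
theorem mem_unit_iff (S : Set (HeightOneSpectrum (𝓞 M))) (x : Mˣ) :
    x ∈ S.unit M ↔ ∀ (q : ℕ) [Fact q.Prime] (ι : M →ₐ[ℚ] PadicAlgCl q),
      primeOf ι ∉ S → ‖ι (x : M)‖ = 1 := by
  constructor
  · intro h q _ ι hι
    exact (valuation_eq_one_iff ι x.ne_zero).mp (h (primeOf ι) hι)
  · intro h v hv
    have h1 := h (qOf v) (embOf v) (by rw [primeOf_embOf]; exact hv)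
    have h2 := (valuation_eq_one_iff (embOf v) x.ne_zero).mpr h1
    rw [primeOf_embOf] at h2
    exact h2

/-- global units: `x` is a unit of `𝓞 M` iff it has norm one at every embedding into every
`ℚ̄_q`. -/
theorem forall_valuation_eq_one_iff (x : Mˣ) :
    (∀ v : HeightOneSpectrum (𝓞 M), v.valuation M (x : M) = 1) ↔
      ∀ (q : ℕ) [Fact q.Prime] (ι : M →ₐ[ℚ] PadicAlgCl q), ‖ι (x : M)‖ = 1 := by
  have h := mem_unit_iff (∅ : Set (HeightOneSpectrum (𝓞 M))) x
  constructor
  · intro hx q _ ι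
    exact h.mp (fun v _ => hx v) q ι (Set.notMem_empty _)
  · intro hx v
    exact h.mpr (fun q _ ι _ => hx q ι) v (Set.notMem_empty _)

end Fermat.Agent.S55lib.Places
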