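/-
S55lib / Places / UnitsPow (lead).
(U): the index of the `p`-th powers in the `S`-units of a number field `K ∋ ζ_p` (`p` odd):
`[E_S : E_S^p] = p ^ (|S| + r₂)`, `[K : ℚ] = 2 r₂`, in the hypothesis shape `hunits` of
`SecondIneq.second_inequality_kummer`.
Abstract part: for a finitely generated abelian group `M`,
`[M : pM] = p ^ rank M * #M[p]`.
-/
import Mathlib
import Fermat.Agent.S55lib.FirstIneq.SUnitRank
import Fermat.Agent.S55lib.SecondIneq.CompletionData

set_option autoImplicit false

noncomputable section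

namespace Fermat.Agent.S55lib.Places

open Module NumberField IsDedekindDomain

section Abstract


theorem index_range_nsmul_general (M : Type*) [AddCommGroup M] [Module.Finite ℤ M]
    (p : ℕ) (hp : 0 < p) :
    (nsmulAddMonoidHom (α := M) p).range.index =
      p ^ finrank ℤ M * Nat.card (nsmulAddMonoidHom (α := M) p).ker := by
  classical
  set Tm : Submodule ℤ M := Submodule.torsion ℤ M with hTm
  have hfr : finrank ℤ (M ⧸ Tm) = finrank ℤ M := by
    have h1 := Submodule.finrank_quotient_add_finrank Tm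
    have h2 : finrank ℤ Tm = 0 :=
      (Module.finrank_eq_zero_iff_isTorsion).mpr (Submodule.torsion_isTorsion (R := ℤ) (M := M))
    omega
  set P : AddSubgroup M := (nsmulAddMonoidHom (α := M) p).range with hP
  set PQ : AddSubgroup (M ⧸ Tm) := (nsmulAddMonoidHom (α := M ⧸ Tm) p).range with hPQ
  set T : AddSubgroup M := Tm.toAddSubgroup with hT
  have hK : PQ.comap (Tm.mkQ : M →ₗ[ℤ] M ⧸ Tm).toAddMonoidHom = T ⊔ P := by
    ext x
    rw [AddSubgroup.mem_comap, AddSubgroup.mem_sup]
    constructor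
    · rintro ⟨y, hy⟩
      obtain ⟨y', rfl⟩ := Tm.mkQ_surjective y
      have h1 : Tm.mkQ (x - p • y') = 0 := by
        rw [map_sub, map_nsmul]
        have : (Tm.mkQ : M →ₗ[ℤ] M ⧸ Tm).toAddMonoidHom x = Tm.mkQ x := rfl
        rw [this] at hy
        rw [← hy]
        simp
      have h2 : x - p • y' ∈ Tm := by
        rwa [Submodule.mkQ_apply, Submodule.Quotient.mk_eq_zero] at h1
      exact ⟨x - p • y', h2, p • y', ⟨y', rfl⟩, by abel⟩
    · rintro ⟨t, ht, z, ⟨y, rfl⟩, rfl⟩
      refine ⟨Tm.mkQ y, ?_⟩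
      show p • Tm.mkQ y = Tm.mkQ (t + p • y)
      rw [map_add, map_nsmul]
      have : Tm.mkQ t = 0 := by
        rw [Submodule.mkQ_apply, Submodule.Quotient.mk_eq_zero]
        exact ht
      rw [this, zero_add]
  have hidx : (T ⊔ P).index = p ^ finrank ℤ M := by
    rw [← hK, AddSubgroup.index_comap_of_surjective _ (Tm.mkQ_surjective), hPQ,
      AddSubgroup.index_range_nsmul, hfr]
  have h3 : P.relIndex (T ⊔ P) * (T ⊔ P).index = P.index :=
    AddSubgroup.relIndex_mul_index le_sup_right
  have h4 : P.relIndex (T ⊔ P) = P.relIndex T := AddSubgroup.relIndex_sup_right T P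
  -- the finite torsion group
  have : Finite Tm := Module.finite_of_fg_torsion Tm (Submodule.torsion_isTorsion)
  have : Finite T := ‹Finite Tm›
  have h5 : P.relIndex T = Nat.card (nsmulAddMonoidHom (α := T) p).ker := by
    rw [AddSubgroup.relIndex]
    have h6 : P.addSubgroupOf T = (nsmulAddMonoidHom (α := T) p).range := by
      ext x
      rw [AddSubgroup.mem_addSubgroupOf]
      constructor
      · rintro ⟨m, hm⟩
        have hmT : m ∈ T := by
          obtain ⟨a, ha⟩ := x.2
          refine ⟨⟨(a : ℤ) * p, ?_⟩, ?_⟩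
          · rw [mem_nonZeroDivisors_iff_ne_zero]
            exact mul_ne_zero (nonZeroDivisors.ne_zero a.2) (by exact_mod_cast hp.ne')
          · show ((a : ℤ) * p) • m = 0
            rw [mul_smul]
            have h7 : ((p : ℕ) : ℤ) • m = (x : M) := by
              rw [← hm]; simp
            rw [h7]
            exact ha
        refine ⟨⟨m, hmT⟩, ?_⟩
        apply Subtype.ext
        exact hm
      · rintro ⟨t, rfl⟩
        exact ⟨(t : M), rfl⟩
    rw [h6]
    exact AddSubgroup.index_range
  have h8 : Nat.card (nsmulAddMonoidHom (α := T) p).ker =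
      Nat.card (nsmulAddMonoidHom (α := M) p).ker := by
    refine Nat.card_congr ⟨fun x => ⟨(x.1 : M), ?_⟩, fun x => ⟨⟨x.1, ?_⟩, ?_⟩, ?_, ?_⟩
    · have := x.2
      rw [AddMonoidHom.mem_ker] at this ⊢
      exact congrArg Subtype.val this
    · have hx := x.2
      rw [AddMonoidHom.mem_ker] at hx
      refine ⟨⟨(p : ℤ), ?_⟩, ?_⟩
      · rw [mem_nonZeroDivisors_iff_ne_zero]
        exact_mod_cast hp.ne'
      · show ((p : ℕ) : ℤ) • (x.1 : M) = 0
        rw [natCast_zsmul]
        exact hx
    · rw [AddMonoidHom.mem_ker]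
      apply Subtype.ext
      have hx := x.2
      rw [AddMonoidHom.mem_ker] at hx
      exact hx
    · intro x; rfl
    · intro x; rfl
  rw [← h3, h4, h5, h8, hidx, mul_comm]


/-- multiplicative form -/
theorem index_range_pow (A : Type*) [CommGroup A] [Module.Finite ℤ (Additive A)]
    (p : ℕ) (hp : 0 < p) :
    (powMonoidHom p : A →* A).range.index =
      p ^ finrank ℤ (Additive A) * Nat.card (powMonoidHom p : A →* A).ker := by
  have h := index_range_nsmul_general (Additive A) p hp
  have h1 : (nsmulAddMonoidHom (α := Additive A) p).range =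
      Subgroup.toAddSubgroup (powMonoidHom p : A →* A).range := by
    ext x
    constructor
    · rintro ⟨y, rfl⟩
      exact ⟨y.toMul, rfl⟩
    · rintro ⟨y, hy⟩
      exact ⟨Additive.ofMul y, hy⟩
  rw [h1, Subgroup.index_toAddSubgroup] at h
  rw [h]
  rfl

end Abstract

section SUnits

open Fermat.Agent.S55lib.FirstIneq Fermat.Agent.S55lib.SecondIneq

variable {K : Type*} [Field K] [NumberField K]

/-- roots of unity are `S`-units -/
theorem mem_sUnit_of_pow_eq_one (S : Finset (HeightOneSpectrum (𝓞 K))) {x : Kˣ} {n : ℕ}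
    (hn : 0 < n) (hx : x ^ n = 1) : x ∈ sUnit S := by
  rw [mem_sUnit_iff]
  intro v _
  have key : ∀ y : Kˣ, y ^ n = 1 → v.valuation K (y : K) ≤ 1 := by
    intro y hy
    have hint : IsIntegral ℤ (y : K) := by
      apply IsIntegral.of_pow hn
      have : ((y : K)) ^ n = 1 := by
        have := congrArg Units.val hy
        simpa using this
      rw [this]
      exact isIntegral_one
    have := HeightOneSpectrum.valuation_le_one (K := K) v (⟨(y : K), hint⟩ : 𝓞 K)
    exact this
  have h1 := key x hx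
  have h2 := key x⁻¹ (by rw [inv_pow, hx, inv_one])
  have hv0 : v.valuation K (x : K) ≠ 0 := (Valuation.ne_zero_iff _).mpr x.ne_zero
  rw [Units.val_inv_eq_inv_val, map_inv₀, inv_le_one₀ (zero_lt_iff.mpr hv0)] at h2
  exact le_antisymm h1 h2

theorem card_ker_pow_sUnit (S : Finset (HeightOneSpectrum (𝓞 K))) {p : ℕ} (hp : 0 < p) {ζ : K}
    (hζ : IsPrimitiveRoot ζ p) :
    Nat.card (powMonoidHom p : sUnit S →* sUnit S).ker = p := by
  have : NeZero p := ⟨hp.ne'⟩
  refine Eq.trans ?_ hζ.card_rootsOfUnity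
  refine Nat.card_congr ⟨fun x => ⟨(x.1 : Kˣ), ?_⟩, fun y => ⟨⟨y.1, ?_⟩, ?_⟩, ?_, ?_⟩
  · have hx := x.2
    rw [MonoidHom.mem_ker] at hx
    rw [mem_rootsOfUnity]
    have := congrArg (fun z : sUnit S => (z : Kˣ)) hx
    simpa using this
  · exact mem_sUnit_of_pow_eq_one S hp ((mem_rootsOfUnity _ _).mp y.2)
  · rw [MonoidHom.mem_ker]
    apply Subtype.ext
    exact (mem_rootsOfUnity _ _).mp y.2
  · intro x; rfl
  · intro y; rfl

theorem finrank_sUnit_add_one (S : Finset (HeightOneSpectrum (𝓞 K))) {p : ℕ} (hp2 : 2 < p) {ζ : K}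
    (hζ : IsPrimitiveRoot ζ p) {r₂ : ℕ} (hr₂ : finrank ℚ K = 2 * r₂) :
    finrank ℤ (Additive (sUnit S)) + 1 = S.card + r₂ := by
  rw [finrank_sUnit, NumberField.Units.rank]
  have h1 := NumberField.InfinitePlace.card_eq_nrRealPlaces_add_nrComplexPlaces K
  have h2 := NumberField.InfinitePlace.card_add_two_mul_card_eq_rank K
  have h3 : NumberField.InfinitePlace.nrRealPlaces K = 0 := NumberField.InfinitePlace.IsPrimitiveRoot.nrRealPlaces_eq_zero_of_two_lt hp2 hζ
  have h4 : 0 < Fintype.card (NumberField.InfinitePlace K) := Fintype.card_pos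
  rw [NumberField.InfinitePlace.nrRealPlaces, NumberField.InfinitePlace.nrComplexPlaces] at *
  omega

open scoped Classical in
/-- **(U)** the `S`-unit index, in the shape of the hypothesis `hunits` of
`second_inequality_kummer`. -/
theorem relIndex_pow_unitsS (D : CompletionData K) {p : ℕ} (hp2 : 2 < p) {ζ : K}
    (hζ : IsPrimitiveRoot ζ p) {r₂ : ℕ} (hr₂ : finrank ℚ K = 2 * r₂)
    (S T : Finset (HeightOneSpectrum (𝓞 K))) (hST : Disjoint S T) :
    ((unitsS D.U D.loc (S ∪ T)).map (powMonoidHom p)).relIndex (unitsS D.U D.loc (S ∪ T)) =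
      p ^ (S.card + r₂ + T.card) := by
  have hp : 0 < p := by omega
  have hE : unitsS D.U D.loc (S ∪ T) = sUnit (S ∪ T) := by
    ext a
    rw [mem_unitsS, mem_sUnit_iff]
    constructor
    · intro h v hv
      exact (D.loc_mem_U_iff v a).mp (h v hv)
    · intro h v hv
      exact (D.loc_mem_U_iff v a).mpr (h v hv)
  rw [hE, ← powSubgroup_subtype_index, powSubgroup, index_range_pow _ p hp,
    card_ker_pow_sUnit (S ∪ T) hp hζ, ← pow_succ, finrank_sUnit_add_one (S ∪ T) hp2 hζ hr₂,
    Finset.card_union_of_disjoint hST]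
  congr 1
  ring

/-- A number field containing a primitive `p`-th root of unity, `p > 2`, is totally complex; in
particular its degree over `ℚ` is even.  This discharges the hypothesis `hr₂`. -/
theorem exists_finrank_eq_two_mul {p : ℕ} (hp2 : 2 < p) {ζ : K} (hζ : IsPrimitiveRoot ζ p) :
    ∃ r₂ : ℕ, finrank ℚ K = 2 * r₂ := by
  refine ⟨NumberField.InfinitePlace.nrComplexPlaces K, ?_⟩
  have h2 := NumberField.InfinitePlace.card_add_two_mul_card_eq_rank K
  have h3 : NumberField.InfinitePlace.nrRealPlaces K = 0 :=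
    NumberField.InfinitePlace.IsPrimitiveRoot.nrRealPlaces_eq_zero_of_two_lt hp2 hζ
  rw [NumberField.InfinitePlace.nrRealPlaces, NumberField.InfinitePlace.nrComplexPlaces] at *
  omega

end SUnits

end Fermat.Agent.S55lib.Places
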