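/-
S55lib / Places / UnitsPowInst (lead).
(U) for the concrete `completionData F`, in the exact shape of helper1's `UnitsPowStatement p`
(`SecondIneq/K7.lean`): one arbitrary finite `S`, exponent `S.card + nrComplexPlaces F`.
-/
import Mathlib
import Fermat.Agent.S55lib.Places.UnitsPow
import Fermat.Agent.S55lib.Places.Completion

set_option autoImplicit false

noncomputable section

namespace Fermat.Agent.S55lib.Places

open Module NumberField IsDedekindDomain SecondIneq

/-- `ζ_p ∈ F`, `p > 2`: `[F : ℚ] = 2 r₂`. -/
theorem finrank_eq_two_mul_nrComplexPlaces {F : Type} [Field F] [NumberField F] {p : ℕ}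
    (hp2 : 2 < p) {ζ : F} (hζ : IsPrimitiveRoot ζ p) :
    finrank ℚ F = 2 * NumberField.InfinitePlace.nrComplexPlaces F := by
  have h2 := NumberField.InfinitePlace.card_add_two_mul_card_eq_rank F
  have h3 : NumberField.InfinitePlace.nrRealPlaces F = 0 :=
    NumberField.InfinitePlace.IsPrimitiveRoot.nrRealPlaces_eq_zero_of_two_lt hp2 hζ
  rw [NumberField.InfinitePlace.nrRealPlaces, NumberField.InfinitePlace.nrComplexPlaces] at *
  omega

/-- **(U)**, literally the body of `SecondIneq.UnitsPowStatement p` (for `p ≠ 2`). -/
theorem relIndex_pow_unitsS_completionData {p : ℕ} [Fact p.Prime] (hp2 : p ≠ 2)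
    (F : Type) [Field F] [NumberField F] (hζ : ∃ ζ : F, IsPrimitiveRoot ζ p)
    (S : Finset (HeightOneSpectrum (𝓞 F))) :
    ((unitsS (completionData F).U (completionData F).loc S).map (powMonoidHom p)).relIndex
        (unitsS (completionData F).U (completionData F).loc S) =
      p ^ (S.card + NumberField.InfinitePlace.nrComplexPlaces F) := by
  classical
  obtain ⟨ζ, hζ⟩ := hζ
  have hp : p.Prime := Fact.out
  have h2 : 2 < p := lt_of_le_of_ne hp.two_le (Ne.symm hp2)
  have key := relIndex_pow_unitsS (completionData F) h2 hζ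
    (finrank_eq_two_mul_nrComplexPlaces h2 hζ) S ∅ (Finset.disjoint_empty_right S)
  simpa only [Finset.union_empty, Finset.card_empty, add_zero] using key

end Fermat.Agent.S55lib.Places
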