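/-
S55lib / Places / CyclicLayers (lead).
**The two inequalities for cyclic Kummer layers, unconditionally** (`p` odd):
`Dev.GlobalCyclicLayers p`, by gluing
* K6 (helper2, `FirstIneq.first_inequality_classGrp_general`) with `Places.exists_nat_forall_unramAt`
  (a number field is unramified at almost all primes), and
* K7 (helper1, `SecondIneq.secondIneqStatement_of_firstIneq`) with the `S`-unit count
  `Places.relIndex_pow_unitsS_completionData`.
Consequence: K8 (`Dev.classGroup_cohomology`) without hypotheses.
-/
import Mathlib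
import Fermat.Agent.S55lib.FirstIneq.ClassGroupFI
import Fermat.Agent.S55lib.SecondIneq.K7
import Fermat.Agent.S55lib.Dev.K8
import Fermat.Agent.S55lib.Places.Unram
import Fermat.Agent.S55lib.Places.UnitsPowInst

set_option autoImplicit false

noncomputable section

namespace Fermat.Agent.S55lib.Places

open Module NumberField Fermat.Agent.S55lib Fermat.Agent.S55lib.Dev Fermat.Agent.S55lib.FirstIneq
  Fermat.Agent.S55lib.LocalH

/-- the primes dividing a nonzero natural number, as a `Finset Nat.Primes` -/
theorem exists_finset_primes_of_ne_zero {n : ℕ} (hn : n ≠ 0) :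
    ∃ T : Finset Nat.Primes, ∀ q : Nat.Primes, q ∉ T → ¬ (q : ℕ) ∣ n := by
  have hfin : {q : Nat.Primes | (q : ℕ) ∣ n}.Finite := by
    have h1 : ((n.divisors : Finset ℕ) : Set ℕ).Finite := Finset.finite_toSet _
    refine (h1.preimage (f := fun q : Nat.Primes => (q : ℕ))
      (Nat.Primes.coe_nat_injective.injOn)).subset ?_
    intro q hq
    exact Finset.mem_coe.mpr (Nat.mem_divisors.mpr ⟨hq, hn⟩)
  exact ⟨hfin.toFinset, fun q hq hdvd => hq ((Set.Finite.mem_toFinset _).mpr hdvd)⟩

section Ops

variable {E : Type*} [CommGroup E]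

theorem dOp_eq_difHom (s : E →* E) : dOp s = difHom s := by
  ext x
  rfl

theorem nOp_eq_nrmHom (p : ℕ) (s : E →* E) : nOp p s = nrmHom p s := by
  ext x
  rw [nOp_apply, nrmHom_apply]

end Ops

/-- **K6, unconditional**: the first inequality for cyclic Kummer layers of odd prime degree. -/
theorem firstIneqStatement {p : ℕ} [Fact p.Prime] (hp2 : p ≠ 2) : Dev.FirstIneqStatement p := by
  intro F M _ _ _ _ _ _ σ h
  obtain ⟨n, hn, hur⟩ := exists_nat_forall_unramAt M
  obtain ⟨T₁, hT₁⟩ := exists_finset_primes_of_ne_zero hn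
  haveI : FiniteDimensional F M := Module.Finite.of_restrictScalars_finite ℚ F M
  have hdeg : finrank F M = p := by
    rw [← IsGalois.card_aut_eq_finrank F M]
    exact h.card
  have key := (first_inequality_classGrp_general (F := F) (M := M) p hp2 hdeg σ h.gen T₁
    (fun q hq ι => hur (q : ℕ) (hT₁ q hq) ι)).1
  rw [dOp_eq_difHom, nOp_eq_nrmHom] at key
  exact key

/-- **K7, unconditional**: the second inequality for cyclic Kummer layers of odd prime degree. -/
theorem secondIneqStatement {p : ℕ} [Fact p.Prime] (hp2 : p ≠ 2) : Dev.SecondIneqStatement p :=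
  SecondIneq.secondIneqStatement_of_firstIneq p hp2
    (fun F _ _ hζ S => relIndex_pow_unitsS_completionData hp2 F hζ S) (firstIneqStatement hp2)

/-- **K6 ∧ K7.** -/
theorem globalCyclicLayers {p : ℕ} [Fact p.Prime] (hp2 : p ≠ 2) : Dev.GlobalCyclicLayers p :=
  ⟨firstIneqStatement hp2, secondIneqStatement hp2⟩

/-- **K8, unconditional**: for a number field `L ∋ ζ_p` (`p` odd) and every finite group `H` acting
faithfully on `L`: `H¹(H, C(L))` has no `p`-power torsion and the `p`-primary part of
`H²(H, C(L))` has order dividing the `p`-part of `|H|`. -/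
theorem classGroup_cohomology_uncond {p : ℕ} [Fact p.Prime] (hp2 : p ≠ 2)
    (L : Type) [Field L] [NumberField L] {ζ : L} (hζ : IsPrimitiveRoot ζ p)
    {H : Type} [Group H] [Finite H] (ι : H →* (L ≃ₐ[ℚ] L)) (hι : Function.Injective ι) :
    (∀ (x : groupCohomology (classRepRes L ι) 1) (m : ℕ), p ^ m • x = 0 → x = 0) ∧
      Nat.card (pPrimary p (groupCohomology (classRepRes L ι) 2)) ∣
        p ^ (Nat.card H).factorization p :=
  classGroup_cohomology (globalCyclicLayers hp2) L hζ ι hι

end Fermat.Agent.S55lib.Places
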