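/-
S55lib / Places / Cyclo (lead).
The cyclotomic package for the reciprocity block (K9a), in the `Iface/Layers` + `Recip/LocalBridge`
language.  `L` is an `N`-th cyclotomic extension of `ℚ` (a number field), `ζ ∈ L` a primitive `N`-th
root of unity, `ι : Emb q L`.
* `irreducible_cyclotomic_prime_pow_padic` : `Φ_{p^(n+1)}` is irreducible over `ℚ_p` (Eisenstein).
* `norm_sub_eq_one_of_pow_eq_one` : for `q ∤ N`, distinct `N`-th roots of unity of `ℚ̄_q` are at
  distance one (so they are determined by their residue classes).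
* (CYC1) `unramAt_localField_cyclotomic` : `q ∤ N ⇒ UnramAt q (localField q L ι)`.
* (CYC2) `apply_eq_pow_of_norm_sub_lt_one` : an automorphism `d` of `ℚ̄_q` with
  `‖d (ι ζ) - (ι ζ)^q‖ < 1` satisfies `d (ι ζ) = (ι ζ)^q`, hence `decompHom ι d ζ = ζ ^ q`.
* (CYC3) `finrank_localField_prime_pow`, `decomp_eq_top_prime_pow` : for `N = p^(n+1)`, `q = p`:
  `[L_p : ℚ_p] = φ(p^(n+1))` and the decomposition group is everything.
* (CYC4) `norm_sub_one_localField_prime_pow` : `N_{L_p/ℚ_p}(ι ζ - 1) = p` (`p` odd).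
-/
import Mathlib
import Fermat.Agent.S55lib.Places.Unram
import Fermat.Agent.S55lib.Recip.LocalBridge

set_option autoImplicit false

noncomputable section

namespace Fermat.Agent.S55lib.Places

open Polynomial NumberField Fermat.Agent.S55lib Fermat.Agent.S55lib.FirstIneq
  Fermat.Agent.S55lib.Recip

/-! ### Irreducibility of `Φ_{p^(n+1)}` over `ℚ_p` -/

/-- the cyclotomic polynomials of prime power order are irreducible over `ℚ_p` (Eisenstein) -/
theorem irreducible_cyclotomic_prime_pow_padic (p : ℕ) [hp : Fact p.Prime] (n : ℕ) :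
    Irreducible (cyclotomic (p ^ (n + 1)) ℚ_[p]) := by
  set g : ℤ[X] := (cyclotomic (p ^ (n + 1)) ℤ).comp (X + 1) with hg
  have hE := cyclotomic_prime_pow_comp_X_add_one_isEisensteinAt p n
  have hgm : g.Monic := by
    rw [hg, show (X + 1 : ℤ[X]) = X + C 1 by simp]
    refine (cyclotomic.monic _ ℤ).comp (monic_X_add_C 1) fun h => ?_
    rw [natDegree_X_add_C] at h
    exact zero_ne_one h.symm
  set φ : ℤ →+* ℤ_[p] := Int.castRingHom ℤ_[p] with hφ
  set g' : ℤ_[p][X] := g.map φ with hg'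
  have hg'm : g'.Monic := hgm.map φ
  have hdeg : g'.natDegree = g.natDegree := hgm.natDegree_map φ
  have hpnu : ¬ IsUnit (p : ℤ_[p]) := PadicInt.p_nonunit
  have hne : Ideal.span {(p : ℤ_[p])} ≠ ⊤ := by
    rw [Ne, Ideal.span_singleton_eq_top]
    exact hpnu
  have hE' : g'.IsEisensteinAt (Ideal.span {(p : ℤ_[p])}) := by
    refine hg'm.isEisensteinAt_of_mem_of_notMem hne (fun {i} hi => ?_) ?_
    · rw [hdeg] at hi
      have h1 := hE.mem hi
      rw [Ideal.submodule_span_eq, Ideal.mem_span_singleton] at h1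
      obtain ⟨c, hc⟩ := h1
      rw [hg', coeff_map, hc, Ideal.mem_span_singleton]
      exact ⟨φ c, by simp [hφ]⟩
    · have h0 : g'.coeff 0 = (p : ℤ_[p]) := by
        rw [hg', coeff_map, hg, coeff_zero_eq_eval_zero, eval_comp, eval_add, eval_X, eval_one,
          zero_add, eval_one_cyclotomic_prime_pow]
        simp [hφ]
      rw [h0, Ideal.span_singleton_pow, Ideal.mem_span_singleton]
      rintro ⟨c, hc⟩
      have h1 : (p : ℤ_[p]) * (1 - (p : ℤ_[p]) * c) = 0 := by
        rw [mul_sub, mul_one, ← mul_assoc, ← pow_two, ← hc, sub_self]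
      have hp0 : (p : ℤ_[p]) ≠ 0 := by exact_mod_cast hp.out.ne_zero
      have h2 : (p : ℤ_[p]) * c = 1 := by
        have := (mul_eq_zero.mp h1).resolve_left hp0
        exact (sub_eq_zero.mp this).symm
      exact hpnu (IsUnit.of_mul_eq_one _ h2)
  have hprime : (Ideal.span {(p : ℤ_[p])}).IsPrime := by
    rw [← PadicInt.maximalIdeal_eq_span_p]
    exact (IsLocalRing.maximalIdeal.isMaximal _).isPrime
  have hpos : 0 < g'.natDegree := by
    rw [hdeg, hg, natDegree_comp, show (X + 1 : ℤ[X]) = X + C 1 by simp, natDegree_X_add_C, mul_one,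
      natDegree_cyclotomic]
    exact Nat.totient_pos.mpr (pow_pos hp.out.pos _)
  have hirr : Irreducible g' := hE'.irreducible hprime hg'm.isPrimitive hpos
  have hirrQ : Irreducible (g'.map (algebraMap ℤ_[p] ℚ_[p])) :=
    (hg'm.irreducible_iff_irreducible_map_fraction_map (K := ℚ_[p])).mp hirr
  have hmap : g'.map (algebraMap ℤ_[p] ℚ_[p]) =
      algEquivAevalXAddC (1 : ℚ_[p]) (cyclotomic (p ^ (n + 1)) ℚ_[p]) := by
    rw [algEquivAevalXAddC_apply, hg', hg, map_map, map_comp, map_cyclotomic]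
    simp [aeval_def, eval₂_eq_eval_map, comp]
  rw [hmap] at hirrQ
  exact (MulEquiv.irreducible_iff (algEquivAevalXAddC (1 : ℚ_[p]))).mp hirrQ

/-! ### Roots of unity of order prime to `q` in `ℚ̄_q` -/

section RootsOfUnity

variable {q : ℕ} [hq : Fact q.Prime]

theorem norm_natCast_padicAlgCl_eq_one {N : ℕ} (hN : ¬ q ∣ N) : ‖(N : PadicAlgCl q)‖ = 1 := by
  have h : (N : PadicAlgCl q) = algebraMap ℚ_[q] (PadicAlgCl q) (N : ℚ_[q]) := by
    rw [map_natCast]
  rw [h, norm_algebraMap', Padic.norm_natCast_eq_one_iff]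
  exact (Nat.Prime.coprime_iff_not_dvd hq.out).mpr hN

theorem norm_eq_one_of_pow_eq_one_padicAlgCl {β : PadicAlgCl q} {N : ℕ} (h : β ^ N = 1)
    (hN : N ≠ 0) : ‖β‖ = 1 :=
  (isOfFinOrder_iff_pow_eq_one.2 ⟨N, Nat.pos_of_ne_zero hN, h⟩).norm_eq_one

/-- distinct `N`-th roots of unity, `q ∤ N`, are at distance one -/
theorem norm_sub_eq_one_of_pow_eq_one {N : ℕ} (hN : ¬ q ∣ N) {β β' : PadicAlgCl q}
    (hβ : β ^ N = 1) (hβ' : β' ^ N = 1) (hne : β' ≠ β) : ‖β - β'‖ = 1 := by
  have hN0 : N ≠ 0 := fun h => hN (h ▸ dvd_zero q)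
  set g : (PadicAlgCl q)[X] := X ^ N - C 1 with hg
  have hm : g.Monic := monic_X_pow_sub_C 1 hN0
  have hroot : ∀ γ : PadicAlgCl q, γ ∈ g.roots ↔ γ ^ N = 1 := by
    intro γ
    rw [mem_roots hm.ne_zero, IsRoot, hg, eval_sub, eval_pow, eval_X, eval_C, sub_eq_zero]
  have hint : ∀ γ ∈ g.roots, ‖γ‖ ≤ 1 := by
    intro γ hγ
    exact (norm_eq_one_of_pow_eq_one_padicAlgCl ((hroot γ).mp hγ) hN0).le
  refine norm_sub_eq_one_of_norm_derivative_eq_one hm hint ((hroot β).mpr hβ) ((hroot β').mpr hβ')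
    hne ?_
  rw [hg, derivative_sub, derivative_C, sub_zero, derivative_X_pow, eval_mul, eval_pow, eval_X,
    eval_C, norm_mul, norm_pow, norm_eq_one_of_pow_eq_one_padicAlgCl hβ hN0, one_pow, mul_one,
    norm_natCast_padicAlgCl_eq_one hN]

/-- `N`-th roots of unity, `q ∤ N`, which are congruent modulo the maximal ideal are equal -/
theorem eq_of_pow_eq_one_of_norm_sub_lt_one {N : ℕ} (hN : ¬ q ∣ N) {β β' : PadicAlgCl q}
    (hβ : β ^ N = 1) (hβ' : β' ^ N = 1) (h : ‖β - β'‖ < 1) : β' = β := by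
  by_contra hne
  rw [norm_sub_eq_one_of_pow_eq_one hN hβ hβ' hne] at h
  exact lt_irrefl _ h

end RootsOfUnity

/-! ### The local fields of a cyclotomic field -/

section Cyclotomic

variable {q : ℕ} [hq : Fact q.Prime] {N : ℕ} [NeZero N] {L : Type} [Field L] [NumberField L]
  [IsCyclotomicExtension {N} ℚ L]

omit hq in
theorem adjoin_primitiveRoot_eq_top {ζ : L} (hζ : IsPrimitiveRoot ζ N) :
    IntermediateField.adjoin ℚ {ζ} = ⊤ := by
  have h1 := IsCyclotomicExtension.adjoin_primitive_root_eq_top (A := ℚ) hζ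
  apply IntermediateField.toSubalgebra_injective
  rw [IntermediateField.top_toSubalgebra, eq_top_iff, ← h1]
  exact IntermediateField.algebra_adjoin_le_adjoin ℚ _

theorem localField_cyclotomic_eq {ζ : L} (hζ : IsPrimitiveRoot ζ N) (ι : Emb q L) :
    localField q L ι = IntermediateField.adjoin ℚ_[q] {ι ζ} :=
  localField_eq_adjoin_simple ι (adjoin_primitiveRoot_eq_top hζ)

/-- **(CYC1)** a cyclotomic field of conductor `N` is unramified at the primes `q ∤ N`. -/
theorem unramAt_localField_cyclotomic (hN : ¬ q ∣ N) (ι : Emb q L) :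
    UnramAt q (localField q L ι) := by
  have hN0 : N ≠ 0 := NeZero.ne N
  obtain ⟨ζ, hζ⟩ := IsCyclotomicExtension.exists_isPrimitiveRoot ℚ L (Set.mem_singleton N) hN0
  set f : ℚ_[q][X] := X ^ N - C 1 with hf
  have hfm : f.Monic := monic_X_pow_sub_C 1 hN0
  have hroot : ∀ γ : PadicAlgCl q, γ ∈ f.rootSet (PadicAlgCl q) ↔ γ ^ N = 1 := by
    intro γ
    rw [mem_rootSet, hf]
    simp only [map_sub, map_pow, aeval_X, aeval_C, map_one, sub_eq_zero]
    exact ⟨fun h => h.2, fun h => ⟨hfm.ne_zero, h⟩⟩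
  have hU : UnramAt q (IntermediateField.adjoin ℚ_[q] (f.rootSet (PadicAlgCl q))) := by
    apply unramAt_adjoin_rootSet f
    · intro β hβ
      exact (norm_eq_one_of_pow_eq_one_padicAlgCl ((hroot β).mp hβ) hN0).le
    · intro β hβ β' hβ' hne
      rw [← norm_neg, neg_sub]
      exact norm_sub_eq_one_of_pow_eq_one hN ((hroot β).mp hβ) ((hroot β').mp hβ') hne
  refine UnramAt.mono (q := q) hU ?_
  rw [localField_cyclotomic_eq hζ ι]
  apply IntermediateField.adjoin.mono
  rintro _ rfl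
  rw [hroot, ← map_pow, hζ.pow_eq_one, map_one]

/-- **(CYC2)** the Frobenius congruence pins down the action on `ζ`: if `d ∈ G_q` satisfies
`‖d (ι ζ) - (ι ζ)^q‖ < 1` then `d (ι ζ) = (ι ζ) ^ q`. -/
theorem apply_eq_pow_of_norm_sub_lt_one (hN : ¬ q ∣ N) {ζ : L} (hζ : IsPrimitiveRoot ζ N)
    (ι : Emb q L) (d : GalQq q) (hd : ‖d (ι ζ) - (ι ζ) ^ q‖ < 1) : d (ι ζ) = (ι ζ) ^ q := by
  have h1 : (ι ζ) ^ N = 1 := by rw [← map_pow, hζ.pow_eq_one, map_one]
  have h2 : (d (ι ζ)) ^ N = 1 := by rw [← map_pow, h1, map_one]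
  have h3 : ((ι ζ) ^ q) ^ N = 1 := by rw [← pow_mul, mul_comm, pow_mul, h1, one_pow]
  exact (eq_of_pow_eq_one_of_norm_sub_lt_one hN h2 h3 hd).symm

/-- **(CYC2), global form**: under the hypothesis of `apply_eq_pow_of_norm_sub_lt_one`, the element
of the decomposition group induced by `d` is `ζ ↦ ζ ^ q`. -/
theorem decompHom_apply_zeta (hN : ¬ q ∣ N) {ζ : L} (hζ : IsPrimitiveRoot ζ N)
    (ι : Emb q L) (d : GalQq q) (hd : ‖d (ι ζ) - (ι ζ) ^ q‖ < 1) :
    haveI : IsGalois ℚ L := IsCyclotomicExtension.isGalois {N} ℚ L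
    decompHom ι d ζ = ζ ^ q := by
  haveI : IsGalois ℚ L := IsCyclotomicExtension.isGalois {N} ℚ L
  have h1 := apply_decompHom ι d ζ
  have h2 := apply_eq_pow_of_norm_sub_lt_one hN hζ ι d hd
  have h3 : ι (decompHom ι d ζ) = ι (ζ ^ q) := by rw [h1, h2, map_pow]
  exact ι.injective h3

end Cyclotomic

/-! ### The prime `p` in the `p^(n+1)`-th cyclotomic field -/

section PrimePow

variable {p : ℕ} [hp : Fact p.Prime] {n : ℕ} {L : Type} [Field L] [NumberField L]
  [IsCyclotomicExtension {p ^ (n + 1)} ℚ L]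

instance neZero_prime_pow : NeZero (p ^ (n + 1)) := ⟨pow_ne_zero _ hp.out.ne_zero⟩

theorem isPrimitiveRoot_map_emb {ζ : L} (hζ : IsPrimitiveRoot ζ (p ^ (n + 1))) (ι : Emb p L) :
    IsPrimitiveRoot (ι ζ) (p ^ (n + 1)) :=
  hζ.map_of_injective ι.injective

/-- **(CYC3)** `[ℚ_p(ζ_{p^(n+1)}) : ℚ_p] = φ(p^(n+1))`. -/
theorem finrank_localField_prime_pow (ι : Emb p L) :
    Module.finrank ℚ_[p] (localField p L ι) = (p ^ (n + 1)).totient := by
  obtain ⟨ζ, hζ⟩ := IsCyclotomicExtension.exists_isPrimitiveRoot ℚ L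
    (Set.mem_singleton (p ^ (n + 1))) (NeZero.ne _)
  rw [localField_cyclotomic_eq hζ ι]
  have hprim := isPrimitiveRoot_map_emb hζ ι
  have hint : IsIntegral ℚ_[p] (ι ζ) := Algebra.IsIntegral.isIntegral (R := ℚ_[p]) (ι ζ)
  rw [IntermediateField.adjoin.finrank hint,
    ← hprim.minpoly_eq_cyclotomic_of_irreducible (irreducible_cyclotomic_prime_pow_padic p n),
    natDegree_cyclotomic]

/-- **(CYC3)** the decomposition group at `p` of `ℚ(ζ_{p^(n+1)})` is the whole Galois group. -/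
theorem decomp_eq_top_prime_pow (ι : Emb p L) :
    haveI : IsGalois ℚ L := IsCyclotomicExtension.isGalois {p ^ (n + 1)} ℚ L
    decomp ι = ⊤ := by
  haveI : IsGalois ℚ L := IsCyclotomicExtension.isGalois {p ^ (n + 1)} ℚ L
  apply Subgroup.eq_top_of_card_eq
  rw [card_decomp, finrank_localField_prime_pow (n := n) ι, IsGalois.card_aut_eq_finrank,
    IsCyclotomicExtension.finrank (n := p ^ (n + 1)) L
      (cyclotomic.irreducible_rat (NeZero.pos (p ^ (n + 1))))]

/-- **(CYC4)** `N_{L_p/ℚ_p}(ι ζ - 1) = p` for `p` odd: `p` is a norm from `ℚ_p(ζ_{p^(n+1)})`. -/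
theorem norm_sub_one_localField_prime_pow (hp2 : p ≠ 2) {ζ : L}
    (hζ : IsPrimitiveRoot ζ (p ^ (n + 1))) (ι : Emb p L) :
    Algebra.norm ℚ_[p] ((⟨ι ζ, map_mem_localField ι ζ⟩ : localField p L ι) - 1) = (p : ℚ_[p]) := by
  have hprim := isPrimitiveRoot_map_emb hζ ι
  have hE : localField p L ι = IntermediateField.adjoin ℚ_[p] {ι ζ} :=
    localField_cyclotomic_eq hζ ι
  haveI : IsCyclotomicExtension {p ^ (n + 1)} ℚ_[p] (localField p L ι) := by
    rw [hE]
    exact hprim.intermediateField_adjoin_isCyclotomicExtension ℚ_[p]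
  have hprimE : IsPrimitiveRoot (⟨ι ζ, map_mem_localField ι ζ⟩ : localField p L ι)
      (p ^ (n + 1)) := by
    apply IsPrimitiveRoot.of_map_of_injective (f := (localField p L ι).val) _
      (localField p L ι).val.injective
    exact hprim
  exact hprimE.norm_sub_one_of_prime_ne_two (irreducible_cyclotomic_prime_pow_padic p n) hp2

end PrimePow

end Fermat.Agent.S55lib.Places
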