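/-
S55lib / Places / PadicPow (lead).
`n`-th powers in `ℤ_qˣ` and `ℚ_qˣ` (`q` odd), and the determination of a norm group from its index:
* `unitsRed k : ℤ_qˣ →* (ℤ/q^k)ˣ`, surjective, kernel `1 + q^k ℤ_q ⊆ (ℤ_qˣ)^n` as soon as
  `q^{-k} < ‖n‖²` (Hensel, `Recip.exists_pow_eq_of_norm_sub_one_lt`);
* `index_range_pow_units : [ℤ_qˣ : (ℤ_qˣ)^n] = gcd(φ(q^k), n)` (`(ℤ/q^k)ˣ` is cyclic);
* **`exists_eq_zpow_mul_pow_of_mem`**: a subgroup `N ≤ ℚ_qˣ` of index `n ∣ φ(q^k)` containing `q` and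
  all `n`-th powers is `⟨q⟩ · (ℚ_qˣ)^n`: every `a ∈ N` is `q^j · y^n` with `y ∈ ℤ_qˣ`;
* the two cases used by the reciprocity block: tame (`n ∣ q - 1`) and wild (`q = p`, `n = p^m`).
-/
import Mathlib
import Fermat.Agent.S55lib.Recip.Elementary

set_option autoImplicit false

noncomputable section

namespace Fermat.Agent.S55lib.Places

open Fermat.Agent.S55lib.Recip

section PadicPow

variable {q : ℕ} [hq : Fact q.Prime]

/-- reduction of units modulo `q^k` -/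
def unitsRed (k : ℕ) : ℤ_[q]ˣ →* (ZMod (q ^ k))ˣ :=
  Units.map (PadicInt.toZModPow (p := q) k).toMonoidHom

@[simp] theorem coe_unitsRed (k : ℕ) (u : ℤ_[q]ˣ) :
    ((unitsRed k u : (ZMod (q ^ k))ˣ) : ZMod (q ^ k)) = PadicInt.toZModPow k (u : ℤ_[q]) := rfl

theorem isLocalHom_toZModPow {k : ℕ} (hk : k ≠ 0) :
    IsLocalHom (PadicInt.toZModPow (p := q) k) := by
  refine ⟨fun x hx => ?_⟩
  by_contra hnu
  have hlt : ‖x‖ < 1 := by
    have h1 := PadicInt.norm_le_one x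
    rcases lt_or_eq_of_le h1 with h | h
    · exact h
    · exact absurd (PadicInt.isUnit_iff.mpr h) hnu
  obtain ⟨y, rfl⟩ := (PadicInt.norm_lt_one_iff_dvd x).mp hlt
  rw [map_mul, map_natCast] at hx
  have hqu : IsUnit ((q : ZMod (q ^ k))) := isUnit_of_mul_isUnit_left hx
  have h0 : ((q : ZMod (q ^ k))) ^ k = 0 := by
    rw [← Nat.cast_pow]
    exact ZMod.natCast_self (q ^ k)
  have h1 : IsUnit ((0 : ZMod (q ^ k))) := h0 ▸ hqu.pow k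
  haveI : Fact (1 < q ^ k) := ⟨Nat.one_lt_pow hk hq.out.one_lt⟩
  exact not_isUnit_zero h1

theorem unitsRed_surjective {k : ℕ} (hk : k ≠ 0) : Function.Surjective (unitsRed (q := q) k) :=
  IsLocalRing.surjective_units_map_of_local_ringHom _
    (ZMod.ringHom_surjective (PadicInt.toZModPow (p := q) k)) (isLocalHom_toZModPow hk)

theorem mem_ker_unitsRed_iff (k : ℕ) (u : ℤ_[q]ˣ) :
    u ∈ (unitsRed (q := q) k).ker ↔ ‖(u : ℤ_[q]) - 1‖ ≤ (q : ℝ) ^ (-(k : ℤ)) := by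
  rw [MonoidHom.mem_ker, PadicInt.norm_le_pow_iff_mem_span_pow, ← PadicInt.ker_toZModPow,
    RingHom.mem_ker, map_sub, map_one, sub_eq_zero, Units.ext_iff, coe_unitsRed, Units.val_one]

/-- `1 + q^k ℤ_q` consists of `n`-th powers as soon as `q^{-k} < ‖n‖²`. -/
theorem ker_unitsRed_le_range_pow {k n : ℕ} (h : (q : ℝ) ^ (-(k : ℤ)) < ‖(n : ℤ_[q])‖ ^ 2) :
    (unitsRed (q := q) k).ker ≤ (powMonoidHom n : ℤ_[q]ˣ →* ℤ_[q]ˣ).range := by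
  intro u hu
  rw [mem_ker_unitsRed_iff] at hu
  have hn : n ≠ 0 := by
    rintro rfl
    rw [Nat.cast_zero, norm_zero, zero_pow two_ne_zero] at h
    exact absurd h (not_lt.mpr (by positivity))
  obtain ⟨y, hy⟩ := exists_pow_eq_of_norm_sub_one_lt n (u : ℤ_[q]) (lt_of_le_of_lt hu h)
  have hyu : IsUnit y := by
    have : IsUnit (y ^ n) := hy ▸ u.isUnit
    exact (isUnit_pow_iff hn).mp this
  refine ⟨hyu.unit, ?_⟩
  apply Units.ext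
  rw [powMonoidHom_apply, Units.val_pow_eq_pow_val, IsUnit.unit_spec, hy]

theorem range_pow_eq_comap {k n : ℕ} (hk : k ≠ 0)
    (h : (q : ℝ) ^ (-(k : ℤ)) < ‖(n : ℤ_[q])‖ ^ 2) :
    (powMonoidHom n : ℤ_[q]ˣ →* ℤ_[q]ˣ).range =
      ((powMonoidHom n : (ZMod (q ^ k))ˣ →* (ZMod (q ^ k))ˣ).range).comap (unitsRed k) := by
  apply le_antisymm
  · rintro _ ⟨y, rfl⟩
    rw [Subgroup.mem_comap]
    exact ⟨unitsRed k y, by simp [powMonoidHom_apply, map_pow]⟩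
  · intro u hu
    rw [Subgroup.mem_comap] at hu
    obtain ⟨c, hc⟩ := hu
    obtain ⟨v, rfl⟩ := unitsRed_surjective hk c
    have h1 : u * (v ^ n)⁻¹ ∈ (unitsRed (q := q) k).ker := by
      rw [MonoidHom.mem_ker, map_mul, map_inv, map_pow, ← hc]
      simp [powMonoidHom_apply]
    obtain ⟨w, hw⟩ := ker_unitsRed_le_range_pow h h1
    refine ⟨w * v, ?_⟩
    rw [powMonoidHom_apply] at hw ⊢
    rw [mul_pow, hw, inv_mul_cancel_right]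

/-- `[ℤ_qˣ : (ℤ_qˣ)^n] = gcd(φ(q^k), n)` for `q` odd, `q^{-k} < ‖n‖²`. -/
theorem index_range_pow_units {k n : ℕ} (hk : k ≠ 0) (hq2 : q ≠ 2)
    (h : (q : ℝ) ^ (-(k : ℤ)) < ‖(n : ℤ_[q])‖ ^ 2) :
    (powMonoidHom n : ℤ_[q]ˣ →* ℤ_[q]ˣ).range.index = Nat.gcd (q ^ k).totient n := by
  haveI : NeZero (q ^ k) := ⟨pow_ne_zero _ hq.out.ne_zero⟩
  haveI : IsCyclic (ZMod (q ^ k))ˣ := ZMod.isCyclic_units_of_prime_pow q hq.out hq2 k
  rw [range_pow_eq_comap hk h, Subgroup.index_comap_of_surjective _ (unitsRed_surjective hk),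
    IsCyclic.index_powMonoidHom_range, Nat.card_eq_fintype_card, ZMod.card_units_eq_totient]

/-- the inclusion `ℤ_qˣ → ℚ_qˣ` -/
def unitsIncl : ℤ_[q]ˣ →* ℚ_[q]ˣ := Units.map (PadicInt.Coe.ringHom (p := q)).toMonoidHom

@[simp] theorem coe_unitsIncl (u : ℤ_[q]ˣ) :
    ((unitsIncl u : ℚ_[q]ˣ) : ℚ_[q]) = ((u : ℤ_[q]) : ℚ_[q]) := rfl

/-- the uniformiser `q` of `ℚ_q` as a unit -/
def unifQ : ℚ_[q]ˣ := Units.mk0 (q : ℚ_[q]) (by exact_mod_cast hq.out.ne_zero)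

@[simp] theorem coe_unifQ : ((unifQ : ℚ_[q]ˣ) : ℚ_[q]) = (q : ℚ_[q]) := rfl

/-- every element of `ℚ_qˣ` is a power of `q` times a unit of `ℤ_q` -/
theorem exists_eq_zpow_mul_unit (a : ℚ_[q]ˣ) :
    ∃ (j : ℤ) (u : ℤ_[q]ˣ), a = (unifQ : ℚ_[q]ˣ) ^ j * unitsIncl u := by
  have ha0 : (a : ℚ_[q]) ≠ 0 := a.ne_zero
  set v : ℤ := (a : ℚ_[q]).valuation with hv
  have hq0 : (q : ℚ_[q]) ≠ 0 := by exact_mod_cast hq.out.ne_zero
  have hqpos : (0 : ℝ) < q := by exact_mod_cast hq.out.pos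
  have hnorm : ‖(a : ℚ_[q]) * (q : ℚ_[q]) ^ (-v)‖ = 1 := by
    rw [norm_mul, norm_zpow, Padic.norm_eq_zpow_neg_valuation ha0, Padic.norm_p, ← hv,
      inv_zpow', neg_neg, ← zpow_add₀ hqpos.ne', neg_add_cancel, zpow_zero]
  refine ⟨v, PadicInt.mkUnits hnorm, ?_⟩
  apply Units.ext
  rw [Units.val_mul, Units.val_zpow_eq_zpow_val, coe_unifQ, coe_unitsIncl, PadicInt.mkUnits_eq,
    mul_comm ((q : ℚ_[q]) ^ v), mul_assoc, ← zpow_add₀ hq0, neg_add_cancel, zpow_zero, mul_one]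

/-- **Determination of a norm group by its index.**  A subgroup `N ≤ ℚ_qˣ` (`q` odd) of index `n`
containing `q` and all `n`-th powers, where `n ∣ φ(q^k)` and `q^{-k} < ‖n‖²`, is
`⟨q⟩ · (ℤ_qˣ)^n`. -/
theorem exists_eq_zpow_mul_pow_of_mem {k n : ℕ} (hk : k ≠ 0) (hq2 : q ≠ 2)
    (h : (q : ℝ) ^ (-(k : ℤ)) < ‖(n : ℤ_[q])‖ ^ 2) (hdvd : n ∣ (q ^ k).totient)
    (N : Subgroup ℚ_[q]ˣ) (hqN : (unifQ : ℚ_[q]ˣ) ∈ N) (hpow : ∀ y : ℚ_[q]ˣ, y ^ n ∈ N)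
    (hidx : N.index = n) (a : ℚ_[q]ˣ) (ha : a ∈ N) :
    ∃ (j : ℤ) (y : ℤ_[q]ˣ), a = (unifQ : ℚ_[q]ˣ) ^ j * unitsIncl (y ^ n) := by
  have hn : n ≠ 0 := by
    rintro rfl
    rw [Nat.cast_zero, norm_zero, zero_pow two_ne_zero] at h
    exact absurd h (not_lt.mpr (by positivity))
  set NA : Subgroup ℤ_[q]ˣ := N.comap unitsIncl with hNA
  set P : Subgroup ℤ_[q]ˣ := (powMonoidHom n : ℤ_[q]ˣ →* ℤ_[q]ˣ).range with hP
  have hPle : P ≤ NA := by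
    rintro _ ⟨y, rfl⟩
    rw [hNA, Subgroup.mem_comap, powMonoidHom_apply, map_pow]
    exact hpow _
  have hsup : (unitsIncl (q := q)).range ⊔ N = ⊤ := by
    rw [eq_top_iff]
    intro x _
    obtain ⟨j, u, rfl⟩ := exists_eq_zpow_mul_unit x
    rw [mul_comm]
    exact Subgroup.mul_mem_sup ⟨u, rfl⟩ (N.zpow_mem hqN j)
  have hNAidx : NA.index = n := by
    rw [hNA, Subgroup.index_comap, ← Subgroup.relIndex_sup_right, hsup, Subgroup.relIndex_top_right,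
      hidx]
  have hPidx : P.index = n := by
    rw [hP, index_range_pow_units hk hq2 h]
    exact Nat.gcd_eq_right hdvd
  have hrel : P.relIndex NA = 1 := by
    have h1 := Subgroup.relIndex_mul_index hPle
    rw [hNAidx, hPidx] at h1
    exact Nat.eq_of_mul_eq_mul_right (Nat.pos_of_ne_zero hn) (by rw [h1, one_mul])
  have hle : NA ≤ P := Subgroup.relIndex_eq_one.mp hrel
  obtain ⟨j, u, rfl⟩ := exists_eq_zpow_mul_unit a
  have hu : u ∈ NA := by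
    rw [hNA, Subgroup.mem_comap]
    have h2 : unitsIncl u = ((unifQ : ℚ_[q]ˣ) ^ j)⁻¹ * ((unifQ : ℚ_[q]ˣ) ^ j * unitsIncl u) := by
      rw [inv_mul_cancel_left]
    rw [h2]
    exact N.mul_mem (N.inv_mem (N.zpow_mem hqN j)) ha
  obtain ⟨y, hy⟩ := hle hu
  rw [powMonoidHom_apply] at hy
  exact ⟨j, y, by rw [hy]⟩

/-- **Tame case**: `n ∣ q - 1` (so `q ∤ n`). -/
theorem exists_eq_zpow_mul_pow_of_mem_tame {n : ℕ} (hq2 : q ≠ 2) (hdvd : n ∣ q - 1)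
    (N : Subgroup ℚ_[q]ˣ) (hqN : (unifQ : ℚ_[q]ˣ) ∈ N) (hpow : ∀ y : ℚ_[q]ˣ, y ^ n ∈ N)
    (hidx : N.index = n) (a : ℚ_[q]ˣ) (ha : a ∈ N) :
    ∃ (j : ℤ) (y : ℤ_[q]ˣ), a = (unifQ : ℚ_[q]ˣ) ^ j * unitsIncl (y ^ n) := by
  have hcop : ¬ q ∣ n := by
    intro hqn
    have h1 : q ∣ q - 1 := hqn.trans hdvd
    have h2 := Nat.le_of_dvd (Nat.sub_pos_of_lt hq.out.one_lt) h1
    have := hq.out.one_lt
    omega
  have hnorm : ‖(n : ℤ_[q])‖ = 1 :=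
    PadicInt.norm_natCast_eq_one_iff.mpr ((Nat.Prime.coprime_iff_not_dvd hq.out).mpr hcop)
  refine exists_eq_zpow_mul_pow_of_mem (k := 1) one_ne_zero hq2 ?_ ?_ N hqN hpow hidx a ha
  · rw [hnorm, one_pow, Nat.cast_one, zpow_neg, zpow_one]
    have : (1 : ℝ) < q := by exact_mod_cast hq.out.one_lt
    exact inv_lt_one_of_one_lt₀ this
  · rw [pow_one, Nat.totient_prime hq.out]
    exact hdvd

/-- **Wild case**: `q = p`, `n = p^m`. -/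
theorem exists_eq_zpow_mul_pow_of_mem_wild {m : ℕ} (hq2 : q ≠ 2)
    (N : Subgroup ℚ_[q]ˣ) (hqN : (unifQ : ℚ_[q]ˣ) ∈ N) (hpow : ∀ y : ℚ_[q]ˣ, y ^ (q ^ m) ∈ N)
    (hidx : N.index = q ^ m) (a : ℚ_[q]ˣ) (ha : a ∈ N) :
    ∃ (j : ℤ) (y : ℤ_[q]ˣ), a = (unifQ : ℚ_[q]ˣ) ^ j * unitsIncl (y ^ (q ^ m)) := by
  have hqpos : (0 : ℝ) < q := by exact_mod_cast hq.out.pos
  have hq1 : (1 : ℝ) < q := by exact_mod_cast hq.out.one_lt
  have hnorm : ‖((q ^ m : ℕ) : ℤ_[q])‖ = (q : ℝ) ^ (-(m : ℤ)) := by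
    rw [Nat.cast_pow, norm_pow, PadicInt.norm_p, inv_pow, zpow_neg, zpow_natCast]
  refine exists_eq_zpow_mul_pow_of_mem (k := 2 * m + 1) (Nat.succ_ne_zero _) hq2 ?_ ?_ N hqN hpow
    hidx a ha
  · rw [hnorm, ← zpow_natCast ((q : ℝ) ^ (-(m : ℤ))) 2, ← zpow_mul]
    apply zpow_lt_zpow_right₀ hq1
    push_cast
    omega
  · rw [Nat.totient_prime_pow_succ hq.out]
    exact Dvd.dvd.mul_right (pow_dvd_pow q (by omega)) _

end PadicPow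

end Fermat.Agent.S55lib.Places
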