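/-
S55lib / Places / CycloFrob (lead).  Block R3 of the K9 re-plan (#lead-122): the local statement
(LN) at the primes `q ≠ p`.

For a finite extension `E/ℚ_q` inside `ℚ̄_q` containing a primitive `N`-th root of unity `β`,
`q ∤ N`:
* `aeval_pow_minpoly_eq_zero` : `β ^ q` is a conjugate of `β` over `ℚ_q` (the Frobenius exists);
* `natCast_pow_finrank_adjoin_eq_one` : `q ^ [ℚ_q(β) : ℚ_q] = 1` in `ZMod N`;
* `norm_algebraNorm_eq_pow` : `‖N_{K/ℚ_q} z‖ = ‖j z‖ ^ [K : ℚ_q]` for every finite extension `K` of `ℚ_q`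
  with an embedding `j` into `ℚ̄_q`;
* `exists_pow_eq_one_and_dvd_valuation_norm` : there is `o` with `q ^ o = 1` in `ZMod N` such that
  `o ∣ v_q (N_{E/ℚ_q} z)` for all `z ≠ 0` of `E`.
-/
import Mathlib
import Fermat.Agent.S55lib.Places.Cyclo

set_option autoImplicit false

noncomputable section

namespace Fermat.Agent.S55lib.Places

open Polynomial Fermat.Agent.S55lib Fermat.Agent.S55lib.FirstIneq

variable {q : ℕ} [hq : Fact q.Prime]

/-! ### Norms of conjugates -/

/-- all `ℚ_q`-embeddings of a finite extension into `ℚ̄_q` have the same norm -/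
theorem norm_algHom_eq {K : Type*} [Field K] [Algebra ℚ_[q] K]
    (j τ : K →ₐ[ℚ_[q]] PadicAlgCl q) (z : K) : ‖τ z‖ = ‖j z‖ := by
  rw [← PadicAlgCl.spectralNorm_eq, ← PadicAlgCl.spectralNorm_eq]
  unfold spectralNorm
  rw [minpoly.algHom_eq τ τ.injective, minpoly.algHom_eq j j.injective]

/-- `‖N_{K/ℚ_q} z‖ = ‖j z‖ ^ [K : ℚ_q]` -/
theorem norm_algebraNorm_eq_pow {K : Type*} [Field K] [Algebra ℚ_[q] K]
    [FiniteDimensional ℚ_[q] K] (j : K →ₐ[ℚ_[q]] PadicAlgCl q) (z : K) :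
    ‖Algebra.norm ℚ_[q] z‖ = ‖j z‖ ^ Module.finrank ℚ_[q] K := by
  rw [← PadicAlgCl.norm_extends]
  change ‖algebraMap ℚ_[q] (PadicAlgCl q) (Algebra.norm ℚ_[q] z)‖ = _
  rw [Algebra.norm_eq_prod_embeddings ℚ_[q] (PadicAlgCl q) z, norm_prod]
  rw [Finset.prod_congr rfl (fun τ _ => norm_algHom_eq j τ z), Finset.prod_const, Finset.card_univ,
    AlgHom.card]

/-! ### The Frobenius congruence for polynomials over `ℤ_q` -/

/-- `g(X^q) ≡ g(X)^q mod q` for polynomials over `ℤ_q` -/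
theorem exists_expand_eq_pow_add (g : ℤ_[q][X]) :
    ∃ h : ℤ_[q][X], expand ℤ_[q] q g = g ^ q + C (q : ℤ_[q]) * h := by
  have hdvd : C (q : ℤ_[q]) ∣ expand ℤ_[q] q g - g ^ q := by
    rw [C_dvd_iff_dvd_coeff]
    intro i
    have hmap : (expand ℤ_[q] q g - g ^ q).map (PadicInt.toZMod (p := q)) = 0 := by
      rw [Polynomial.map_sub, Polynomial.map_pow, map_expand, ZMod.expand_card, sub_self]
    have hc : PadicInt.toZMod ((expand ℤ_[q] q g - g ^ q).coeff i) = 0 := by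
      rw [← coeff_map, hmap, coeff_zero]
    have hmem : (expand ℤ_[q] q g - g ^ q).coeff i ∈ RingHom.ker (PadicInt.toZMod (p := q)) := hc
    rw [PadicInt.ker_toZMod, PadicInt.maximalIdeal_eq_span_p, Ideal.mem_span_singleton] at hmem
    exact hmem
  obtain ⟨h, hh⟩ := hdvd
  exact ⟨h, by rw [← hh]; ring⟩

/-- the ring homomorphism `ℤ_q → ℚ̄_q` -/
def padicIntToAlgCl (q : ℕ) [Fact q.Prime] : ℤ_[q] →+* PadicAlgCl q :=
  (algebraMap ℚ_[q] (PadicAlgCl q)).comp (algebraMap ℤ_[q] ℚ_[q])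

theorem norm_padicIntToAlgCl_le_one (a : ℤ_[q]) : ‖padicIntToAlgCl q a‖ ≤ 1 := by
  exact (PadicAlgCl.norm_extends q (a : ℚ_[q])).trans_le (PadicInt.norm_le_one a)

/-- a polynomial with `ℤ_q`-coefficients maps integral elements to integral elements -/
theorem norm_eval_map_le_one (h : ℤ_[q][X]) {β : PadicAlgCl q} (hβ : ‖β‖ ≤ 1) :
    ‖eval β (h.map (padicIntToAlgCl q))‖ ≤ 1 := by
  rw [eval_map, eval₂_eq_sum_range]
  apply IsUltrametricDist.norm_sum_le_of_forall_le_of_nonneg zero_le_one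
  intro i _
  rw [norm_mul, norm_pow]
  exact mul_le_one₀ (norm_padicIntToAlgCl_le_one _) (pow_nonneg (norm_nonneg _) _)
    (pow_le_one₀ (norm_nonneg _) hβ)

/-! ### The Frobenius conjugate -/

/-- **The Frobenius exists**: for an `N`-th root of unity `β ∈ ℚ̄_q`, `q ∤ N`, the element `β ^ q`
is a conjugate of `β` over `ℚ_q`. -/
theorem aeval_pow_minpoly_eq_zero {N : ℕ} (hN : ¬ q ∣ N) {β : PadicAlgCl q} (hβ : β ^ N = 1) :
    aeval (β ^ q) (minpoly ℚ_[q] β) = 0 := by
  have hN0 : N ≠ 0 := fun h => hN (h ▸ dvd_zero q)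
  set g := minpoly ℚ_[q] β with hg
  have hint : IsIntegral ℚ_[q] β := Algebra.IsIntegral.isIntegral β
  have hgm : g.Monic := minpoly.monic hint
  -- `g ∣ X^N - 1`
  set f : ℤ_[q][X] := X ^ N - C 1 with hf
  have hfm : f.Monic := monic_X_pow_sub_C 1 hN0
  have hfmap : f.map (algebraMap ℤ_[q] ℚ_[q]) = X ^ N - C 1 := by
    rw [hf, Polynomial.map_sub, Polynomial.map_pow, map_X, map_C, map_one]
  have hgf : g ∣ f.map (algebraMap ℤ_[q] ℚ_[q]) := by
    apply minpoly.dvd
    rw [hfmap]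
    simp [hβ]
  obtain ⟨g', hg'⟩ := IsIntegrallyClosed.eq_map_mul_C_of_dvd ℚ_[q] hfm hgf
  rw [hgm.leadingCoeff, C_1, mul_one] at hg'
  -- the polynomial over `ℚ̄_q`
  set G : (PadicAlgCl q)[X] := g.map (algebraMap ℚ_[q] (PadicAlgCl q)) with hG
  have hGg' : G = g'.map (padicIntToAlgCl q) := by
    rw [hG, ← hg', Polynomial.map_map]
    rfl
  have hGm : G.Monic := hgm.map _
  have hGβ : eval β G = 0 := by
    rw [hG, eval_map, ← aeval_def]
    exact minpoly.aeval _ _
  have hβ1 : ‖β‖ = 1 := norm_eq_one_of_pow_eq_one_padicAlgCl hβ hN0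
  -- the congruence
  obtain ⟨h, hh⟩ := exists_expand_eq_pow_add g'
  have hsmall : ‖eval (β ^ q) G‖ < 1 := by
    have e1 : eval (β ^ q) G = eval β (expand (PadicAlgCl q) q G) := (expand_eval q G β).symm
    have e2 : expand (PadicAlgCl q) q G = G ^ q + C ((q : ℕ) : PadicAlgCl q) * h.map (padicIntToAlgCl q) := by
      rw [hGg', ← map_expand, hh, Polynomial.map_add, Polynomial.map_pow, Polynomial.map_mul,
        map_C, map_natCast]
    rw [e1, e2, eval_add, eval_pow, hGβ, zero_pow (Fact.out : q.Prime).ne_zero, zero_add, eval_mul,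
      eval_C, norm_mul, norm_natCast_self]
    calc (q : ℝ)⁻¹ * ‖eval β (h.map (padicIntToAlgCl q))‖ ≤ (q : ℝ)⁻¹ * 1 :=
          mul_le_mul_of_nonneg_left (norm_eval_map_le_one h hβ1.le) (inv_nonneg.mpr (Nat.cast_nonneg q))
      _ < 1 := by
          rw [mul_one]
          exact inv_lt_one_of_one_lt₀ (by exact_mod_cast (Fact.out : q.Prime).one_lt)
  -- the roots
  have hsplit : G.Splits := IsAlgClosed.splits G
  have hroot1 : ∀ r ∈ G.roots, r ^ N = 1 := by
    intro r hr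
    have hr0 : eval r G = 0 := (mem_roots hGm.ne_zero).1 hr
    have hdvd : G ∣ X ^ N - C 1 := by
      have := Polynomial.map_dvd (algebraMap ℚ_[q] (PadicAlgCl q)) hgf
      rw [hfmap, Polynomial.map_sub, Polynomial.map_pow, map_X, map_C, map_one] at this
      exact this
    obtain ⟨k, hk⟩ := hdvd
    have := congrArg (eval r) hk
    rw [eval_mul, hr0, zero_mul, eval_sub, eval_pow, eval_X, eval_C, sub_eq_zero] at this
    exact this
  have hβq : (β ^ q) ^ N = 1 := by rw [← pow_mul, mul_comm, pow_mul, hβ, one_pow]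
  by_contra hne
  have hnot : β ^ q ∉ G.roots := by
    intro hmem
    apply hne
    have := (mem_roots hGm.ne_zero).1 hmem
    rw [IsRoot.def, hG, eval_map, ← aeval_def] at this
    exact this
  have hone : ‖eval (β ^ q) G‖ = 1 := by
    rw [hsplit.eval_eq_prod_roots_of_monic hGm]
    have : ∀ s : Multiset (PadicAlgCl q), (∀ r ∈ s, ‖β ^ q - r‖ = 1) →
        ‖(s.map (β ^ q - ·)).prod‖ = 1 := by
      intro s
      induction s using Multiset.induction_on with
      | empty => intro _; simp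
      | cons a s ih =>
        intro hs
        rw [Multiset.map_cons, Multiset.prod_cons, norm_mul,
          ih (fun r hr => hs r (Multiset.mem_cons_of_mem hr)), mul_one]
        exact hs a (Multiset.mem_cons_self a s)
    apply this
    intro r hr
    apply norm_sub_eq_one_of_pow_eq_one hN hβq (hroot1 r hr)
    intro h
    exact hnot (h ▸ hr)
  rw [hone] at hsmall
  exact lt_irrefl _ hsmall

/-! ### The cyclotomic field inside `ℚ̄_q` -/

/-- the splitting field of `X ^ N - 1` inside `ℚ̄_q` -/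
def cycloField (q : ℕ) [Fact q.Prime] (N : ℕ) : IntermediateField ℚ_[q] (PadicAlgCl q) :=
  IntermediateField.adjoin ℚ_[q] ((X ^ N - C 1 : ℚ_[q][X]).rootSet (PadicAlgCl q))

theorem mem_rootSet_X_pow_sub_one {N : ℕ} (hN0 : N ≠ 0) (γ : PadicAlgCl q) :
    γ ∈ (X ^ N - C 1 : ℚ_[q][X]).rootSet (PadicAlgCl q) ↔ γ ^ N = 1 := by
  rw [mem_rootSet]
  simp only [map_sub, map_pow, aeval_X, aeval_C, map_one, sub_eq_zero]
  exact ⟨fun h => h.2, fun h => ⟨(monic_X_pow_sub_C 1 hN0).ne_zero, h⟩⟩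

theorem mem_cycloField_of_pow_eq_one {N : ℕ} (hN0 : N ≠ 0) {γ : PadicAlgCl q} (hγ : γ ^ N = 1) :
    γ ∈ cycloField q N :=
  IntermediateField.subset_adjoin _ _ ((mem_rootSet_X_pow_sub_one hN0 γ).2 hγ)

theorem unramAt_cycloField {N : ℕ} (hN : ¬ q ∣ N) : UnramAt q (cycloField q N) := by
  have hN0 : N ≠ 0 := fun h => hN (h ▸ dvd_zero q)
  apply unramAt_adjoin_rootSet
  · intro β hβ
    exact (norm_eq_one_of_pow_eq_one_padicAlgCl ((mem_rootSet_X_pow_sub_one hN0 β).mp hβ) hN0).le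
  · intro β hβ β' hβ' hne
    rw [← norm_neg, neg_sub]
    exact norm_sub_eq_one_of_pow_eq_one hN ((mem_rootSet_X_pow_sub_one hN0 β).mp hβ)
      ((mem_rootSet_X_pow_sub_one hN0 β').mp hβ') hne

instance isSplittingField_cycloField (N : ℕ) :
    (X ^ N - C 1 : ℚ_[q][X]).IsSplittingField ℚ_[q] (cycloField q N) :=
  IntermediateField.adjoin_rootSet_isSplittingField (IsAlgClosed.splits _)

instance normal_cycloField (N : ℕ) : Normal ℚ_[q] (cycloField q N) :=
  Normal.of_isSplittingField (X ^ N - C 1 : ℚ_[q][X])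

instance finiteDimensional_cycloField (N : ℕ) : FiniteDimensional ℚ_[q] (cycloField q N) :=
  Polynomial.IsSplittingField.finiteDimensional _ (X ^ N - C 1 : ℚ_[q][X])

instance isGalois_cycloField (N : ℕ) : IsGalois ℚ_[q] (cycloField q N) where

/-- `q ^ [ℚ_q(μ_N) : ℚ_q] = 1` in `ZMod N` -/
theorem natCast_pow_finrank_cycloField {N : ℕ} (hN : ¬ q ∣ N) {β : PadicAlgCl q}
    (hβ : IsPrimitiveRoot β N) :
    ((q : ℕ) : ZMod N) ^ Module.finrank ℚ_[q] (cycloField q N) = 1 := by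
  have hN0 : N ≠ 0 := fun h => hN (h ▸ dvd_zero q)
  set o := Module.finrank ℚ_[q] (cycloField q N) with ho
  obtain ⟨σ, hσ⟩ := minpoly.exists_algEquiv_of_root' (K := ℚ_[q]) (L := PadicAlgCl q)
    (Algebra.IsAlgebraic.isAlgebraic β) (aeval_pow_minpoly_eq_zero hN hβ.pow_eq_one)
  set σ₁ := AlgEquiv.restrictNormalHom (cycloField q N) σ with hσ₁
  have hcomm : ∀ (τ : PadicAlgCl q ≃ₐ[ℚ_[q]] PadicAlgCl q) (x : cycloField q N),
      ((AlgEquiv.restrictNormalHom (cycloField q N) τ x : cycloField q N) : PadicAlgCl q) =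
        τ (x : PadicAlgCl q) := fun τ x => AlgEquiv.restrictNormal_commutes τ (cycloField q N) x
  set β₁ : cycloField q N := ⟨β, mem_cycloField_of_pow_eq_one hN0 hβ.pow_eq_one⟩ with hβ₁
  have hpow : ∀ k : ℕ, (((σ₁ ^ k) β₁ : cycloField q N) : PadicAlgCl q) = β ^ (q ^ k) := by
    intro k
    induction k with
    | zero => simp [hβ₁]
    | succ k ih =>
      rw [pow_succ', AlgEquiv.mul_apply, hσ₁, hcomm, ih, map_pow, hσ, ← pow_mul, pow_succ, mul_comm]
  have hone : σ₁ ^ o = 1 := by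
    rw [ho, ← IsGalois.card_aut_eq_finrank]
    exact pow_card_eq_one'
  have h1 := hpow o
  rw [hone] at h1
  have h2 : β ^ (q ^ o) = β := by
    rw [← h1]
    rfl
  have hq1 : 1 ≤ q ^ o := Nat.one_le_pow _ _ (Fact.out : q.Prime).pos
  have h3 : β ^ (q ^ o - 1) = 1 := by
    have hβ0 : β ≠ 0 := hβ.ne_zero hN0
    have : β ^ (q ^ o - 1) * β = 1 * β := by
      rw [← pow_succ, Nat.sub_add_cancel hq1, h2, one_mul]
    exact mul_right_cancel₀ hβ0 this
  have h4 : N ∣ q ^ o - 1 := hβ.dvd_of_pow_eq_one _ h3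
  have h5 : ((q ^ o - 1 : ℕ) : ZMod N) = 0 := (ZMod.natCast_eq_zero_iff _ _).2 h4
  rw [Nat.cast_sub hq1, Nat.cast_pow, Nat.cast_one, sub_eq_zero] at h5
  exact h5

/-- **(LN) at the primes `q ∤ N`.**  Let `E/ℚ_q` be a finite extension inside `ℚ̄_q` containing a
primitive `N`-th root of unity, `q ∤ N`.  There is `o` with `q ^ o = 1` in `ZMod N` such that the
valuation of every norm `N_{E/ℚ_q} z`, `z ≠ 0`, is divisible by `o`. -/
theorem exists_pow_eq_one_and_dvd_valuation_norm {N : ℕ} (hN : ¬ q ∣ N)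
    (E : IntermediateField ℚ_[q] (PadicAlgCl q)) [FiniteDimensional ℚ_[q] E]
    {β : PadicAlgCl q} (hβ : IsPrimitiveRoot β N) (hβE : β ∈ E) :
    ∃ o : ℕ, ((q : ℕ) : ZMod N) ^ o = 1 ∧
      ∀ z : E, z ≠ 0 → (o : ℤ) ∣ (Algebra.norm ℚ_[q] z).valuation := by
  have hN0 : N ≠ 0 := fun h => hN (h ▸ dvd_zero q)
  have : NeZero N := ⟨hN0⟩
  refine ⟨Module.finrank ℚ_[q] (cycloField q N), natCast_pow_finrank_cycloField hN hβ, ?_⟩
  intro z hz
  have hle : cycloField q N ≤ E := by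
    rw [cycloField, IntermediateField.adjoin_le_iff]
    intro γ hγ
    rw [mem_rootSet_X_pow_sub_one hN0] at hγ
    obtain ⟨i, -, rfl⟩ := hβ.eq_pow_of_pow_eq_one hγ
    exact pow_mem hβE i
  set F' : IntermediateField ℚ_[q] E := IntermediateField.restrict hle with hF'
  set w : F' := Algebra.norm F' z with hw
  have hw0 : w ≠ 0 := by
    rw [hw, Ne, Algebra.norm_eq_zero_iff]
    exact hz
  have htrans : Algebra.norm ℚ_[q] w = Algebra.norm ℚ_[q] z := Algebra.norm_norm
  set j : F' →ₐ[ℚ_[q]] PadicAlgCl q := E.val.comp F'.val with hj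
  have hnorm := norm_algebraNorm_eq_pow j w
  have hfin : Module.finrank ℚ_[q] F' = Module.finrank ℚ_[q] (cycloField q N) :=
    (IntermediateField.restrictAlgEquiv hle).toLinearEquiv.finrank_eq.symm
  have hjw : j w ∈ cycloField q N := (IntermediateField.mem_restrict hle (w : E)).1 w.2
  have hjw0 : j w ≠ 0 := by
    intro h
    apply hw0
    have : ((w : E) : PadicAlgCl q) = 0 := h
    exact Subtype.ext (Subtype.ext this)
  obtain ⟨n, hn⟩ := (unramAt_cycloField hN).exists_inv_zpow hjw hjw0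
  have hNz : Algebra.norm ℚ_[q] z ≠ 0 := by
    rw [Ne, Algebra.norm_eq_zero_iff]
    exact hz
  have hval := Padic.norm_eq_zpow_neg_valuation hNz
  rw [← htrans, hnorm, hn, hfin, htrans] at hval
  -- `(q⁻¹)^(n * o) = q ^ (-v)`
  have hq1 : (1 : ℝ) < q := by exact_mod_cast (Fact.out : q.Prime).one_lt
  have hq0 : (0 : ℝ) < q := by linarith
  rw [← zpow_natCast, ← zpow_mul, inv_zpow', ] at hval
  have := zpow_right_injective₀ hq0 hq1.ne' hval
  refine ⟨n, ?_⟩
  have e : (Algebra.norm ℚ_[q] z).valuation = n * (Module.finrank ℚ_[q] (cycloField q N) : ℤ) := by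
    linarith
  rw [e, mul_comm]

end Fermat.Agent.S55lib.Places
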