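/-
S55lib / Places / LNTame (lead).  Block R3 of the K9 re-plan (#lead-122): **(LN) at `q ≠ p`** in
literally the shape of helper2's `Recip/ArtinPhiDefs`:
`lnAt_of_ne : q ≠ p → ζ ∈ K primitive `p^(m+1)`-th root of unity → LNAt p m lam q K`.
-/
import Mathlib
import Fermat.Agent.S55lib.Places.CycloFrob
import Fermat.Agent.S55lib.Recip.ArtinPhiDefs

set_option autoImplicit false

noncomputable section

namespace Fermat.Agent.S55lib.Places

open Fermat.Agent.S55lib Fermat.Agent.S55lib.Recip Fermat.Agent.S55lib.CycloArith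

variable {p : ℕ} [hp : Fact p.Prime] {m : ℕ}
  (lam : (ZMod (p ^ (m + 1)))ˣ →* Multiplicative (ZMod (p ^ m)))

/-- **(LN) at `q ≠ p`**: the tame component `Φ_q` of the arithmetic Artin map kills the norms from
every finite extension `K/ℚ_q` containing a primitive `p^(m+1)`-th root of unity. -/
theorem lnAt_of_ne {q : ℕ} [hq : Fact q.Prime] (hqp : q ≠ p)
    (K : IntermediateField ℚ_[q] (PadicAlgCl q)) [FiniteDimensional ℚ_[q] K]
    (ζ : K) (hζ : IsPrimitiveRoot ζ (p ^ (m + 1))) : LNAt p m lam q K := by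
  intro z
  rw [phiLoc_of_ne lam hqp, phiTame_apply]
  have hN : ¬ q ∣ p ^ (m + 1) := by
    intro h
    have := (Nat.prime_dvd_prime_iff_eq hq.out hp.out).1 (hq.out.dvd_of_dvd_pow h)
    exact hqp this
  have hβ : IsPrimitiveRoot ((ζ : K) : PadicAlgCl q) (p ^ (m + 1)) :=
    hζ.map_of_injective (f := K.val) K.val.injective
  obtain ⟨o, ho, hdvd⟩ := exists_pow_eq_one_and_dvd_valuation_norm hN K hβ ζ.2
  obtain ⟨k, hk⟩ := hdvd (z : K) z.ne_zero
  have hcop : Nat.Coprime q (p ^ (m + 1)) :=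
    (Nat.Prime.coprime_iff_not_dvd hq.out).2 hN
  have hu : natUnit (p ^ (m + 1)) q ^ o = 1 := by
    apply Units.ext
    rw [Units.val_pow_eq_pow_val, coe_natUnit hcop, ho, Units.val_one]
  have hval : ((Units.map (Algebra.norm ℚ_[q] : ↥K →* ℚ_[q]) z : ℚ_[q]ˣ) : ℚ_[q]).valuation =
      (o : ℤ) * k := hk
  rw [hval, zpow_mul, zpow_natCast, inv_pow, ← map_pow, hu, map_one, inv_one, one_zpow]
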