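/-
S55lib / Places / LamChar (lead).  The character `lam : (ℤ/p^(m+1))ˣ → ℤ/p^m` of the K9 re-plan
(#lead-122), `p` odd.
* `exists_lam` : a surjective `lam : (ZMod (p^(m+1)))ˣ →* Multiplicative (ZMod (p^m))` exists;
* for every surjective `lam`: `lam_eq_one_iff : lam u = 1 ↔ u ^ (p-1) = 1`, `lam_neg_one`,
  `eq_one_of_lam_eq_one_of_pow` (injectivity on elements of `p`-power order),
  `orderOf_lam : orderOf (lam u) = orderOf (u ^ (p-1))`;
* orders: `orderOf_natUnit_of_dvd_sub_one`, `orderOf_lam_natUnit_of_dvd_sub_one`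
  (`a ≡ 1 mod p`, `w = v_p(a-1) ≤ m+1`: order `p^(m+1-w)`), `orderOf_lam_natUnit`
  (`p ∤ a`, `v = v_p(a^(p-1)-1) ≤ m+1`: order `p^(m+1-v)`), `orderOf_lam_one_add` (`lam (1+p)` has
  order `p^m`).
-/
import Mathlib
import Fermat.Agent.S55lib.FirstIneq.CycloArith

set_option autoImplicit false

noncomputable section

namespace Fermat.Agent.S55lib.Places

open Fermat.Agent.S55lib.CycloArith

variable {p : ℕ} [hp : Fact p.Prime] {m : ℕ}

/-- the number of units of `ℤ/p^(m+1)` -/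
theorem card_units_prime_pow (p : ℕ) [hp : Fact p.Prime] (m : ℕ) :
    Nat.card (ZMod (p ^ (m + 1)))ˣ = p ^ m * (p - 1) := by
  haveI : NeZero (p ^ (m + 1)) := ⟨pow_ne_zero _ hp.out.ne_zero⟩
  rw [Nat.card_eq_fintype_card, ZMod.card_units_eq_totient, Nat.totient_prime_pow_succ hp.out]

theorem card_multiplicative_zmod_prime_pow (p : ℕ) [hp : Fact p.Prime] (m : ℕ) :
    Nat.card (Multiplicative (ZMod (p ^ m))) = p ^ m := by
  exact (Nat.card_congr Multiplicative.toAdd).trans (Nat.card_zmod _)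

/-- **existence of `lam`** -/
theorem exists_lam (hp2 : p ≠ 2) (m : ℕ) :
    ∃ lam : (ZMod (p ^ (m + 1)))ˣ →* Multiplicative (ZMod (p ^ m)), Function.Surjective lam := by
  have hcyc : IsCyclic (ZMod (p ^ (m + 1)))ˣ := ZMod.isCyclic_units_of_prime_pow p hp.out hp2 _
  have hdvd : p ^ m ∣ Nat.card (ZMod (p ^ (m + 1)))ˣ := by
    rw [card_units_prime_pow]
    exact Dvd.intro _ rfl
  set e := zmodCyclicMulEquiv hcyc with he
  set c : ZMod (Nat.card (ZMod (p ^ (m + 1)))ˣ) →+* ZMod (p ^ m) := ZMod.castHom hdvd _ with hc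
  refine ⟨(AddMonoidHom.toMultiplicative c.toAddMonoidHom).comp e.symm.toMonoidHom, ?_⟩
  intro y
  obtain ⟨x, hx⟩ := ZMod.castHom_surjective hdvd (Multiplicative.toAdd y)
  refine ⟨e (Multiplicative.ofAdd x), ?_⟩
  simp only [MonoidHom.coe_comp, MulEquiv.coe_toMonoidHom, Function.comp_apply,
    MulEquiv.symm_apply_apply]
  exact congrArg Multiplicative.ofAdd hx

section Surj

variable (lam : (ZMod (p ^ (m + 1)))ˣ →* Multiplicative (ZMod (p ^ m)))
  (hlam : Function.Surjective lam)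

include hlam in
theorem card_ker_lam : Nat.card lam.ker = p - 1 := by
  have h1 := Subgroup.card_mul_index lam.ker
  rw [Subgroup.index_ker, MonoidHom.range_eq_top.2 hlam, Subgroup.card_top,
    card_multiplicative_zmod_prime_pow, card_units_prime_pow, mul_comm] at h1
  exact Nat.eq_of_mul_eq_mul_left (pow_pos hp.out.pos m) h1

include hlam in
/-- the kernel of `lam` is the `(p-1)`-torsion -/
theorem lam_eq_one_iff (u : (ZMod (p ^ (m + 1)))ˣ) : lam u = 1 ↔ u ^ (p - 1) = 1 := by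
  constructor
  · intro h
    have hu : u ∈ lam.ker := h
    have := pow_card_eq_one' (G := lam.ker) (x := ⟨u, hu⟩)
    rw [card_ker_lam lam hlam] at this
    exact congrArg Subtype.val this
  · intro h
    have h1 : (lam u) ^ (p - 1) = 1 := by rw [← map_pow, h, map_one]
    have h2 : (lam u) ^ (p ^ m) = 1 := by
      have := pow_card_eq_one' (G := Multiplicative (ZMod (p ^ m))) (x := lam u)
      rwa [card_multiplicative_zmod_prime_pow] at this
    have hcop : Nat.Coprime (p - 1) (p ^ m) := by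
      apply Nat.Coprime.pow_right
      rw [Nat.coprime_comm, Nat.Prime.coprime_iff_not_dvd hp.out]
      intro hd
      have := Nat.le_of_dvd (Nat.sub_pos_of_lt hp.out.one_lt) hd
      have := hp.out.one_lt
      omega
    have := orderOf_dvd_of_pow_eq_one h1
    have h3 := Nat.dvd_gcd (orderOf_dvd_of_pow_eq_one h1) (orderOf_dvd_of_pow_eq_one h2)
    rw [hcop.gcd_eq_one, Nat.dvd_one] at h3
    exact orderOf_eq_one_iff.1 h3

include hlam in
theorem lam_neg_one (hp2 : p ≠ 2) : lam (-1) = 1 := by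
  rw [lam_eq_one_iff lam hlam]
  have : Even (p - 1) := by
    have := hp.out.eq_two_or_odd'
    rcases this with h | h
    · exact absurd h hp2
    · exact Nat.Prime.even_sub_one hp.out hp2
  exact this.neg_one_pow

include hlam in
/-- `lam` is injective on elements of `p`-power order -/
theorem eq_one_of_lam_eq_one_of_pow {u : (ZMod (p ^ (m + 1)))ˣ} {k : ℕ} (hu : u ^ (p ^ k) = 1)
    (h : lam u = 1) : u = 1 := by
  rw [lam_eq_one_iff lam hlam] at h
  have hcop : Nat.Coprime (p - 1) (p ^ k) := by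
    apply Nat.Coprime.pow_right
    rw [Nat.coprime_comm, Nat.Prime.coprime_iff_not_dvd hp.out]
    intro hd
    have := Nat.le_of_dvd (Nat.sub_pos_of_lt hp.out.one_lt) hd
    have := hp.out.one_lt
    omega
  have h3 := Nat.dvd_gcd (orderOf_dvd_of_pow_eq_one h) (orderOf_dvd_of_pow_eq_one hu)
  rw [hcop.gcd_eq_one, Nat.dvd_one] at h3
  exact orderOf_eq_one_iff.1 h3

include hlam in
theorem orderOf_lam (u : (ZMod (p ^ (m + 1)))ˣ) : orderOf (lam u) = orderOf (u ^ (p - 1)) := by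
  apply Nat.dvd_antisymm
  · apply orderOf_dvd_of_pow_eq_one
    rw [← map_pow, lam_eq_one_iff lam hlam, ← pow_mul, mul_comm, pow_mul, pow_orderOf_eq_one]
  · apply orderOf_dvd_of_pow_eq_one
    rw [← pow_mul, mul_comm, pow_mul, ← lam_eq_one_iff lam hlam, map_pow, pow_orderOf_eq_one]

end Surj

/-! ### Orders of the classes of integers -/

/-- for `a ≡ 1 mod p`, `a > 1`, `p` odd: `a ^ k ≡ 1 mod p^(m+1)` iff `p^(m+1-w) ∣ k`,
`w = v_p(a-1)` -/
theorem natUnit_pow_eq_one_iff (hp2 : p ≠ 2) {a : ℕ} (ha1 : 1 < a) (hpa : p ∣ a - 1)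
    (hw : padicValNat p (a - 1) ≤ m + 1) (k : ℕ) :
    natUnit (p ^ (m + 1)) a ^ k = 1 ↔ p ^ (m + 1 - padicValNat p (a - 1)) ∣ k := by
  have hodd : Odd p := hp.out.odd_of_ne_two hp2
  have hpa' : ¬ p ∣ a := by
    intro h
    have : p ∣ 1 := by
      have h2 := Nat.dvd_sub h hpa
      rwa [Nat.sub_sub_self ha1.le] at h2
    exact hp.out.one_lt.ne' (Nat.dvd_one.1 this)
  have hcop : Nat.Coprime a (p ^ (m + 1)) :=
    Nat.Coprime.pow_right _ ((Nat.coprime_comm.1 ((Nat.Prime.coprime_iff_not_dvd hp.out).2 hpa')))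
  rcases Nat.eq_zero_or_pos k with hk | hk
  · subst hk
    simp
  have hstep : natUnit (p ^ (m + 1)) a ^ k = 1 ↔ p ^ (m + 1) ∣ a ^ k - 1 := by
    have h1 : 1 ≤ a ^ k := Nat.one_le_pow _ _ (by omega)
    rw [Units.ext_iff, Units.val_pow_eq_pow_val, coe_natUnit hcop, Units.val_one,
      ← ZMod.natCast_eq_zero_iff, Nat.cast_sub h1, Nat.cast_pow, Nat.cast_one, sub_eq_zero]
  rw [hstep]
  have hlte := padicValNat.pow_sub_pow (p := p) hodd (x := a) (y := 1) ha1
    (by simpa using hpa) hpa' hk.ne'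
  rw [one_pow] at hlte
  have hne : a ^ k - 1 ≠ 0 := by
    have : 1 < a ^ k := Nat.one_lt_pow hk.ne' ha1
    omega
  rw [padicValNat_dvd_iff_le hne, hlte]
  constructor
  · intro h
    have h2 : m + 1 - padicValNat p (a - 1) ≤ padicValNat p k := by omega
    exact (pow_dvd_pow p h2).trans pow_padicValNat_dvd
  · intro h
    have h2 : m + 1 - padicValNat p (a - 1) ≤ padicValNat p k :=
      (padicValNat_dvd_iff_le hk.ne').1 h
    omega

/-- the order of `a mod p^(m+1)` for `a ≡ 1 mod p` -/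
theorem orderOf_natUnit_of_dvd_sub_one (hp2 : p ≠ 2) {a : ℕ} (ha1 : 1 < a) (hpa : p ∣ a - 1)
    (hw : padicValNat p (a - 1) ≤ m + 1) :
    orderOf (natUnit (p ^ (m + 1)) a) = p ^ (m + 1 - padicValNat p (a - 1)) := by
  apply Nat.dvd_antisymm
  · apply orderOf_dvd_of_pow_eq_one
    rw [natUnit_pow_eq_one_iff hp2 ha1 hpa hw]
  · rw [← natUnit_pow_eq_one_iff hp2 ha1 hpa hw]
    exact pow_orderOf_eq_one _

section SurjOrders

variable (lam : (ZMod (p ^ (m + 1)))ˣ →* Multiplicative (ZMod (p ^ m)))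
  (hlam : Function.Surjective lam)

include hlam in
/-- the order of `lam (a mod p^(m+1))` for `a ≡ 1 mod p` -/
theorem orderOf_lam_natUnit_of_dvd_sub_one (hp2 : p ≠ 2) {a : ℕ} (ha1 : 1 < a) (hpa : p ∣ a - 1)
    (hw : padicValNat p (a - 1) ≤ m + 1) :
    orderOf (lam (natUnit (p ^ (m + 1)) a)) = p ^ (m + 1 - padicValNat p (a - 1)) := by
  rw [orderOf_lam lam hlam]
  have hcop : Nat.Coprime (orderOf (natUnit (p ^ (m + 1)) a)) (p - 1) := by
    rw [orderOf_natUnit_of_dvd_sub_one hp2 ha1 hpa hw]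
    apply Nat.Coprime.pow_left
    rw [Nat.Prime.coprime_iff_not_dvd hp.out]
    intro hd
    have := Nat.le_of_dvd (Nat.sub_pos_of_lt hp.out.one_lt) hd
    have := hp.out.one_lt
    omega
  rw [hcop.orderOf_pow, orderOf_natUnit_of_dvd_sub_one hp2 ha1 hpa hw]

include hlam in
/-- `lam (1 + p)` has order `p ^ m` -/
theorem orderOf_lam_one_add (hp2 : p ≠ 2) :
    orderOf (lam (natUnit (p ^ (m + 1)) (1 + p))) = p ^ m := by
  have h1 : 1 < 1 + p := by have := hp.out.pos; omega
  have h2 : 1 + p - 1 = p := by omega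
  have h3 : padicValNat p (1 + p - 1) = 1 := by rw [h2, padicValNat_self]
  have := orderOf_lam_natUnit_of_dvd_sub_one lam hlam hp2 h1 (by rw [h2]) (by rw [h3]; omega)
  rw [this, h3, Nat.add_sub_cancel]

include hlam in
/-- the order of `lam (a mod p^(m+1))` for `p ∤ a`, in terms of `v_p(a^(p-1) - 1)` -/
theorem orderOf_lam_natUnit (hp2 : p ≠ 2) {a : ℕ} (ha1 : 1 < a) (hpa : ¬ p ∣ a)
    (hv : padicValNat p (a ^ (p - 1) - 1) ≤ m + 1) :
    orderOf (lam (natUnit (p ^ (m + 1)) a)) = p ^ (m + 1 - padicValNat p (a ^ (p - 1) - 1)) := by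
  have hp1 : p - 1 ≠ 0 := by have := hp.out.one_lt; omega
  have hb1 : 1 < a ^ (p - 1) := Nat.one_lt_pow hp1 ha1
  have hcopa : Nat.Coprime a p := (Nat.coprime_comm.1 ((Nat.Prime.coprime_iff_not_dvd hp.out).2 hpa))
  have hfermat : p ∣ a ^ (p - 1) - 1 := by
    have := (Nat.ModEq.pow_totient hcopa)
    rw [Nat.totient_prime hp.out] at this
    exact (Nat.modEq_iff_dvd' hb1.le).1 this.symm
  have h := orderOf_lam_natUnit_of_dvd_sub_one lam hlam hp2 hb1 hfermat hv
  have hcop : Nat.Coprime a (p ^ (m + 1)) := Nat.Coprime.pow_right _ hcopa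
  have hpow : natUnit (p ^ (m + 1)) (a ^ (p - 1)) = natUnit (p ^ (m + 1)) a ^ (p - 1) := by
    apply Units.ext
    rw [Units.val_pow_eq_pow_val, coe_natUnit hcop, coe_natUnit (Nat.Coprime.pow_left _ hcop),
      Nat.cast_pow]
  rw [hpow, map_pow] at h
  have hcop2 : Nat.Coprime (orderOf (lam (natUnit (p ^ (m + 1)) a))) (p - 1) := by
    have hdvd : orderOf (lam (natUnit (p ^ (m + 1)) a)) ∣ p ^ m := by
      have := orderOf_dvd_natCard (lam (natUnit (p ^ (m + 1)) a))
      rwa [card_multiplicative_zmod_prime_pow] at this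
    apply Nat.Coprime.coprime_dvd_left hdvd
    apply Nat.Coprime.pow_left
    rw [Nat.Prime.coprime_iff_not_dvd hp.out]
    intro hd
    have := Nat.le_of_dvd (Nat.sub_pos_of_lt hp.out.one_lt) hd
    have := hp.out.one_lt
    omega
  rw [hcop2.orderOf_pow] at h
  exact h

end SurjOrders

end Fermat.Agent.S55lib.Places
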