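/-
S55lib / Places / CycloClass (lead).  Shared block of R5 and K9-III (#lead-125): for a number field
`M`, Galois over `ℚ`, containing a primitive `p^(m+1)`-th root of unity `ζ`, `Γ := M ≃ₐ[ℚ] M`:
* `chiM lam hζ : Γ → ZMod (p^m)`, the additive cyclotomic character `toAdd ∘ lam ∘ autToPow`;
* `inclQ M : Idele ℚ →* Idele M` and `PsiM lam M : (ideleRep M).ρ.invariants →+ ZMod (p^m)`, the
  arithmetic Artin map on the `Γ`-invariant ideles, with `PsiM_inclQ`, `PsiM_E` (`hΨE` of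
  `Recip/TateGen`), `PsiM_N` (`hΨN`);
* `cycloClass lam hζ x := π_*(inclQ x ∪ δχ) : H²(Γ, C(M))`.
-/
import Mathlib
import Fermat.Agent.S55lib.Places.LamChar
import Fermat.Agent.S55lib.Recip.ArtinPhi
import Fermat.Agent.S55lib.Recip.TateGen
import Fermat.Agent.S55lib.Dev.IdeleNorm
import Fermat.Agent.S55lib.Dev.IdeleRep
import Fermat.Agent.S55lib.LocalH.LNWild
import Fermat.Agent.S55lib.Places.LNTame
import Fermat.Agent.S55lib.Places.CyclicLayers

set_option autoImplicit false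

noncomputable section

namespace Fermat.Agent.S55lib.Places

open Fermat.Agent.S55lib Fermat.Agent.S55lib.Recip Fermat.Agent.S55lib.Dev
  Fermat.Agent.S55lib.CycloArith groupCohomology CategoryTheory

variable {p : ℕ} [hp : Fact p.Prime] {m : ℕ}
  (lam : (ZMod (p ^ (m + 1)))ˣ →* Multiplicative (ZMod (p ^ m)))

instance neZero_pow_succ_lam : NeZero (p ^ (m + 1)) := ⟨pow_ne_zero _ hp.out.ne_zero⟩

instance neZero_pow_lam : NeZero (p ^ m) := ⟨pow_ne_zero _ hp.out.ne_zero⟩

section Chi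

variable {M : Type} [Field M] [Algebra ℚ M] {ζ : M} (hζ : IsPrimitiveRoot ζ (p ^ (m + 1)))

/-- the additive cyclotomic character `Γ → ℤ/p^m` -/
def chiM (σ : M ≃ₐ[ℚ] M) : ZMod (p ^ m) :=
  Multiplicative.toAdd (lam (hζ.autToPow ℚ σ))

theorem chiM_mul (σ τ : M ≃ₐ[ℚ] M) : chiM lam hζ (σ * τ) = chiM lam hζ σ + chiM lam hζ τ := by
  unfold chiM
  rw [map_mul, map_mul, toAdd_mul]

theorem chiM_eq_zero_iff (σ : M ≃ₐ[ℚ] M) : chiM lam hζ σ = 0 ↔ lam (hζ.autToPow ℚ σ) = 1 := by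
  unfold chiM
  exact Iff.rfl

end Chi

section Psi

/-- sums in `Rep.ofMulDistribMulAction` are products -/
theorem toMul_sum_ofMulDistribMulAction {G A : Type} [Group G] [CommGroup A]
    [MulDistribMulAction G A] (s : Finset G) (j : Rep.ofMulDistribMulAction G A) :
    Additive.toMul (show Additive A from ∑ g ∈ s, (Rep.ofMulDistribMulAction G A).ρ g j) =
      ∏ g ∈ s, g • Additive.toMul (show Additive A from j) := by
  classical
  induction s using Finset.induction_on with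
  | empty => rfl
  | insert a s ha ih =>
    rw [Finset.prod_insert ha, Finset.sum_insert ha, ← ih]
    rfl

variable (M : Type) [Field M] [NumberField M] [IsGalois ℚ M]

/-- the inclusion `I(ℚ) → I(M)` -/
def inclQ : Idele ℚ →* Idele M := Idele.incl (IsScalarTower.toAlgHom ℚ ℚ M)

theorem inclQ_injective : Function.Injective (inclQ M) :=
  Idele.incl_injective _

theorem autToQ_rat (γ : M ≃ₐ[ℚ] M) : autToQ ℚ γ = γ := by
  ext x
  rfl

theorem smul_inclQ (γ : M ≃ₐ[ℚ] M) (x : Idele ℚ) : γ • inclQ M x = inclQ M x := by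
  have := Idele.smul_incl ℚ M γ x
  rwa [autToQ_rat] at this

theorem exists_inclQ_eq (y : Idele M) (hy : ∀ γ : M ≃ₐ[ℚ] M, γ • y = y) :
    ∃ x : Idele ℚ, inclQ M x = y := by
  apply Idele.exists_incl_eq_of_invariant ℚ y
  intro γ
  rw [autToQ_rat]
  exact hy γ

/-- the idele of `ℚ` under an invariant idele of `M` -/
def preQ (y : Idele M) (hy : ∀ γ : M ≃ₐ[ℚ] M, γ • y = y) : Idele ℚ :=
  Classical.choose (exists_inclQ_eq M y hy)

theorem inclQ_preQ (y : Idele M) (hy : ∀ γ : M ≃ₐ[ℚ] M, γ • y = y) : inclQ M (preQ M y hy) = y :=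
  Classical.choose_spec (exists_inclQ_eq M y hy)

theorem preQ_eq (y : Idele M) (hy : ∀ γ : M ≃ₐ[ℚ] M, γ • y = y) (x : Idele ℚ)
    (h : inclQ M x = y) : preQ M y hy = x :=
  inclQ_injective M ((inclQ_preQ M y hy).trans h.symm)

theorem mem_invariants_ideleRep (y : ideleRep M) :
    y ∈ (ideleRep M).ρ.invariants ↔
      ∀ γ : M ≃ₐ[ℚ] M, γ • (Additive.toMul y : Idele M) = Additive.toMul y := by
  constructor
  · intro h γ
    exact congrArg Additive.toMul (h γ)
  · intro h γ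
    exact congrArg Additive.ofMul (h γ)

/-- **the arithmetic Artin map on the invariant ideles of `M`** -/
def PsiM : (ideleRep M).ρ.invariants →+ ZMod (p ^ m) where
  toFun y := Multiplicative.toAdd (Phi p m lam (preQ M (Additive.toMul (y.1 : ideleRep M))
    ((mem_invariants_ideleRep M y.1).1 y.2)))
  map_zero' := by
    have h := preQ_eq M (Additive.toMul ((0 : (ideleRep M).ρ.invariants).1 : ideleRep M))
      ((mem_invariants_ideleRep M _).1 (0 : (ideleRep M).ρ.invariants).2) 1 (map_one _)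
    have h2 := congrArg (fun z => Multiplicative.toAdd (Phi p m lam z)) h
    simp only [map_one, toAdd_one] at h2
    exact h2
  map_add' a b := by
    rw [← toAdd_mul, ← map_mul]
    congr 2
    apply preQ_eq
    rw [map_mul, inclQ_preQ, inclQ_preQ]
    rfl

/-- the image of an idele of `ℚ` in the module `I(M)` -/
def inclQRep (x : Idele ℚ) : ideleRep M := Additive.ofMul (inclQ M x)

theorem inclQRep_invariant (x : Idele ℚ) (γ : M ≃ₐ[ℚ] M) :
    (ideleRep M).ρ γ (inclQRep M x) = inclQRep M x :=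
  congrArg Additive.ofMul (smul_inclQ M γ x)

theorem PsiM_of_eq (y : (ideleRep M).ρ.invariants) (x : Idele ℚ)
    (h : inclQ M x = Additive.toMul (y.1 : ideleRep M)) :
    PsiM lam M y = Multiplicative.toAdd (Phi p m lam x) := by
  exact congrArg (fun z => Multiplicative.toAdd (Phi p m lam z)) (preQ_eq M _ _ x h)

theorem PsiM_inclQ (x : Idele ℚ) :
    PsiM lam M ⟨inclQRep M x, inclQRep_invariant M x⟩ = Multiplicative.toAdd (Phi p m lam x) :=
  PsiM_of_eq lam M _ x rfl

/-- `hΨE` of `Recip/TateGen`: `Ψ` kills the invariants coming from `Mˣ` -/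
theorem PsiM_E (hp2 : p ≠ 2) (y : (ideleRep M).ρ.invariants)
    (h : ∃ e : Rep.ofAlgebraAutOnUnits ℚ M,
      (∀ g, (Rep.ofAlgebraAutOnUnits ℚ M).ρ g e = e) ∧ (diagRep M).hom e = y.1) :
    PsiM lam M y = 0 := by
  obtain ⟨e, he, hey⟩ := h
  set v : Mˣ := Additive.toMul e with hv
  have hfix : ∀ γ : M ≃ₐ[ℚ] M, γ (v : M) = v := by
    intro γ
    have := congrArg Additive.toMul (he γ)
    exact congrArg (fun w : Mˣ => (w : M)) this
  obtain ⟨a, ha⟩ := exists_unit_map_eq_of_fixed ℚ v hfix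
  have hincl : inclQ M (diagI ℚ a) = Additive.toMul (y.1 : ideleRep M) := by
    rw [← hey]
    change Idele.incl _ (diagI ℚ a) = diagI M v
    rw [Idele.incl_diagI, ← ha]
    rfl
  rw [PsiM_of_eq lam M y _ hincl, Phi_diagI lam hp2, toAdd_one]

/-- `hΨN` of `Recip/TateGen`: `Ψ` kills the norms, provided `Φ` kills the idele norms from `M` -/
theorem PsiM_N (hnorm : ∀ j : Idele M, Phi p m lam (Idele.norm (IsScalarTower.toAlgHom ℚ ℚ M) j) = 1)
    (y : (ideleRep M).ρ.invariants) (h : ∃ j : ideleRep M, (ideleRep M).ρ.norm j = y.1) :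
    PsiM lam M y = 0 := by
  obtain ⟨j, hj⟩ := h
  have hincl : inclQ M (Idele.norm (IsScalarTower.toAlgHom ℚ ℚ M) (Additive.toMul j)) =
      Additive.toMul (y.1 : ideleRep M) := by
    rw [← hj]
    change Idele.incl _ (Idele.norm _ _) = _
    rw [Idele.incl_norm]
    simp only [autToQ_rat]
    have hn : (ideleRep M).ρ.norm j = ∑ g : M ≃ₐ[ℚ] M, (ideleRep M).ρ g j := by
      simp [Representation.norm]
    rw [hn]
    exact (toMul_sum_ofMulDistribMulAction Finset.univ j).symm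
  rw [PsiM_of_eq lam M y _ hincl, hnorm, toAdd_one]

end Psi

/-! ### The cyclotomic classes -/

section Class

variable (M : Type) [Field M] [NumberField M] [IsGalois ℚ M] {ζ : M}
  (hζ : IsPrimitiveRoot ζ (p ^ (m + 1)))

/-- the class `π_*(x ∪ δχ) ∈ H²(Γ, C(M))` of an idele `x` of `ℚ` -/
def cycloClass (x : Idele ℚ) : groupCohomology (classRep M) 2 :=
  groupCohomology.map (MonoidHom.id (M ≃ₐ[ℚ] M)) (ideleToClassRep M) 2
    (cupδ (chiM lam hζ) (chiM_mul lam hζ) (inclQRep M x) (inclQRep_invariant M x))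

end Class

/-! ### (ORD) at the cyclotomic field itself -/

section Ord

variable (M : Type) [Field M] [NumberField M] [IsCyclotomicExtension {p ^ (m + 1)} ℚ M]
  {ζ : M} (hζ : IsPrimitiveRoot ζ (p ^ (m + 1)))

/-- the `p`-Sylow subgroup of `Gal(ℚ(ζ_{p^(m+1)})/ℚ)` -/
def sylP : Subgroup (M ≃ₐ[ℚ] M) :=
  ((powMonoidHom (p ^ m) : (ZMod (p ^ (m + 1)))ˣ →* (ZMod (p ^ (m + 1)))ˣ).comp
    (hζ.autToPow ℚ)).ker

theorem mem_sylP (σ : M ≃ₐ[ℚ] M) : σ ∈ sylP M hζ ↔ (hζ.autToPow ℚ σ) ^ (p ^ m) = 1 := Iff.rfl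

theorem autToPow_bijective : Function.Bijective (hζ.autToPow ℚ) := by
  haveI : IsGalois ℚ M := IsCyclotomicExtension.isGalois {p ^ (m + 1)} ℚ M
  rw [Fintype.bijective_iff_injective_and_card]
  refine ⟨hζ.autToPow_injective ℚ, ?_⟩
  rw [← Nat.card_eq_fintype_card, ← Nat.card_eq_fintype_card, IsGalois.card_aut_eq_finrank,
    IsCyclotomicExtension.finrank (n := p ^ (m + 1)) M
      (Polynomial.cyclotomic.irreducible_rat (pow_pos hp.out.pos _)),
    Nat.card_eq_fintype_card, ZMod.card_units_eq_totient]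

variable (hlam : Function.Surjective lam)

include hlam in
theorem chiM_injOn_sylP : Function.Injective (χres (sylP M hζ) (chiM lam hζ)) := by
  intro σ τ h
  have h1 : chiM lam hζ ((σ : M ≃ₐ[ℚ] M) * (τ : M ≃ₐ[ℚ] M)⁻¹) = 0 := by
    have h2 : chiM lam hζ ((τ : M ≃ₐ[ℚ] M)⁻¹) = - chiM lam hζ τ := by
      have := chiM_mul lam hζ (τ : M ≃ₐ[ℚ] M) (τ : M ≃ₐ[ℚ] M)⁻¹
      rw [mul_inv_cancel] at this
      have h0 : chiM lam hζ (1 : M ≃ₐ[ℚ] M) = 0 := by
        unfold chiM
        rw [map_one, map_one, toAdd_one]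
      rw [h0] at this
      exact eq_neg_of_add_eq_zero_right this.symm
    rw [chiM_mul, h2]
    have : chiM lam hζ σ = chiM lam hζ τ := h
    rw [this, add_neg_cancel]
  rw [chiM_eq_zero_iff] at h1
  have hmem : (σ * τ⁻¹ : sylP M hζ).1 ∈ sylP M hζ := (σ * τ⁻¹).2
  rw [mem_sylP] at hmem
  have h3 := eq_one_of_lam_eq_one_of_pow lam hlam hmem h1
  have h4 : ((σ : M ≃ₐ[ℚ] M) * (τ : M ≃ₐ[ℚ] M)⁻¹) = 1 := by
    apply hζ.autToPow_injective ℚ
    rw [map_one]
    exact h3
  exact Subtype.ext (mul_inv_eq_one.1 h4)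

include hlam in
theorem exists_mem_sylP_chiM_eq_one : ∃ σ : sylP M hζ, χres (sylP M hζ) (chiM lam hζ) σ = 1 := by
  obtain ⟨u, hu⟩ := hlam (Multiplicative.ofAdd 1)
  -- an inverse of `p - 1` modulo `p ^ m`
  have hcop : Nat.Coprime (p - 1) (p ^ m) := by
    apply Nat.Coprime.pow_right
    rw [Nat.coprime_comm, Nat.Prime.coprime_iff_not_dvd hp.out]
    intro hd
    have := Nat.le_of_dvd (Nat.sub_pos_of_lt hp.out.one_lt) hd
    have := hp.out.one_lt
    omega
  obtain ⟨t, ht⟩ : ∃ t : ℕ, (((p - 1) * t : ℕ) : ZMod (p ^ m)) = 1 := by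
    have hunit : IsUnit (((p - 1 : ℕ)) : ZMod (p ^ m)) := (ZMod.isUnit_iff_coprime _ _).2 hcop
    obtain ⟨v, hv⟩ := hunit
    refine ⟨((v⁻¹ : (ZMod (p ^ m))ˣ) : ZMod (p ^ m)).val, ?_⟩
    rw [Nat.cast_mul, ZMod.natCast_val, ZMod.cast_id', id, ← hv, Units.mul_inv]
  set u' := u ^ ((p - 1) * t) with hu'
  obtain ⟨σ, hσ⟩ := (autToPow_bijective M hζ).2 u'
  have hσP : σ ∈ sylP M hζ := by
    rw [mem_sylP, hσ, hu', ← pow_mul]
    have hcard := pow_card_eq_one' (G := (ZMod (p ^ (m + 1)))ˣ) (x := u)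
    rw [card_units_prime_pow] at hcard
    rw [show (p - 1) * t * p ^ m = (p ^ m * (p - 1)) * t by ring, pow_mul, hcard, one_pow]
  refine ⟨⟨σ, hσP⟩, ?_⟩
  change Multiplicative.toAdd (lam (hζ.autToPow ℚ σ)) = 1
  rw [hσ, hu', map_pow, hu, toAdd_pow, toAdd_ofAdd, nsmul_eq_mul, mul_one, ht]

include hlam in
theorem card_sylP : Nat.card (sylP M hζ) = p ^ m := by
  obtain ⟨σ, hσ⟩ := exists_mem_sylP_chiM_eq_one lam M hζ hlam
  have hadd : ∀ a b : sylP M hζ, χres (sylP M hζ) (chiM lam hζ) (a * b) =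
      χres (sylP M hζ) (chiM lam hζ) a + χres (sylP M hζ) (chiM lam hζ) b :=
    fun a b => chiM_mul lam hζ a b
  have hbij : Function.Bijective (χres (sylP M hζ) (chiM lam hζ)) := by
    refine ⟨chiM_injOn_sylP lam M hζ hlam, ?_⟩
    intro y
    refine ⟨σ ^ y.val, ?_⟩
    have hpow : ∀ n : ℕ, χres (sylP M hζ) (chiM lam hζ) (σ ^ n) = n • (1 : ZMod (p ^ m)) := by
      intro n
      induction n with
      | zero =>
        rw [pow_zero, zero_smul]
        change chiM lam hζ (1 : M ≃ₐ[ℚ] M) = 0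
        unfold chiM
        rw [map_one, map_one, toAdd_one]
      | succ n ih => rw [pow_succ, hadd, ih, hσ, succ_nsmul]
    rw [hpow, nsmul_eq_mul, mul_one, ZMod.natCast_val, ZMod.cast_id', id]
  rw [Nat.card_congr (Equiv.ofBijective _ hbij), Nat.card_zmod]

include hlam in
theorem index_sylP : (sylP M hζ).index = p - 1 := by
  haveI : IsGalois ℚ M := IsCyclotomicExtension.isGalois {p ^ (m + 1)} ℚ M
  have h1 := Subgroup.card_mul_index (sylP M hζ)
  rw [card_sylP lam M hζ hlam, IsGalois.card_aut_eq_finrank,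
    IsCyclotomicExtension.finrank (n := p ^ (m + 1)) M
      (Polynomial.cyclotomic.irreducible_rat (pow_pos hp.out.pos _)),
    Nat.totient_prime_pow_succ hp.out] at h1
  exact Nat.eq_of_mul_eq_mul_left (pow_pos hp.out.pos m) h1

include hlam in
/-- **(ORD) at the cyclotomic field**: the order of `cycloClass x` in `H²(Gal(ℚ(ζ)/ℚ), C)` is at
least the order of `Φ x`. -/
theorem orderOf_Phi_dvd_of_nsmul_cycloClass_cyclotomic (hp2 : p ≠ 2)
    (hnorm : ∀ j : Idele M, Phi p m lam (Idele.norm (IsScalarTower.toAlgHom ℚ ℚ M) j) = 1)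
    (x : Idele ℚ) (k : ℕ)
    (hk : haveI : IsGalois ℚ M := IsCyclotomicExtension.isGalois {p ^ (m + 1)} ℚ M
      k • cycloClass lam M hζ x = 0) :
    orderOf (Phi p m lam x) ∣ k := by
  haveI : IsGalois ℚ M := IsCyclotomicExtension.isGalois {p ^ (m + 1)} ℚ M
  obtain ⟨σ, hσ⟩ := exists_mem_sylP_chiM_eq_one lam M hζ hlam
  have h := nsmul_Psi_eq_zero_of_nsmul_map_cupδ_eq_zero (sylP M hζ) (diagRep M)
    (ideleToClassRep M) (PsiM lam M) (chiM_mul lam hζ)
    (fun a b hab => by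
      have := diagI_injective (M := M) (congrArg Additive.toMul hab)
      exact congrArg Additive.ofMul this)
    (fun c => by
      obtain ⟨b, hb⟩ := toClassGrp_surjective M (Additive.toMul c)
      exact ⟨Additive.ofMul b, congrArg Additive.ofMul hb⟩)
    (fun y hy => by
      have h1 : toClassGrp M (Additive.toMul y) = 1 := congrArg Additive.toMul hy
      rw [toClassGrp_eq_one_iff] at h1
      obtain ⟨u, hu⟩ := h1
      exact ⟨Additive.ofMul u, congrArg Additive.ofMul hu⟩)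
    (PsiM_E lam M hp2) (PsiM_N lam M hnorm)
    (chiM_injOn_sylP lam M hζ hlam) σ hσ (inclQRep M x) (inclQRep_invariant M x) k hk
  rw [PsiM_inclQ, index_sylP lam M hζ hlam, ← toAdd_pow, toAdd_eq_zero] at h
  have h1 : orderOf (Phi p m lam x) ∣ (p - 1) * k := orderOf_dvd_of_pow_eq_one h
  have h2 : orderOf (Phi p m lam x) ∣ p ^ m := by
    have := orderOf_dvd_natCard (Phi p m lam x)
    rwa [card_multiplicative_zmod_prime_pow] at this
  have hcop : Nat.Coprime (orderOf (Phi p m lam x)) (p - 1) := by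
    apply Nat.Coprime.coprime_dvd_left h2
    apply Nat.Coprime.pow_left
    rw [Nat.Prime.coprime_iff_not_dvd hp.out]
    intro hd
    have := Nat.le_of_dvd (Nat.sub_pos_of_lt hp.out.one_lt) hd
    have := hp.out.one_lt
    omega
  exact hcop.dvd_of_dvd_mul_left h1

end Ord

/-! ### (LN) for every number field containing `ζ_{p^(m+1)}` -/

/-- **(LN)**: `Φ` kills all local norms from a number field containing `ζ_{p^(m+1)}` -/
theorem ln_of_isPrimitiveRoot (hp2 : p ≠ 2) (M : Type) [Field M] [NumberField M] {ζ : M}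
    (hζ : IsPrimitiveRoot ζ (p ^ (m + 1))) : LN p m lam M := by
  refine LocalH.ln_of_tame lam hp2 M ζ hζ (fun q _ hqp ι => ?_)
  have hmem : ι ζ ∈ localField q M ι := IntermediateField.subset_adjoin _ _ ⟨ζ, rfl⟩
  refine lnAt_of_ne lam hqp (localField q M ι) ⟨ι ζ, hmem⟩ ?_
  apply IsPrimitiveRoot.of_map_of_injective (f := (localField q M ι).val) _
    (localField q M ι).val.injective
  exact hζ.map_of_injective ι.injective

/-- `Φ` kills the idele norms from a number field containing `ζ_{p^(m+1)}` -/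
theorem Phi_norm_of_isPrimitiveRoot (hp2 : p ≠ 2) (M : Type) [Field M] [NumberField M] {ζ : M}
    (hζ : IsPrimitiveRoot ζ (p ^ (m + 1))) (φ : ℚ →ₐ[ℚ] M) (j : Idele M) :
    Phi p m lam (Idele.norm φ j) = 1 :=
  Phi_norm lam (ln_of_isPrimitiveRoot lam hp2 M hζ) φ j

/-! ### Inflation from `ℚ(ζ)` and (ORD-all) -/

section Tower

variable (M : Type) [Field M] [NumberField M] [IsGalois ℚ M] {ζ : M}
  (hζ : IsPrimitiveRoot ζ (p ^ (m + 1)))

/-- the cyclotomic subfield `ℚ(ζ) ⊂ M` -/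
abbrev cycSub (ζ : M) : IntermediateField ℚ M := IntermediateField.adjoin ℚ {ζ}

include hζ in
theorem isCyclotomicExtension_cycSub :
    IsCyclotomicExtension {p ^ (m + 1)} ℚ (cycSub M ζ) :=
  hζ.intermediateField_adjoin_isCyclotomicExtension ℚ

end Tower

end Fermat.Agent.S55lib.Places
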