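/-
S55lib / Places / Approx (lead).
(P6b): the integers of `M` are dense in the `v`-integral elements: for `x₀ : M` with `‖ι x₀‖ ≤ 1`
and `ε > 0` there is `x : 𝓞 M` with `‖ι x - ι x₀‖ < ε`.
-/
import Mathlib
import Fermat.Agent.S55lib.Places.Val

set_option autoImplicit false

noncomputable section

namespace Fermat.Agent.S55lib.Places

open NumberField IsDedekindDomain

variable {q : ℕ} [Fact q.Prime] {M : Type*} [Field M] [NumberField M]

/-- an element which is integral at `ι` is a quotient `a / d` of integers with `d` a unit at `ι` -/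
theorem exists_integer_mul_eq (ι : M →ₐ[ℚ] PadicAlgCl q) (x : M) (hx : ‖ι x‖ ≤ 1) :
    ∃ a d : 𝓞 M, d ∉ (primeOf ι).asIdeal ∧ x * (d : M) = (a : M) := by
  obtain ⟨n, d, h | h⟩ := (primeOf ι).exists_primeCompl_mul_eq_or_mul_eq (K := M) x
  · exact ⟨n, d, d.2, h⟩
  · -- x * n = d with d a unit at ι: then n is a unit at ι as well
    have hd1 : ‖ι (((d : 𝓞 M)) : M)‖ = 1 := norm_eq_one_of_notMem ι d.2
    have h1 : ‖ι x‖ * ‖ι (n : M)‖ = 1 := by
      have := congrArg (fun y => ‖ι y‖) h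
      simp only [map_mul, norm_mul] at this
      rw [this]; exact hd1
    have hn_le : ‖ι (n : M)‖ ≤ 1 := norm_le_one_of_mem_integers ι n
    have hn1 : ‖ι (n : M)‖ = 1 := by
      apply le_antisymm hn_le
      calc (1 : ℝ) = ‖ι x‖ * ‖ι (n : M)‖ := h1.symm
        _ ≤ 1 * ‖ι (n : M)‖ := mul_le_mul_of_nonneg_right hx (norm_nonneg _)
        _ = _ := one_mul _
    have hn : n ∉ (primeOf ι).asIdeal := notMem_idealOf_iff.mpr hn1
    exact ⟨d, n, hn, h⟩

/-- **(P6b)** density of `𝓞 M` in the `ι`-integral elements of `M`. -/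
theorem exists_integer_norm_sub_lt (ι : M →ₐ[ℚ] PadicAlgCl q) (x₀ : M) (hx : ‖ι x₀‖ ≤ 1)
    {ε : ℝ} (hε : 0 < ε) : ∃ x : 𝓞 M, ‖ι (x : M) - ι x₀‖ < ε := by
  obtain ⟨a, d, hd, had⟩ := exists_integer_mul_eq ι x₀ hx
  have hmax : (primeOf ι).asIdeal.IsMaximal := (primeOf ι).isMaximal
  obtain ⟨e₀, m₀, hm₀, he⟩ := hmax.exists_inv hd
  -- e₀ * d + m₀ = 1
  have hm₀lt : ‖ι (m₀ : M)‖ < 1 := mem_primeOf.mp hm₀
  obtain ⟨n, hn⟩ := exists_pow_lt_of_lt_one hε hm₀lt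
  refine ⟨a * e₀ * ∑ i ∈ Finset.range n, m₀ ^ i, ?_⟩
  have key : ((a * e₀ * ∑ i ∈ Finset.range n, m₀ ^ i : 𝓞 M) : M) - x₀ = - (x₀ * (m₀ : M) ^ n) := by
    have h1 : (e₀ : M) * (d : M) = 1 - (m₀ : M) := by
      have := congrArg (fun z : 𝓞 M => (z : M)) he
      simp only [map_add, map_mul, map_one] at this
      linear_combination this
    have h2 : (∑ i ∈ Finset.range n, (m₀ : M) ^ i) * ((m₀ : M) - 1) = (m₀ : M) ^ n - 1 :=
      geom_sum_mul _ _
    have h3 : ((a * e₀ * ∑ i ∈ Finset.range n, m₀ ^ i : 𝓞 M) : M) =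
        (a : M) * (e₀ : M) * ∑ i ∈ Finset.range n, (m₀ : M) ^ i := by
      simp only [map_mul, map_sum, map_pow]
    rw [h3, ← had]
    linear_combination (- x₀) * h2 + x₀ * (∑ i ∈ Finset.range n, (m₀ : M) ^ i) * h1
  rw [← map_sub, key, map_neg, norm_neg, map_mul, norm_mul, map_pow, norm_pow]
  calc ‖ι x₀‖ * ‖ι (m₀ : M)‖ ^ n ≤ 1 * ‖ι (m₀ : M)‖ ^ n :=
        mul_le_mul_of_nonneg_right hx (by positivity)
    _ = ‖ι (m₀ : M)‖ ^ n := one_mul _
    _ < ε := hn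

end Fermat.Agent.S55lib.Places
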